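/-
PT-B (bridge for S55) — INTERFACE FILE (definitions and statements only, no proofs).
Project PT = Poitou–Tate campaign for S55 (captain helper55, NOTES/S55-plan.md);
PT-B sub-captain: helper54; piece table: NOTES/PT-B.md.

PT-B connects the prelude's objects (`IsUnramifiedOutside`, `IsLevelConstantS₁/₂`, `continuousH1S`,
`continuousH2S`, `continuousH2`, `extArithLoc`, `padicEmbedding`, `localGaloisToGlobal`) with
finite Galois extensions `L/ℚ` inside `ℚ̄` and finite extensions `ℚ_q·ι(L)/ℚ_q` inside `PadicAlgCl q`.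

Every `Stmt…` below is a `Prop`; the piece `X` is DONE when `theorem stmtX : StmtX` is landed.
-/
import Fermat.Prelude.Def_GroupCohomology_ContinuousUnramified

set_option autoImplicit false

namespace Fermat.Agent.PT.B

open CategoryTheory groupCohomology ExtCitation

/-- `G_ℚ` -/
abbrev GQ : Type := AlgebraicClosure ℚ ≃ₐ[ℚ] AlgebraicClosure ℚ

/-- `ℚ̄ ⊂ ℚ̄_q` as a type-level abbreviation for intermediate fields of `ℚ̄/ℚ`. -/
abbrev QbarField : Type := IntermediateField ℚ (AlgebraicClosure ℚ)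

/-- The tower `𝓕_S`: finite GALOIS extensions of `ℚ` inside `ℚ̄`, unramified outside `S`. -/
def IsTowerField (S : Finset Nat.Primes) (L : QbarField) : Prop :=
  L.IsUnramifiedOutside S ∧ IsGalois ℚ L

/-! ### Global pieces -/

/-- **B-nc** (normal closure): every field unramified outside `S` lies in a Galois one. -/
def StmtNormalClosure : Prop :=
  ∀ (S : Finset Nat.Primes) (F : QbarField), F.IsUnramifiedOutside S →
    ∃ L : QbarField, F ≤ L ∧ IsTowerField S L

/-- **B-ker** (kernel field): a finite-dimensional smooth representation of `G_ℚ` which is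
unramified outside `S` is trivial on `Gal(ℚ̄/L)` for some `L` in the tower. -/
def StmtKernelField : Prop :=
  ∀ (k : Type) [Field k] (S : Finset Nat.Primes) (M : Rep.{0, 0, 0} k GQ) [FiniteDimensional k M],
    (∀ m : M, ∃ F : QbarField, FiniteDimensional ℚ F ∧ ∀ s ∈ F.fixingSubgroup, M.ρ s m = m) →
    (∀ q : Nat.Primes, q ∉ S → ∀ A : ValuationSubring (AlgebraicClosure ℚ),
      A.LiesOverPrime (q : ℕ) → ∀ g ∈ A.inertiaSubgroupIn ℚ, M.ρ g = 1) →
    ∃ L : QbarField, IsTowerField S L ∧ ∀ s ∈ L.fixingSubgroup, M.ρ s = 1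

/-- **B-cyc** (cyclotomic field): the mod `p` cyclotomic character is trivial on `Gal(ℚ̄/L)` for
some `L` in the tower, as soon as `p ∈ S`. -/
def StmtCycloField : Prop :=
  ∀ (p : ℕ) [Fact p.Prime] (S : Finset Nat.Primes), pPrime p ∈ S →
    ∃ L : QbarField, IsTowerField S L ∧ ∀ s ∈ L.fixingSubgroup, cycloChar p s = 1

/-- **B-dual** (the dual twist is again smooth and unramified outside `S`). -/
def StmtDualTwist : Prop :=
  ∀ (p : ℕ) [Fact p.Prime] (S : Finset Nat.Primes), pPrime p ∈ S →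
    ∀ (M : Rep.{0, 0, 0} (ZMod p) GQ) [FiniteDimensional (ZMod p) M] (L : QbarField), IsTowerField S L →
      (∀ s ∈ L.fixingSubgroup, M.ρ s = 1) →
      ∃ L' : QbarField, L ≤ L' ∧ IsTowerField S L' ∧
        (∀ s ∈ L'.fixingSubgroup, cycloChar p s = 1) ∧
        ∀ s ∈ L'.fixingSubgroup, (M.dualTwist (cycloChar p)).ρ s = 1

/-! ### Local pieces (at a prime `q`) -/

section Local

variable (q : ℕ) [Fact q.Prime]

/-- `G_{ℚ_q} = Gal(ℚ̄_q/ℚ_q)` -/
abbrev GQq : Type := PadicAlgCl q ≃ₐ[ℚ_[q]] PadicAlgCl q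

/-- The local field `L_q := ℚ_q·ι(L) ⊂ ℚ̄_q` attached to `L ⊂ ℚ̄` (`ι = padicEmbedding q`). -/
noncomputable def localField (L : QbarField) : IntermediateField ℚ_[q] (PadicAlgCl q) :=
  IntermediateField.adjoin ℚ_[q] ((padicEmbedding q) '' (L : Set (AlgebraicClosure ℚ)))

end Local

/-- **B-loc1**: the pull-back of `Gal(ℚ̄/F)` along `localGaloisToGlobal q` is `Gal(ℚ̄_q/F_q)`. -/
def StmtLocalLevel : Prop :=
  ∀ (q : ℕ) [Fact q.Prime] (F : QbarField) (τ : GQq q),
    localGaloisToGlobal q τ ∈ F.fixingSubgroup ↔ τ ∈ (localField q F).fixingSubgroup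

/-- **B-locfin**: `F_q/ℚ_q` is finite when `F/ℚ` is. -/
def StmtLocalFinite : Prop :=
  ∀ (q : ℕ) [Fact q.Prime] (F : QbarField), FiniteDimensional ℚ F →
    FiniteDimensional ℚ_[q] (localField q F)

/-- **B-kras** (Krasner): the fields `F_q`, `F/ℚ` finite Galois, are cofinal among the finite
extensions of `ℚ_q` inside `ℚ̄_q`. -/
def StmtKrasner : Prop :=
  ∀ (q : ℕ) [Fact q.Prime] (K' : IntermediateField ℚ_[q] (PadicAlgCl q)),
    FiniteDimensional ℚ_[q] K' →
    ∃ F : QbarField, FiniteDimensional ℚ F ∧ IsGalois ℚ F ∧ K' ≤ localField q F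

/-- **B-dec** (decomposition group): for `L/ℚ` finite Galois inside `ℚ̄`, every element of the
decomposition group of `padicPlace q` agrees on `L` with the image of a local Galois element. -/
def StmtDecomp : Prop :=
  ∀ (q : ℕ) [Fact q.Prime] (L : QbarField), FiniteDimensional ℚ L → IsGalois ℚ L →
    ∀ σ ∈ (padicPlace q).decompositionSubgroup ℚ,
      ∃ τ : GQq q, ∀ x ∈ L, localGaloisToGlobal q τ x = σ x

end Fermat.Agent.PT.B
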