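/-
PT-B piece B-nc: the tower `𝓕_S` is closed under conjugation, normal closure and sup.

* `mem_inertiaSubgroupIn_iff` : elementwise description of the prelude's inertia subgroup;
* `conj_mem_inertiaSubgroupIn` : `τ I_A τ⁻¹ ⊆ I_{τ A}`;
* `isUnramifiedOutside_map`    : conjugates of fields unramified outside `S`;
* `stmtNormalClosure : StmtNormalClosure`;
* `isTowerField_sup`, `exists_isTowerField_ge` : the tower is directed.
-/
import Fermat.Agent.PT.B.Plan

set_option autoImplicit false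
set_option linter.style.haveILetI false

namespace Fermat.Agent.PT.B

open scoped Pointwise

section General

variable {K L : Type*} [Field K] [Field L] [Algebra K L]

/-- Elementwise description of the prelude's inertia subgroup. -/
theorem mem_inertiaSubgroupIn_iff (A : ValuationSubring L) (σ : L ≃ₐ[K] L) :
    σ ∈ A.inertiaSubgroupIn K ↔
      σ ∈ A.decompositionSubgroup K ∧ ∀ x ∈ A, σ x - x ∈ A.nonunits := by
  constructor
  · rintro ⟨τ, hτ, rfl⟩
    refine ⟨τ.2, fun x hx => ?_⟩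
    have h1 : MulSemiringAction.toRingAut (A.decompositionSubgroup K)
        (IsLocalRing.ResidueField A) τ = 1 := hτ
    have h2 : τ • (IsLocalRing.residue A ⟨x, hx⟩) = IsLocalRing.residue A ⟨x, hx⟩ := by
      have := congrArg (fun f : RingAut (IsLocalRing.ResidueField A) =>
        f (IsLocalRing.residue A ⟨x, hx⟩)) h1
      simpa using this
    have h3 : IsLocalRing.residue A (τ • (⟨x, hx⟩ : A)) = IsLocalRing.residue A ⟨x, hx⟩ := h2
    have h4 : IsLocalRing.residue A (τ • (⟨x, hx⟩ : A) - ⟨x, hx⟩) = 0 := by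
      rw [map_sub, h3, sub_self]
    have h5 : (τ • (⟨x, hx⟩ : A) - ⟨x, hx⟩) ∈ IsLocalRing.maximalIdeal A :=
      (IsLocalRing.residue_eq_zero_iff _).1 h4
    have h6 : ((τ • (⟨x, hx⟩ : A) - ⟨x, hx⟩ : A) : L) ∈ A.nonunits := by
      rw [ValuationSubring.mem_nonunits_iff_exists_mem_maximalIdeal]
      exact ⟨(τ • (⟨x, hx⟩ : A) - ⟨x, hx⟩ : A).2, h5⟩
    exact h6
  · rintro ⟨hσ, h⟩
    refine ⟨⟨σ, hσ⟩, ?_, rfl⟩
    show (⟨σ, hσ⟩ : A.decompositionSubgroup K) ∈ MonoidHom.ker _
    rw [MonoidHom.mem_ker]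
    ext r
    obtain ⟨x, rfl⟩ := IsLocalRing.residue_surjective r
    show IsLocalRing.residue A ((⟨σ, hσ⟩ : A.decompositionSubgroup K) • x)
      = IsLocalRing.residue A x
    rw [← sub_eq_zero, ← map_sub, IsLocalRing.residue_eq_zero_iff]
    have h1 := h x x.2
    rw [ValuationSubring.mem_nonunits_iff_exists_mem_maximalIdeal] at h1
    obtain ⟨hmem, h2⟩ := h1
    exact h2

/-- `x ∈ τ • A ↔ τ⁻¹ x ∈ A`. -/
theorem mem_smul_valuationSubring_iff (A : ValuationSubring L) (τ : L ≃ₐ[K] L) (x : L) :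
    x ∈ τ • A ↔ τ⁻¹ x ∈ A :=
  ValuationSubring.mem_pointwise_smul_iff_inv_smul_mem

/-- `x ∈ 𝔪_{τ A} ↔ τ⁻¹ x ∈ 𝔪_A`. -/
theorem mem_nonunits_smul_valuationSubring_iff (A : ValuationSubring L) (τ : L ≃ₐ[K] L)
    (x : L) : x ∈ (τ • A).nonunits ↔ τ⁻¹ x ∈ A.nonunits := by
  rw [ValuationSubring.mem_nonunits_iff_or, ValuationSubring.mem_nonunits_iff_or,
    mem_smul_valuationSubring_iff, map_inv₀]
  simp

/-- Conjugation of inertia: `τ I_A τ⁻¹ ⊆ I_{τ A}`. -/
theorem conj_mem_inertiaSubgroupIn (A : ValuationSubring L) (τ σ : L ≃ₐ[K] L)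
    (hσ : σ ∈ A.inertiaSubgroupIn K) : τ * σ * τ⁻¹ ∈ (τ • A).inertiaSubgroupIn K := by
  rw [mem_inertiaSubgroupIn_iff] at hσ ⊢
  obtain ⟨hD, hI⟩ := hσ
  refine ⟨?_, fun x hx => ?_⟩
  · rw [MulAction.mem_stabilizer_iff] at hD ⊢
    rw [mul_smul, mul_smul, inv_smul_smul, hD]
  · rw [mem_smul_valuationSubring_iff] at hx
    rw [mem_nonunits_smul_valuationSubring_iff]
    have := hI _ hx
    have e : τ⁻¹ ((τ * σ * τ⁻¹) x - x) = σ (τ⁻¹ x) - τ⁻¹ x := by
      rw [map_sub]
      congr 1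
      show τ⁻¹ (τ (σ (τ⁻¹ x))) = σ (τ⁻¹ x)
      exact (τ.symm_apply_apply _)
    rw [e]
    exact this

/-- Conjugates of a valuation subring over `q` lie over `q`. -/
theorem liesOverPrime_smul (A : ValuationSubring L) (τ : L ≃ₐ[K] L) (q : ℕ)
    (h : A.LiesOverPrime q) : (τ • A).LiesOverPrime q := by
  unfold ValuationSubring.LiesOverPrime at h ⊢
  rw [mem_nonunits_smul_valuationSubring_iff]
  have : τ⁻¹ (q : L) = (q : L) := map_natCast τ⁻¹ q
  rw [this]
  exact h

end General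

/-- Conjugates of a field unramified outside `S` are unramified outside `S`. -/
theorem isUnramifiedOutside_map (S : Finset Nat.Primes) (F : QbarField)
    (hF : F.IsUnramifiedOutside S) (τ : GQ) :
    (F.map (τ : AlgebraicClosure ℚ →ₐ[ℚ] AlgebraicClosure ℚ)).IsUnramifiedOutside S := by
  haveI := hF.1
  refine ⟨?_, fun q hq A hA σ hσ => ?_⟩
  · exact LinearEquiv.finiteDimensional
      (F.equivMap (τ : AlgebraicClosure ℚ →ₐ[ℚ] AlgebraicClosure ℚ)).toLinearEquiv
  · rw [IntermediateField.mem_fixingSubgroup_iff]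
    rintro x ⟨y, hy, rfl⟩
    -- `τ⁻¹ σ τ ∈ I_{τ⁻¹ A}`
    have h1 : τ⁻¹ * σ * τ⁻¹⁻¹ ∈ (τ⁻¹ • A).inertiaSubgroupIn ℚ :=
      conj_mem_inertiaSubgroupIn A τ⁻¹ σ hσ
    have h2 := hF.2 q hq (τ⁻¹ • A) (liesOverPrime_smul A τ⁻¹ q hA) h1
    rw [IntermediateField.mem_fixingSubgroup_iff] at h2
    have h3 := h2 y hy
    rw [inv_inv] at h3
    have h4 : τ⁻¹ (σ (τ y)) = y := h3
    have h5 : τ (τ⁻¹ (σ (τ y))) = σ (τ y) := τ.apply_symm_apply _
    rw [h4] at h5
    exact h5.symm

/-- **B-nc**: every field unramified outside `S` lies in a Galois one. -/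
theorem stmtNormalClosure : StmtNormalClosure := by
  intro S F hF
  haveI := hF.1
  haveI : IsAlgClosure ℚ (AlgebraicClosure ℚ) :=
    ⟨inferInstance, AlgebraicClosure.isAlgebraic ℚ⟩
  haveI : Normal ℚ (AlgebraicClosure ℚ) := IsAlgClosure.normal ℚ (AlgebraicClosure ℚ)
  refine ⟨IntermediateField.normalClosure ℚ F (AlgebraicClosure ℚ),
    IntermediateField.le_normalClosure F, ⟨?_, fun q hq A hA σ hσ => ?_⟩, ?_⟩
  · infer_instance
  · rw [IntermediateField.mem_fixingSubgroup_iff]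
    intro x hx
    have hle : IntermediateField.normalClosure ℚ F (AlgebraicClosure ℚ) ≤
        IntermediateField.fixedField (Subgroup.zpowers σ) := by
      refine le_trans (le_of_eq (IntermediateField.normalClosure_def'' F)) ?_
      refine iSup_le fun τ => ?_
      intro z hz
      rw [IntermediateField.mem_fixedField_iff]
      intro g hg
      obtain ⟨n, rfl⟩ := Subgroup.mem_zpowers_iff.1 hg
      have hfix := (isUnramifiedOutside_map S F hF τ).2 q hq A hA hσ
      have hpow : σ ^ n ∈ (F.map (τ : AlgebraicClosure ℚ →ₐ[ℚ] AlgebraicClosure ℚ)).fixingSubgroup :=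
        Subgroup.zpow_mem _ hfix n
      rw [IntermediateField.mem_fixingSubgroup_iff] at hpow
      exact hpow z hz
    have := hle hx
    rw [IntermediateField.mem_fixedField_iff] at this
    exact this σ (Subgroup.mem_zpowers σ)
  · haveI : Normal ℚ (IntermediateField.normalClosure ℚ F (AlgebraicClosure ℚ)) :=
      normalClosure.normal ℚ F (AlgebraicClosure ℚ)
    exact ⟨⟩

/-- The tower is closed under sup. -/
theorem isTowerField_sup {S : Finset Nat.Primes} {L L' : QbarField}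
    (hL : IsTowerField S L) (hL' : IsTowerField S L') : IsTowerField S (L ⊔ L') := by
  haveI := hL.2; haveI := hL'.2
  haveI := hL.1.1; haveI := hL'.1.1
  refine ⟨hL.1.sup hL'.1, ?_⟩
  haveI hn : Normal ℚ ↥L := hL.2.to_normal
  haveI hn' : Normal ℚ ↥L' := hL'.2.to_normal
  haveI : Normal ℚ ↥(L ⊔ L') :=
    @IntermediateField.normal_sup ℚ (AlgebraicClosure ℚ) _ _ _ L L' hn hn'
  exact ⟨⟩

/-- The tower is directed: two fields unramified outside `S` lie in a common tower field. -/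
theorem exists_isTowerField_ge {S : Finset Nat.Primes} {F F' : QbarField}
    (hF : F.IsUnramifiedOutside S) (hF' : F'.IsUnramifiedOutside S) :
    ∃ L : QbarField, F ≤ L ∧ F' ≤ L ∧ IsTowerField S L := by
  obtain ⟨L, hle, hL⟩ := stmtNormalClosure S (F ⊔ F') (hF.sup hF')
  exact ⟨L, le_sup_left.trans hle, le_sup_right.trans hle, hL⟩

end Fermat.Agent.PT.B
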