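/-
PT-B: the concrete towers for the datum of `Fermat/Agent/PT/Plan.lean`.

* `towerS S`   : the global tower `{Gal(ℚ̄/F) | F unramified outside S}` on `G_ℚ`;
* `towerLoc q` : the local tower `{r_q⁻¹ Gal(ℚ̄/F) | F/ℚ finite}` on `G_{ℚ_q}`;
* `isLevel₁_towerS_iff`, … : level-constancy for these towers IS the prelude's level-constancy.
-/
import Fermat.Agent.PT.Plan
import Fermat.Agent.PT.B.NormalClosure

set_option autoImplicit false
set_option linter.style.haveILetI false

namespace Fermat.Agent.PT.B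

open Fermat.Agent.PT groupCohomology ExtCitation

/-- `Gal(ℚ̄/F)` has finite index for `F/ℚ` finite. -/
theorem finiteIndex_fixingSubgroup (F : QbarField) (hF : FiniteDimensional ℚ F) :
    F.fixingSubgroup.FiniteIndex := by
  haveI : IsAlgClosure ℚ (AlgebraicClosure ℚ) :=
    ⟨inferInstance, AlgebraicClosure.isAlgebraic ℚ⟩
  haveI : Normal ℚ (AlgebraicClosure ℚ) := IsAlgClosure.normal ℚ (AlgebraicClosure ℚ)
  -- pass to the normal closure
  let L : QbarField := IntermediateField.normalClosure ℚ F (AlgebraicClosure ℚ)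
  haveI hLn : Normal ℚ L := normalClosure.normal ℚ F (AlgebraicClosure ℚ)
  haveI hLf : FiniteDimensional ℚ L := normalClosure.is_finiteDimensional ℚ F (AlgebraicClosure ℚ)
  have hle : L.fixingSubgroup ≤ F.fixingSubgroup :=
    IntermediateField.fixingSubgroup_antitone (IntermediateField.le_normalClosure F)
  haveI : Finite (L ≃ₐ[ℚ] L) := inferInstance
  haveI : (AlgEquiv.restrictNormalHom (F := ℚ) (K₁ := AlgebraicClosure ℚ) L).ker.FiniteIndex :=
    Subgroup.finiteIndex_ker _
  haveI : L.fixingSubgroup.FiniteIndex := by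
    rw [← L.restrictNormalHom_ker]
    infer_instance
  exact Subgroup.finiteIndex_of_le hle

/-- The global tower `{Gal(ℚ̄/F) | F unramified outside S}`. -/
def towerS (S : Finset Nat.Primes) : Tower GQ where
  lev := {U | ∃ F : QbarField, F.IsUnramifiedOutside S ∧ U = F.fixingSubgroup}
  top_mem := ⟨⊥, IntermediateField.isUnramifiedOutside_bot S, by
    ext σ
    simp only [Subgroup.mem_top, true_iff]
    rw [IntermediateField.mem_fixingSubgroup_iff]
    intro x hx
    obtain ⟨r, rfl⟩ := IntermediateField.mem_bot.1 hx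
    exact σ.commutes r⟩
  inf_mem := by
    rintro _ _ ⟨F, hF, rfl⟩ ⟨F', hF', rfl⟩
    exact ⟨F ⊔ F', hF.sup hF', IntermediateField.fixingSubgroup_sup.symm⟩
  finiteIndex := by
    rintro _ ⟨F, hF, rfl⟩
    exact finiteIndex_fixingSubgroup F hF.1
  exists_normal := by
    rintro _ ⟨F, hF, rfl⟩
    obtain ⟨L, hle, hL⟩ := stmtNormalClosure S F hF
    haveI : IsAlgClosure ℚ (AlgebraicClosure ℚ) :=
      ⟨inferInstance, AlgebraicClosure.isAlgebraic ℚ⟩
    haveI : IsGalois ℚ (AlgebraicClosure ℚ) := inferInstance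
    refine ⟨L.fixingSubgroup, ⟨L, hL.1, rfl⟩, IntermediateField.fixingSubgroup_antitone hle, ?_⟩
    haveI := hL.2
    exact (InfiniteGalois.normal_iff_isGalois L).2 hL.2

/-- The local tower `{r_q⁻¹ Gal(ℚ̄/F) | F/ℚ finite}` on `G_{ℚ_q}`. -/
def towerLoc (q : ℕ) [Fact q.Prime] : Tower (GQq q) where
  lev := {V | ∃ F : QbarField, FiniteDimensional ℚ F ∧
    V = F.fixingSubgroup.comap (localGaloisToGlobal q)}
  top_mem := ⟨⊥, inferInstance, by
    ext τ
    simp only [Subgroup.mem_top, true_iff, Subgroup.mem_comap]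
    rw [IntermediateField.mem_fixingSubgroup_iff]
    intro x hx
    obtain ⟨r, rfl⟩ := IntermediateField.mem_bot.1 hx
    exact (localGaloisToGlobal q τ).commutes r⟩
  inf_mem := by
    rintro _ _ ⟨F, hF, rfl⟩ ⟨F', hF', rfl⟩
    haveI := hF; haveI := hF'
    refine ⟨F ⊔ F', IntermediateField.finiteDimensional_sup F F', ?_⟩
    rw [IntermediateField.fixingSubgroup_sup, Subgroup.comap_inf]
  finiteIndex := by
    rintro _ ⟨F, hF, rfl⟩
    haveI := finiteIndex_fixingSubgroup F hF
    rw [Subgroup.finiteIndex_iff, Subgroup.index_comap]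
    exact fun h => Subgroup.FiniteIndex.index_ne_zero (H := F.fixingSubgroup)
      (Subgroup.index_eq_zero_of_relIndex_eq_zero h)
  exists_normal := by
    rintro _ ⟨F, hF, rfl⟩
    haveI := hF
    haveI : IsAlgClosure ℚ (AlgebraicClosure ℚ) :=
      ⟨inferInstance, AlgebraicClosure.isAlgebraic ℚ⟩
    haveI : Normal ℚ (AlgebraicClosure ℚ) := IsAlgClosure.normal ℚ (AlgebraicClosure ℚ)
    haveI : IsGalois ℚ (AlgebraicClosure ℚ) := inferInstance
    let L : QbarField := IntermediateField.normalClosure ℚ F (AlgebraicClosure ℚ)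
    haveI hLn : Normal ℚ L := normalClosure.normal ℚ F (AlgebraicClosure ℚ)
    haveI hLf : FiniteDimensional ℚ L :=
      normalClosure.is_finiteDimensional ℚ F (AlgebraicClosure ℚ)
    have hLg : IsGalois ℚ L := ⟨⟩
    haveI : L.fixingSubgroup.Normal := (InfiniteGalois.normal_iff_isGalois L).2 hLg
    refine ⟨L.fixingSubgroup.comap (localGaloisToGlobal q), ⟨L, hLf, rfl⟩,
      Subgroup.comap_mono (IntermediateField.fixingSubgroup_antitone
        (IntermediateField.le_normalClosure F)), ?_⟩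
    infer_instance

/-! ### Level-constancy for the concrete towers is the prelude's level-constancy -/

theorem isLevel₁_towerS_iff (S : Finset Nat.Primes) {X : Type*} (f : GQ → X) :
    IsLevel₁ (towerS S) f ↔ IsLevelConstantS₁ S f := by
  constructor
  · rintro ⟨_, ⟨F, hF, rfl⟩, h⟩
    exact ⟨F, hF, fun g s hs => h g s hs⟩
  · rintro ⟨F, hF, h⟩
    exact ⟨F.fixingSubgroup, ⟨F, hF, rfl⟩, fun g s hs => h g s hs⟩

theorem isLevel₂_towerS_iff (S : Finset Nat.Primes) {X : Type*} (f : GQ × GQ → X) :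
    IsLevel₂ (towerS S) f ↔ IsLevelConstantS₂ S f := by
  constructor
  · rintro ⟨_, ⟨F, hF, rfl⟩, h⟩
    exact ⟨F, hF, fun g g' s s' hs hs' => h g g' s s' hs hs'⟩
  · rintro ⟨F, hF, h⟩
    exact ⟨F.fixingSubgroup, ⟨F, hF, rfl⟩, fun g g' s s' hs hs' => h g g' s s' hs hs'⟩

theorem isLevel₁_towerLoc_iff (q : ℕ) [Fact q.Prime] {X : Type*} (f : GQq q → X) :
    IsLevel₁ (towerLoc q) f ↔ IsLevelConstant₁ (localGaloisToGlobal q) f := by
  constructor
  · rintro ⟨_, ⟨F, hF, rfl⟩, h⟩
    exact ⟨F, hF, fun g s hs => h g s hs⟩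
  · rintro ⟨F, hF, h⟩
    exact ⟨F.fixingSubgroup.comap (localGaloisToGlobal q), ⟨F, hF, rfl⟩,
      fun g s hs => h g s hs⟩

theorem isLevel₂_towerLoc_iff (q : ℕ) [Fact q.Prime] {X : Type*} (f : GQq q × GQq q → X) :
    IsLevel₂ (towerLoc q) f ↔ IsLevelConstant₂ (localGaloisToGlobal q) f := by
  constructor
  · rintro ⟨_, ⟨F, hF, rfl⟩, h⟩
    exact ⟨F, hF, fun g g' s s' hs hs' => h g g' s s' hs hs'⟩
  · rintro ⟨F, hF, h⟩
    exact ⟨F.fixingSubgroup.comap (localGaloisToGlobal q), ⟨F, hF, rfl⟩,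
      fun g g' s s' hs hs' => h g g' s s' hs hs'⟩

/-- The global tower pulls back into the local tower. -/
theorem comap_mem_towerLoc (S : Finset Nat.Primes) (q : ℕ) [Fact q.Prime]
    (U : Subgroup GQ) (hU : U ∈ (towerS S).lev) :
    U.comap (localGaloisToGlobal q) ∈ (towerLoc q).lev := by
  obtain ⟨F, hF, rfl⟩ := hU
  exact ⟨F, hF.1, rfl⟩

end Fermat.Agent.PT.B
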