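/-
PT-B (bridge for S55) — INTERFACE FILE 2 (definitions and statements only).

* `towerLocP q`, `GlocS S`, `IsConcreteDatum` : what it means for a `PTDatum` to live on
  `(G_ℚ, towerS S, (G_{ℚ_q})_{q ∈ S}, cycloChar p)`;
* `StmtMirror` (piece **B-mirror**): S55 follows from the abstract theorem `StmtPTF` and ANY
  concrete datum.  (Uses only Arch.lean, Towers.lean, KernelField.lean.)
-/
import Fermat.Agent.PT.Plan
import Fermat.Agent.PT.B.Towers

set_option autoImplicit false

namespace Fermat.Agent.PT.B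

open Fermat.Agent.PT CategoryTheory groupCohomology ExtCitation

/-- The local Galois groups indexed by `S`. -/
abbrev GlocS (S : Finset Nat.Primes) : ↥S → Type := fun q => primeLocalGaloisGroup q.1

/-- The local tower at `q : Nat.Primes` (on the prelude's `primeLocalGaloisGroup q`). -/
noncomputable def towerLocP (q : Nat.Primes) : Tower (primeLocalGaloisGroup q) :=
  letI : Fact (q : ℕ).Prime := ⟨q.2⟩
  towerLoc (q : ℕ)

/-- A datum is *concrete* (for `S`, `p`) if its towers, local maps and character are the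
arithmetic ones. -/
structure IsConcreteDatum (p : ℕ) [Fact p.Prime] (S : Finset Nat.Primes)
    (D : PTDatum p GQ ↥S (GlocS S)) : Prop where
  tower : D.𝒯 = towerS S
  r : ∀ q : ↥S, D.r q = primeLocalToGlobal q.1
  towerLoc : ∀ q : ↥S, D.𝒯loc q = towerLocP q.1
  χ : D.χ = cycloChar p

/-- **B-mirror**: S55 from the abstract Poitou–Tate theorem and a concrete datum. -/
def StmtMirror : Prop :=
  StmtPTF → ∀ (p : ℕ) [Fact p.Prime], p ≠ 2 → ∀ (S : Finset Nat.Primes), pPrime p ∈ S →
    ∀ (D : PTDatum p GQ ↥S (GlocS S)), IsConcreteDatum p S D →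
    ∀ (M : Rep.{0, 0, 0} (ZMod p) GQ) [FiniteDimensional (ZMod p) M],
    (∀ m : M, ∃ F : QbarField, FiniteDimensional ℚ F ∧ ∀ s ∈ F.fixingSubgroup, M.ρ s m = m) →
    (∀ q : Nat.Primes, q ∉ S → ∀ A : ValuationSubring (AlgebraicClosure ℚ),
      A.LiesOverPrime (q : ℕ) → ∀ g ∈ A.inertiaSubgroupIn ℚ, M.ρ g = 1) →
    ∃ B : sha₁ S (M.dualTwist (cycloChar p)) →ₗ[ZMod p] sha₂ S M →ₗ[ZMod p] ZMod p,
      (∀ y, (∀ x, B y x = 0) → y = 0) ∧ (∀ x, (∀ y, B y x = 0) → x = 0)

end Fermat.Agent.PT.B
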