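/-
PT-B: THE CONCRETE DATUM — definitions (see NOTES/PT-instance.md).

* `unitsS S`      : the `S`-units of `ℚ_S` inside `ℚ̄ˣ`  (`E_S`);
* `ERep S`        : `E_S` as a representation of `G_ℚ`;
* `JlocQ q`, `JlocP q` : `ℚ̄_qˣ` as a representation of `G_{ℚ_q}`;
* `jLoc S q`      : the local embedding `E_S → ℚ̄_qˣ` (units of `padicEmbedding q`);
* `JS S`          : the semilocal module `semilocal (towerS S) r Jloc`;
* `iDiag S`       : the diagonal `E_S → J_S`;
* `CRep S`        : the class module `J_S / E_S`;  `piC S` the projection.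
-/
import Fermat.Agent.PT.Plan
import Fermat.Agent.PT.B.Plan2
import Fermat.Agent.PT.B.NormalClosure

set_option autoImplicit false
set_option linter.style.haveILetI false

noncomputable section

namespace Fermat.Agent.PT.B

open Fermat.Agent.PT CategoryTheory groupCohomology ExtCitation
open scoped Pointwise

/-! ### The `S`-units of `ℚ_S` -/

/-- `x ∈ ℚ̄ˣ` lies in a finite extension unramified outside `S`. -/
def InQS (S : Finset Nat.Primes) (x : AlgebraicClosure ℚ) : Prop :=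
  ∃ F : QbarField, F.IsUnramifiedOutside S ∧ x ∈ F

theorem InQS.mul {S : Finset Nat.Primes} {x y : AlgebraicClosure ℚ} (hx : InQS S x)
    (hy : InQS S y) : InQS S (x * y) := by
  obtain ⟨F, hF, hxF⟩ := hx
  obtain ⟨F', hF', hyF'⟩ := hy
  exact ⟨F ⊔ F', hF.sup hF', mul_mem ((le_sup_left : F ≤ F ⊔ F') hxF)
    ((le_sup_right : F' ≤ F ⊔ F') hyF')⟩

theorem InQS.inv {S : Finset Nat.Primes} {x : AlgebraicClosure ℚ} (hx : InQS S x) :
    InQS S x⁻¹ := by
  obtain ⟨F, hF, hxF⟩ := hx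
  exact ⟨F, hF, inv_mem hxF⟩

theorem inQS_one (S : Finset Nat.Primes) : InQS S (1 : AlgebraicClosure ℚ) :=
  ⟨⊥, IntermediateField.isUnramifiedOutside_bot S, one_mem _⟩

theorem InQS.map {S : Finset Nat.Primes} {x : AlgebraicClosure ℚ} (hx : InQS S x) (g : GQ) :
    InQS S (g x) := by
  obtain ⟨F, hF, hxF⟩ := hx
  exact ⟨F.map (g : AlgebraicClosure ℚ →ₐ[ℚ] AlgebraicClosure ℚ), isUnramifiedOutside_map S F hF g,
    ⟨x, hxF, rfl⟩⟩

/-- The `S`-units of `ℚ_S`: elements of `ℚ̄ˣ` lying in a finite extension unramified outside `S`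
which are units at every place of `ℚ̄` above a prime outside `S`. -/
def unitsS (S : Finset Nat.Primes) : Subgroup (AlgebraicClosure ℚ)ˣ where
  carrier := {x | InQS S (x : AlgebraicClosure ℚ) ∧
    ∀ q : Nat.Primes, q ∉ S → ∀ A : ValuationSubring (AlgebraicClosure ℚ),
      A.LiesOverPrime (q : ℕ) → x ∈ A.unitGroup}
  mul_mem' := fun {x y} hx hy => ⟨by simpa using hx.1.mul hy.1,
    fun q hq A hA => mul_mem (hx.2 q hq A hA) (hy.2 q hq A hA)⟩
  one_mem' := ⟨by simpa using inQS_one S, fun q hq A hA => one_mem _⟩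
  inv_mem' := fun {x} hx => ⟨by simpa using hx.1.inv,
    fun q hq A hA => inv_mem (hx.2 q hq A hA)⟩

theorem mem_unitsS_iff (S : Finset Nat.Primes) (x : (AlgebraicClosure ℚ)ˣ) :
    x ∈ unitsS S ↔ InQS S (x : AlgebraicClosure ℚ) ∧
      ∀ q : Nat.Primes, q ∉ S → ∀ A : ValuationSubring (AlgebraicClosure ℚ),
        A.LiesOverPrime (q : ℕ) → x ∈ A.unitGroup := Iff.rfl

/-- `x ∈ Aˣ ↔ x ∈ A ∧ x⁻¹ ∈ A`. -/
theorem mem_unitGroup_iff_mem_and_inv_mem {K : Type*} [Field K] (A : ValuationSubring K)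
    (x : Kˣ) : x ∈ A.unitGroup ↔ (x : K) ∈ A ∧ ((x⁻¹ : Kˣ) : K) ∈ A := by
  rw [ValuationSubring.mem_unitGroup_iff, ← A.valuation_le_one_iff, ← A.valuation_le_one_iff,
    Units.val_inv_eq_inv_val, map_inv₀]
  constructor
  · intro h
    rw [h]
    simp
  · rintro ⟨h1, h2⟩
    have hne : A.valuation (x : K) ≠ 0 := (Valuation.ne_zero_iff _).2 x.ne_zero
    refine le_antisymm h1 ?_
    rwa [inv_le_one₀ (zero_lt_iff.2 hne)] at h2

/-- `g x ∈ Aˣ ↔ x ∈ (g⁻¹ • A)ˣ`. -/
theorem smul_mem_unitGroup_iff (A : ValuationSubring (AlgebraicClosure ℚ)) (g : GQ)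
    (x : (AlgebraicClosure ℚ)ˣ) : g • x ∈ A.unitGroup ↔ x ∈ (g⁻¹ • A).unitGroup := by
  rw [mem_unitGroup_iff_mem_and_inv_mem, mem_unitGroup_iff_mem_and_inv_mem,
    mem_smul_valuationSubring_iff, mem_smul_valuationSubring_iff, inv_inv]
  rfl

theorem smul_mem_unitsS (S : Finset Nat.Primes) (g : GQ) {x : (AlgebraicClosure ℚ)ˣ}
    (hx : x ∈ unitsS S) : g • x ∈ unitsS S := by
  refine ⟨hx.1.map g, fun q hq A hA => ?_⟩
  rw [smul_mem_unitGroup_iff]
  exact hx.2 q hq _ (liesOverPrime_smul A g⁻¹ q hA)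

/-- `G_ℚ` acts on the `S`-units. -/
instance instMulDistribMulActionUnitsS (S : Finset Nat.Primes) :
    MulDistribMulAction GQ ↥(unitsS S) where
  smul g x := ⟨g • (x : (AlgebraicClosure ℚ)ˣ), smul_mem_unitsS S g x.2⟩
  one_smul x := Subtype.ext (one_smul _ _)
  mul_smul g h x := Subtype.ext (mul_smul _ _ _)
  smul_mul g x y := Subtype.ext (smul_mul' _ _ _)
  smul_one g := Subtype.ext (smul_one _)

@[simp] theorem coe_smul_unitsS (S : Finset Nat.Primes) (g : GQ) (x : ↥(unitsS S)) :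
    ((g • x : ↥(unitsS S)) : (AlgebraicClosure ℚ)ˣ) = g • (x : (AlgebraicClosure ℚ)ˣ) := rfl

@[simp] theorem coe_coe_smul_unitsS (S : Finset Nat.Primes) (g : GQ) (x : ↥(unitsS S)) :
    (((g • x : ↥(unitsS S)) : (AlgebraicClosure ℚ)ˣ) : AlgebraicClosure ℚ) =
      g ((x : (AlgebraicClosure ℚ)ˣ) : AlgebraicClosure ℚ) := rfl

/-- **The global module** `E = E_S` as a representation of `G_ℚ` (underlying type
`Additive ↥(unitsS S)`). -/
def ERep (S : Finset Nat.Primes) : Rep.{0} ℤ GQ := Rep.ofMulDistribMulAction GQ ↥(unitsS S)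

@[simp] theorem ERep_ρ_apply (S : Finset Nat.Primes) (g : GQ) (e : Additive ↥(unitsS S)) :
    (ERep S).ρ g e = Additive.ofMul (g • e.toMul) := rfl

/-! ### The local modules -/

/-- `ℚ̄_qˣ` as a representation of `G_{ℚ_q}` (underlying type `Additive (PadicAlgCl q)ˣ`). -/
def JlocQ (q : ℕ) [Fact q.Prime] : Rep.{0} ℤ (GQq q) :=
  Rep.ofAlgebraAutOnUnits ℚ_[q] (PadicAlgCl q)

/-- `ℚ̄_qˣ` as a representation of `primeLocalGaloisGroup q`. -/
def JlocP (q : Nat.Primes) : Rep.{0} ℤ (primeLocalGaloisGroup q) :=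
  letI : Fact (q : ℕ).Prime := ⟨q.2⟩
  JlocQ (q : ℕ)

/-! ### The local embeddings -/

/-- `padicEmbedding q` on units. -/
def jUnits (q : ℕ) [Fact q.Prime] : (AlgebraicClosure ℚ)ˣ →* (PadicAlgCl q)ˣ :=
  Units.map ((padicEmbedding q : AlgebraicClosure ℚ →ₐ[ℚ] PadicAlgCl q) :
    AlgebraicClosure ℚ →* PadicAlgCl q)

@[simp] theorem coe_jUnits (q : ℕ) [Fact q.Prime] (x : (AlgebraicClosure ℚ)ˣ) :
    ((jUnits q x : (PadicAlgCl q)ˣ) : PadicAlgCl q) = padicEmbedding q (x : AlgebraicClosure ℚ) :=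
  rfl

theorem jUnits_injective (q : ℕ) [Fact q.Prime] : Function.Injective (jUnits q) := by
  intro x y h
  apply Units.ext
  apply (padicEmbedding q).injective
  exact congrArg (fun u : (PadicAlgCl q)ˣ => (u : PadicAlgCl q)) h

/-- equivariance of `jUnits` -/
theorem jUnits_smul (q : ℕ) [Fact q.Prime] (τ : GQq q) (x : (AlgebraicClosure ℚ)ˣ) :
    jUnits q (localGaloisToGlobal q τ • x) = τ • jUnits q x := by
  apply Units.ext
  exact padicEmbedding_localGaloisToGlobal q τ (x : AlgebraicClosure ℚ)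

/-- The local embedding `E_S → ℚ̄_qˣ` as a linear map. -/
def jLin (S : Finset Nat.Primes) (q : ℕ) [Fact q.Prime] :
    Additive ↥(unitsS S) →ₗ[ℤ] Additive (PadicAlgCl q)ˣ :=
  (MonoidHom.toAdditive ((jUnits q).comp (unitsS S).subtype)).toIntLinearMap

@[simp] theorem jLin_apply (S : Finset Nat.Primes) (q : ℕ) [Fact q.Prime]
    (e : Additive ↥(unitsS S)) :
    jLin S q e = Additive.ofMul (jUnits q ((e.toMul : ↥(unitsS S)) : (AlgebraicClosure ℚ)ˣ)) :=
  rfl

/-- The local embedding `E_S → ℚ̄_qˣ` as a morphism of representations of `G_{ℚ_q}`. -/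
def jLocQ (S : Finset Nat.Primes) (q : ℕ) [Fact q.Prime] :
    Rep.res (localGaloisToGlobal q) (ERep S) ⟶ JlocQ q :=
  Rep.ofHom (ρ := (Rep.res (localGaloisToGlobal q) (ERep S)).ρ) (σ := (JlocQ q).ρ)
    ⟨jLin S q, fun τ => by
      ext e
      exact congrArg Additive.ofMul (jUnits_smul q τ _)⟩

theorem jLocQ_hom_apply (S : Finset Nat.Primes) (q : ℕ) [Fact q.Prime]
    (e : Additive ↥(unitsS S)) :
    (jLocQ S q).hom e =
      Additive.ofMul (jUnits q ((e.toMul : ↥(unitsS S)) : (AlgebraicClosure ℚ)ˣ)) := rfl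

theorem jLocQ_injective (S : Finset Nat.Primes) (q : ℕ) [Fact q.Prime] :
    Function.Injective (jLocQ S q).hom := by
  intro (e : Additive ↥(unitsS S)) (e' : Additive ↥(unitsS S)) h
  have h1 : jUnits q ((e.toMul : ↥(unitsS S)) : (AlgebraicClosure ℚ)ˣ) =
      jUnits q ((e'.toMul : ↥(unitsS S)) : (AlgebraicClosure ℚ)ˣ) :=
    congrArg Additive.toMul h
  exact congrArg Additive.ofMul (Subtype.ext (jUnits_injective q h1))

/-- The local embedding at `q : Nat.Primes`. -/
def jLocP (S : Finset Nat.Primes) (q : Nat.Primes) :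
    Rep.res (primeLocalToGlobal q) (ERep S) ⟶ JlocP q :=
  letI : Fact (q : ℕ).Prime := ⟨q.2⟩
  jLocQ S (q : ℕ)

theorem jLocP_injective (S : Finset Nat.Primes) (q : Nat.Primes) :
    Function.Injective (jLocP S q).hom :=
  letI : Fact (q : ℕ).Prime := ⟨q.2⟩
  jLocQ_injective S (q : ℕ)

/-! ### The semilocal module, the diagonal and the class module -/

/-- the local-to-global maps indexed by `S` -/
def rS (S : Finset Nat.Primes) : ∀ q : ↥S, GlocS S q →* GQ := fun q => primeLocalToGlobal q.1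

/-- the local modules indexed by `S` -/
def JlocS (S : Finset Nat.Primes) : ∀ q : ↥S, Rep.{0} ℤ (GlocS S q) := fun q => JlocP q.1

/-- the local towers indexed by `S` -/
def towerLocS (S : Finset Nat.Primes) : ∀ q : ↥S, Tower (GlocS S q) := fun q => towerLocP q.1

/-- the local embeddings indexed by `S` -/
def jS (S : Finset Nat.Primes) : ∀ q : ↥S, Rep.res (rS S q) (ERep S) ⟶ JlocS S q :=
  fun q => jLocP S q.1

/-- **The semilocal module** `J_S = ∏_{q ∈ S} coInd ℚ̄_qˣ`. -/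
def JS (S : Finset Nat.Primes) : Rep.{0} ℤ GQ := semilocal (towerS S) (rS S) (JlocS S)

/-- an element of `E_S` is fixed by a level -/
theorem ERep_discrete (S : Finset Nat.Primes) (e : (ERep S).V) :
    ∃ U ∈ (towerS S).lev, ∀ s ∈ U, (ERep S).ρ s e = e := by
  obtain ⟨F, hF, hxF⟩ := (Additive.toMul e : ↥(unitsS S)).2.1
  refine ⟨F.fixingSubgroup, ⟨F, hF, rfl⟩, fun s hs => ?_⟩
  rw [IntermediateField.mem_fixingSubgroup_iff] at hs
  exact congrArg Additive.ofMul (Subtype.ext (Units.ext (hs _ hxF)))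

/-- The diagonal `E_S → J_S` on elements. -/
def iDiagFun (S : Finset Nat.Primes) (e : (ERep S).V) : (JS S).V :=
  ⟨fun v g => (jS S v).hom ((ERep S).ρ g e), fun v => by
    refine ⟨fun d g => ?_, ?_⟩
    · show (jS S v).hom ((ERep S).ρ (rS S v d * g) e) =
        (JlocS S v).ρ d ((jS S v).hom ((ERep S).ρ g e))
      rw [map_mul]
      exact Rep.hom_comm_apply (jS S v) d ((ERep S).ρ g e)
    · obtain ⟨U, hU, h⟩ := ERep_discrete S e
      refine ⟨U, hU, fun g s hs => ?_⟩
      show (jS S v).hom ((ERep S).ρ (g * s) e) = (jS S v).hom ((ERep S).ρ g e)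
      rw [map_mul, Module.End.mul_apply, h s hs]⟩

@[simp] theorem iDiagFun_apply (S : Finset Nat.Primes) (e : (ERep S).V) (v : ↥S) (g : GQ) :
    (iDiagFun S e).1 v g = (jS S v).hom ((ERep S).ρ g e) := rfl

/-- The diagonal `E_S → J_S` as a linear map. -/
def iDiagLin (S : Finset Nat.Primes) :
    @LinearMap ℤ ℤ _ _ (RingHom.id ℤ) (ERep S).V (JS S).V _ _ (ERep S).hV2 (JS S).hV2 :=
  AddMonoidHom.toIntLinearMap
    { toFun := iDiagFun S
      map_zero' := by
        apply Subtype.ext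
        funext v g
        show (jS S v).hom ((ERep S).ρ g 0) = 0
        rw [map_zero, map_zero]
      map_add' := fun e e' => by
        apply Subtype.ext
        funext v g
        show (jS S v).hom ((ERep S).ρ g (e + e')) =
          (jS S v).hom ((ERep S).ρ g e) + (jS S v).hom ((ERep S).ρ g e')
        rw [map_add, map_add] }

@[simp] theorem iDiagLin_apply (S : Finset Nat.Primes) (e : (ERep S).V) :
    iDiagLin S e = iDiagFun S e := rfl

/-- **The diagonal** `E_S → J_S` as a morphism of representations. -/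
def iDiag (S : Finset Nat.Primes) : ERep S ⟶ JS S :=
  Rep.ofHom (ρ := (ERep S).ρ) (σ := (JS S).ρ)
    ⟨iDiagLin S, fun σ => by
      ext e
      apply Subtype.ext
      funext v g
      show (jS S v).hom ((ERep S).ρ g ((ERep S).ρ σ e)) = (jS S v).hom ((ERep S).ρ (g * σ) e)
      rw [map_mul, Module.End.mul_apply]⟩

theorem iDiag_apply (S : Finset Nat.Primes) (e : (ERep S).V) (v : ↥S) (g : GQ) :
    ((iDiag S).hom e).1 v g = (jS S v).hom ((ERep S).ρ g e) := rfl

/-- the image of the diagonal is `G_ℚ`-stable -/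
theorem range_iDiag_le_comap (S : Finset Nat.Primes) (g : GQ) :
    LinearMap.range (iDiagLin S) ≤ (LinearMap.range (iDiagLin S)).comap ((JS S).ρ g) := by
  rintro _ ⟨e, rfl⟩
  exact ⟨(ERep S).ρ g e, (Rep.hom_comm_apply (iDiag S) g e)⟩

/-- **The class module** `C_S = J_S / E_S`. -/
def CRep (S : Finset Nat.Primes) : Rep.{0} ℤ GQ :=
  Rep.quotient (JS S) (LinearMap.range (iDiagLin S)) (range_iDiag_le_comap S)

/-- **The projection** `J_S → C_S`. -/
def piC (S : Finset Nat.Primes) : JS S ⟶ CRep S :=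
  Rep.mkQ (JS S) (LinearMap.range (iDiagLin S)) (range_iDiag_le_comap S)

theorem piC_apply (S : Finset Nat.Primes) (x : (JS S).V) :
    (piC S).hom x = (Submodule.Quotient.mk x : (JS S).V ⧸ LinearMap.range (iDiagLin S)) := rfl

theorem piC_eq_zero_iff (S : Finset Nat.Primes) (x : (JS S).V) :
    (piC S).hom x = 0 ↔ ∃ e : (ERep S).V, (iDiag S).hom e = x := by
  show (Submodule.Quotient.mk x : (JS S).V ⧸ LinearMap.range (iDiagLin S)) = 0 ↔ _
  rw [Submodule.Quotient.mk_eq_zero]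
  rfl

theorem piC_surjective (S : Finset Nat.Primes) : Function.Surjective (piC S).hom :=
  Submodule.Quotient.mk_surjective _

/-- an element of `C_S` is fixed by a level -/
theorem CRep_discrete (S : Finset Nat.Primes) (c : (CRep S).V) :
    ∃ U ∈ (towerS S).lev, ∀ s ∈ U, (CRep S).ρ s c = c := by
  obtain ⟨x, rfl⟩ := piC_surjective S c
  -- every component of `x` is level-constant; intersect the levels over the finite set `S`
  have h : ∀ v : ↥S, ∃ U ∈ (towerS S).lev, ∀ g s : GQ, s ∈ U → x.1 v (g * s) = x.1 v g :=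
    fun v => (x.2 v).2
  choose U hU hUx using h
  have hfin : ∀ T : Finset ↥S, ∃ W ∈ (towerS S).lev, ∀ v ∈ T, W ≤ U v := by
    intro T
    induction T using Finset.induction_on with
    | empty => exact ⟨⊤, (towerS S).top_mem, by simp⟩
    | insert a T _ ih =>
      obtain ⟨W, hW, hWT⟩ := ih
      refine ⟨U a ⊓ W, (towerS S).inf_mem _ _ (hU a) hW, fun v hv => ?_⟩
      rcases Finset.mem_insert.1 hv with rfl | hv
      · exact inf_le_left
      · exact inf_le_right.trans (hWT v hv)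
  obtain ⟨W, hW, hWU⟩ := hfin Finset.univ
  refine ⟨W, hW, fun s hs => ?_⟩
  have hx : (JS S).ρ s x = x := by
    apply Subtype.ext
    funext v g
    exact hUx v g s (hWU v (Finset.mem_univ v) hs)
  rw [← Rep.hom_comm_apply (piC S) s x, hx]

end Fermat.Agent.PT.B

end
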