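/-
PT-B (bridge for S55) — INTERFACE FILE 3: the pieces between the concrete datum of
`Concrete.lean` and the type-level campaigns (PT-L, PT-G*, PT-X).  Definitions and statements
only.  Piece table: NOTES/PT-B.md.  A piece `X` is DONE when `theorem stmtX : StmtX` is landed.
-/
import Fermat.Agent.PT.B.Concrete
import Fermat.Agent.PT.G.Plan
import Fermat.Agent.PT.L.Plan2

set_option autoImplicit false
set_option linter.style.haveILetI false

noncomputable section

namespace Fermat.Agent.PT.B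

open Fermat.Agent.PT CategoryTheory groupCohomology ExtCitation
open Fermat.Agent.PT.G Fermat.Agent.PT.G1
open scoped Pointwise TensorProduct

/-! ## T: transport of the class-formation properties -/

/-- An isomorphism of pairs `(G, A) ≅ (G', A')` (group and module). -/
structure PairIso {G G' : Type} [Group G] [Group G'] (A : Rep.{0} ℤ G) (A' : Rep.{0} ℤ G') where
  /-- the isomorphism of groups -/
  φ : G ≃* G'
  /-- the isomorphism of modules -/
  f : A.V ≃+ A'.V
  comm : ∀ (g : G) (a : A.V), f (A.ρ g a) = A'.ρ (φ g) (f a)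

/-- A `p`-isomorphism of pairs `(G, A) → (G', A')`: an isomorphism of groups and an equivariant
injective map of modules whose cokernel is killed by an integer `m` prime to `p`. -/
structure PairPIso (p : ℕ) {G G' : Type} [Group G] [Group G'] (A : Rep.{0} ℤ G)
    (A' : Rep.{0} ℤ G') where
  /-- the isomorphism of groups -/
  φ : G ≃* G'
  /-- the map of modules -/
  f : A.V →+ A'.V
  comm : ∀ (g : G) (a : A.V), f (A.ρ g a) = A'.ρ (φ g) (f a)
  inj : Function.Injective f
  /-- an integer prime to `p` killing the cokernel -/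
  m : ℕ
  hm : ¬ p ∣ m
  surj : ∀ a' : A'.V, ∃ a : A.V, f a = m • a'

/-- an isomorphism of pairs is a `p`-isomorphism -/
def PairIso.toPairPIso (p : ℕ) [Fact p.Prime] {G G' : Type} [Group G] [Group G']
    {A : Rep.{0} ℤ G} {A' : Rep.{0} ℤ G'} (e : PairIso A A') : PairPIso p A A' where
  φ := e.φ
  f := e.f
  comm := e.comm
  inj := e.f.injective
  m := 1
  hm := fun h => (Fact.out : p.Prime).one_lt.ne' (Nat.dvd_one.1 h)
  surj := fun a' => ⟨e.f.symm a', by simp⟩

/-- **T-fund**: a `p`-fundamental class transports backwards along a `p`-isomorphism of pairs.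
(Reduce to `G = G'`; then `Hⁿ(H, A'/A)` is killed by `m` and by `|H|`, `H` a `p`-group, so the
long exact sequence gives `Hⁿ(H, A) ≅ Hⁿ(H, A')` for `n = 1, 2`; and `m • u'` comes from
`H²(G, A)`.) -/
def StmtFundPIso : Prop :=
  ∀ (p : ℕ) [Fact p.Prime] (G G' : Type) [Group G] [Group G'] [Finite G]
    (A : Rep.{0} ℤ G) (A' : Rep.{0} ℤ G'), Nonempty (PairPIso p A A') →
    (∃ u' : H2 A', IsPFundClass p A' u') → ∃ u : H2 A, IsPFundClass p A u

/-- **T-h1**: vanishing of `H¹` of all subgroups transports along an isomorphism of pairs. -/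
def StmtH1Iso : Prop :=
  ∀ (G G' : Type) [Group G] [Group G'] (A : Rep.{0} ℤ G) (A' : Rep.{0} ℤ G'),
    Nonempty (PairIso A A') →
    (∀ H' : Subgroup G', Subsingleton (H1 (Rep.res H'.subtype A'))) →
    ∀ H : Subgroup G, Subsingleton (H1 (Rep.res H.subtype A))

/-! ## The local bridge (I3, I4) -/

/-- **I3** (generic): for `Ω/K` Galois and `F/K` finite Galois inside `Ω`, the pair
`(Gal(Ω/K)/Gal(Ω/F), (Ωˣ)^{Gal(Ω/F)})` is isomorphic to `(Gal(F/K), Fˣ)`. -/
def StmtInvUnits : Prop :=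
  ∀ (K Ω : Type) [Field K] [Field Ω] [Algebra K Ω] [IsGalois K Ω] (F : IntermediateField K Ω)
    [FiniteDimensional K F] [IsGalois K F] [F.fixingSubgroup.Normal],
    Nonempty (PairIso ((Rep.ofAlgebraAutOnUnits K Ω).quotientToInvariants F.fixingSubgroup)
      (Rep.ofAlgebraAutOnUnits K F))

/-- **I4** (generic): Hilbert 90 for every subgroup of `Gal(F/K)` (Mathlib's Hilbert 90 for
`F / F^H`). -/
def StmtH90Sub : Prop :=
  ∀ (K F : Type) [Field K] [Field F] [Algebra K F] [FiniteDimensional K F] [IsGalois K F]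
    (H : Subgroup (F ≃ₐ[K] F)),
    Subsingleton (H1 (Rep.res H.subtype (Rep.ofAlgebraAutOnUnits K F)))

/-- **B-cmloc** = the datum axiom `cm_loc` for `JlocQ`. -/
def StmtCmLoc : Prop :=
  ∀ (p : ℕ) [Fact p.Prime] (q : ℕ) [Fact q.Prime] (V : Subgroup (GQq q)) [V.Normal],
    V ∈ (towerLoc q).lev →
    ∃ u : H2 ((JlocQ q).quotientToInvariants V),
      IsPFundClass p ((JlocQ q).quotientToInvariants V) u

/-- **B-h90loc** = the datum axiom `h90_loc` for `JlocQ`. -/
def StmtH90Loc : Prop :=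
  ∀ (q : ℕ) [Fact q.Prime] (V : Subgroup (GQq q)) [V.Normal], V ∈ (towerLoc q).lev →
    ∀ H : Subgroup (GQq q ⧸ V),
      Subsingleton (H1 (Rep.res H.subtype ((JlocQ q).quotientToInvariants V)))

/-! ## The easy axioms of the datum -/

/-- **B-jdisc** = `Jloc_discrete` (Krasner `stmtKrasner` + `stmtLocalLevel`). -/
def StmtJlocDiscrete : Prop :=
  ∀ (q : ℕ) [Fact q.Prime] (x : (JlocQ q).V),
    ∃ V ∈ (towerLoc q).lev, ∀ s ∈ V, (JlocQ q).ρ s x = x

/-- **B-jdiv** = `J_div` (`PadicAlgCl q` is algebraically closed). -/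
def StmtJDiv : Prop :=
  ∀ (p : ℕ) [Fact p.Prime] (q : ℕ) [Fact q.Prime] (x : (JlocQ q).V),
    ∃ y : (JlocQ q).V, p • y = x

/-- **B-ediv** = `E_div` (PT-X `isUnramifiedOutside_adjoin_root` with `β = 1`, `u = α`). -/
def StmtEDiv : Prop :=
  ∀ (p : ℕ) [Fact p.Prime] (S : Finset Nat.Primes), pPrime p ∈ S →
    ∀ e : (ERep S).V, ∃ e' : (ERep S).V, p • e' = e

/-! ## The global bridge: ramification and units (I1) -/

/-- **I1** (RAM): in a tower field all inertia groups at primes outside `S` are trivial. -/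
def StmtRam : Prop :=
  ∀ (S : Finset Nat.Primes) (L : QbarField), IsTowerField S L → ∀ [NumberField L]
    (σ : L ≃ₐ[ℚ] L), σ ≠ 1 → Fermat.Agent.PT.G.UnramOff S σ

/-- **I-units**: the `S`-units of the datum at level `L` are the `N`-units of the type `L`. -/
def StmtUnitsS : Prop :=
  ∀ (S : Finset Nat.Primes) (L : QbarField), L.IsUnramifiedOutside S → ∀ (x : (↥L)ˣ),
    Units.map (L.val : ↥L →* AlgebraicClosure ℚ) x ∈ unitsS S ↔
      x ∈ Fermat.Agent.PT.G1.nUnits (Fermat.Agent.PT.G.sProd S) ↥L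

/-! ## The global bridge: the tensor model (I2) -/

/-- The embedding `g|_L : L → ℚ̄ → ℚ̄_q`, `x ↦ ι_q (g x)`, as a `ℚ`-algebra map. -/
def embAt (q : ℕ) [Fact q.Prime] (L : QbarField) [NumberField L] (g : GQ) :
    ↥L →ₐ[ℚ] PadicAlgCl q :=
  RingHom.toRatAlgHom
    (((padicEmbedding q).toRingHom.comp ((g : AlgebraicClosure ℚ ≃ₐ[ℚ] AlgebraicClosure ℚ) :
      AlgebraicClosure ℚ →+* AlgebraicClosure ℚ)).comp (L.val : ↥L →+* AlgebraicClosure ℚ))

@[simp] theorem embAt_apply (q : ℕ) [Fact q.Prime] (L : QbarField) [NumberField L] (g : GQ)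
    (x : ↥L) : embAt q L g x = padicEmbedding q (g (x : AlgebraicClosure ℚ)) := rfl

/-- The evaluation `ℚ_q ⊗ L → ℚ̄_q`, `y ⊗ x ↦ y · ι_q (g x)`. -/
def tensEv (q : ℕ) [Fact q.Prime] (L : QbarField) [NumberField L] (g : GQ) :
    semiAlg q ↥L →ₐ[ℚ_[q]] PadicAlgCl q :=
  Algebra.TensorProduct.lift (Algebra.ofId ℚ_[q] (PadicAlgCl q)) (embAt q L g)
    (fun _ _ => Commute.all _ _)

@[simp] theorem tensEv_tmul (q : ℕ) [Fact q.Prime] (L : QbarField) [NumberField L] (g : GQ)
    (y : ℚ_[q]) (x : ↥L) :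
    tensEv q L g (y ⊗ₜ[ℚ] x) =
      algebraMap ℚ_[q] (PadicAlgCl q) y * padicEmbedding q (g (x : AlgebraicClosure ℚ)) := by
  simp [tensEv, Algebra.ofId_apply]


/-- `τ ∘ ev_g = ev_{r(τ) g}` for `τ ∈ G_{ℚ_q}`. -/
theorem tensEv_localGaloisToGlobal_mul (q : ℕ) [Fact q.Prime] (L : QbarField) [NumberField L]
    (τ : GQq q) (g : GQ) (z : semiAlg q ↥L) :
    tensEv q L (localGaloisToGlobal q τ * g) z = τ (tensEv q L g z) := by
  induction z using TensorProduct.induction_on with
  | zero => simp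
  | tmul y x =>
    rw [tensEv_tmul, tensEv_tmul, map_mul, AlgEquiv.commutes]
    congr 1
    exact padicEmbedding_localGaloisToGlobal q τ (g (x : AlgebraicClosure ℚ))
  | add a b ha hb => rw [map_add, map_add, map_add, ha, hb]

/-- `ev_{g s} = ev_g` for `s ∈ Gal(ℚ̄/L)`. -/
theorem tensEv_mul_of_mem (q : ℕ) [Fact q.Prime] (L : QbarField) [NumberField L]
    (g s : GQ) (hs : s ∈ L.fixingSubgroup) (z : semiAlg q ↥L) :
    tensEv q L (g * s) z = tensEv q L g z := by
  rw [IntermediateField.mem_fixingSubgroup_iff] at hs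
  induction z using TensorProduct.induction_on with
  | zero => simp
  | tmul y x =>
    rw [tensEv_tmul, tensEv_tmul]
    congr 2
    exact congrArg g (hs _ x.2)
  | add a b ha hb => rw [map_add, map_add, ha, hb]

/-- The comparison map `θ_L : J_L → J_S`, `z ↦ (q, g) ↦ ev_{q,g}(z_q)` on elements. -/
def thetaFun (S : Finset Nat.Primes) (L : QbarField) [NumberField L]
    (hL : L.IsUnramifiedOutside S) (z : JL S ↥L) : (JS S).V :=
  ⟨fun v g => Additive.ofMul (Units.map
      (tensEv ((v : Nat.Primes) : ℕ) L g : semiAlg ((v : Nat.Primes) : ℕ) ↥L →* _) (z v)),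
    fun v => by
      refine ⟨fun d g => ?_, ⟨L.fixingSubgroup, ⟨L, hL, rfl⟩, fun g s hs => ?_⟩⟩
      · exact congrArg Additive.ofMul (Units.ext
          (tensEv_localGaloisToGlobal_mul ((v : Nat.Primes) : ℕ) L d g ((z v : _))))
      · exact congrArg Additive.ofMul (Units.ext
          (tensEv_mul_of_mem ((v : Nat.Primes) : ℕ) L g s hs ((z v : _))))⟩


theorem thetaFun_apply (S : Finset Nat.Primes) (L : QbarField) [NumberField L]
    (hL : L.IsUnramifiedOutside S) (z : JL S ↥L) (v : ↥S) (g : GQ) :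
    (thetaFun S L hL z).1 v g = Additive.ofMul (Units.map
      (tensEv ((v : Nat.Primes) : ℕ) L g : semiAlg ((v : Nat.Primes) : ℕ) ↥L →* _) (z v)) := rfl

/-- **The comparison map** `θ_L : J_L → J_S` (additive). -/
def thetaL (S : Finset Nat.Primes) (L : QbarField) [NumberField L]
    (hL : L.IsUnramifiedOutside S) : Additive (JL S ↥L) →+ (JS S).V where
  toFun z := thetaFun S L hL (Additive.toMul z)
  map_zero' := by
    apply Subtype.ext
    funext v g
    show Additive.ofMul (Units.map _ (1 : (semiAlg ((v : Nat.Primes) : ℕ) ↥L)ˣ)) = 0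
    rw [map_one]
    rfl
  map_add' := fun z z' => by
    apply Subtype.ext
    funext v g
    show Additive.ofMul (Units.map _ ((Additive.toMul z) v * (Additive.toMul z') v)) = _
    rw [map_mul]
    rfl

theorem thetaL_apply (S : Finset Nat.Primes) (L : QbarField) [NumberField L]
    (hL : L.IsUnramifiedOutside S) (z : Additive (JL S ↥L)) (v : ↥S) (g : GQ) :
    (thetaL S L hL z).1 v g = Additive.ofMul (Units.map
      (tensEv ((v : Nat.Primes) : ℕ) L g : semiAlg ((v : Nat.Primes) : ℕ) ↥L →* _)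
        ((Additive.toMul z) v)) := rfl

/-- **I2** (TENS): `θ_L` is an isomorphism of `J_L` onto the `Gal(ℚ̄/L)`-invariants of `J_S`. -/
def StmtTens : Prop :=
  ∀ (S : Finset Nat.Primes) (L : QbarField) [NumberField L] (hL : L.IsUnramifiedOutside S),
    IsGalois ℚ L →
    Function.Injective (thetaL S L hL) ∧
    ∀ x : (JS S).V, (∀ s ∈ L.fixingSubgroup, (JS S).ρ s x = x) → ∃ z, thetaL S L hL z = x

end Fermat.Agent.PT.B

end
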