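/-
PT-B, piece I3 (helper48): for `Ω/K` Galois and `F/K` finite Galois inside `Ω`, the pair
`(Gal(Ω/K)/Gal(Ω/F), (Ωˣ)^{Gal(Ω/F)})` is isomorphic to `(Gal(F/K), Fˣ)`.
-/
import Fermat.Agent.PT.B.Plan3

set_option autoImplicit false
set_option linter.unusedSectionVars false

noncomputable section

namespace Fermat.Agent.PT.B

open Fermat.Agent.PT CategoryTheory

attribute [local instance 1100] Rep.hV2

section

variable (K Ω : Type) [Field K] [Field Ω] [Algebra K Ω] [IsGalois K Ω]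
  (F : IntermediateField K Ω) [IsGalois K F]

/-- restriction `Gal(Ω/K)/Gal(Ω/F) → Gal(F/K)` -/
def i3_phi₀ [F.fixingSubgroup.Normal] : (Ω ≃ₐ[K] Ω) ⧸ F.fixingSubgroup →* (F ≃ₐ[K] F) :=
  QuotientGroup.lift F.fixingSubgroup (AlgEquiv.restrictNormalHom F) (by
    intro σ hσ
    rw [← IntermediateField.restrictNormalHom_ker] at hσ
    exact hσ)

@[simp] lemma i3_phi₀_mk [F.fixingSubgroup.Normal] (σ : Ω ≃ₐ[K] Ω) :
    i3_phi₀ K Ω F (QuotientGroup.mk σ) = AlgEquiv.restrictNormalHom F σ := rfl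

lemma i3_phi₀_bijective [F.fixingSubgroup.Normal] : Function.Bijective (i3_phi₀ K Ω F) := by
  constructor
  · rw [injective_iff_map_eq_one]
    intro x hx
    obtain ⟨σ, rfl⟩ := QuotientGroup.mk_surjective x
    rw [i3_phi₀_mk] at hx
    have : σ ∈ (AlgEquiv.restrictNormalHom F).ker := hx
    rw [IntermediateField.restrictNormalHom_ker] at this
    exact (QuotientGroup.eq_one_iff σ).2 this
  · intro τ
    obtain ⟨σ, hσ⟩ := AlgEquiv.restrictNormalHom_surjective Ω τ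
    exact ⟨QuotientGroup.mk σ, hσ⟩

/-- the group isomorphism `Gal(Ω/K)/Gal(Ω/F) ≃ Gal(F/K)` -/
def i3_phi [F.fixingSubgroup.Normal] : (Ω ≃ₐ[K] Ω) ⧸ F.fixingSubgroup ≃* (F ≃ₐ[K] F) :=
  MulEquiv.ofBijective (i3_phi₀ K Ω F) (i3_phi₀_bijective K Ω F)

@[simp] lemma i3_phi_mk [F.fixingSubgroup.Normal] (σ : Ω ≃ₐ[K] Ω) :
    i3_phi K Ω F (QuotientGroup.mk σ) = AlgEquiv.restrictNormalHom F σ := rfl

/-- the inclusion `Fˣ → (Ωˣ)^{Gal(Ω/F)}` -/
def i3_j : Additive (↥F)ˣ →+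
    ↥(Representation.invariants
      ((Rep.ofAlgebraAutOnUnits K Ω).ρ.comp F.fixingSubgroup.subtype)) where
  toFun b := ⟨Additive.ofMul (Units.map (algebraMap ↥F Ω : ↥F →* Ω) (Additive.toMul b)), by
    rintro ⟨s, hs⟩
    apply congrArg Additive.ofMul
    apply Units.ext
    show s ((Additive.toMul b : (↥F)ˣ) : Ω) = _
    exact (IntermediateField.mem_fixingSubgroup_iff F s).1 hs _
      ((Additive.toMul b : (↥F)ˣ) : ↥F).2⟩
  map_zero' := by
    apply Subtype.ext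
    show Additive.ofMul (Units.map _ (1 : (↥F)ˣ)) = 0
    rw [map_one]
    rfl
  map_add' a b := by
    apply Subtype.ext
    show Additive.ofMul (Units.map _ (Additive.toMul a * Additive.toMul b)) = _
    rw [map_mul]
    rfl

/-- the underlying element of `Ω` of an invariant -/
def i3_val (x : ↥(Representation.invariants
      ((Rep.ofAlgebraAutOnUnits K Ω).ρ.comp F.fixingSubgroup.subtype))) : Ω :=
  ((Additive.toMul (x.1 : Additive Ωˣ) : Ωˣ) : Ω)

lemma i3_j_val (b : Additive (↥F)ˣ) :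
    i3_val K Ω F (i3_j K Ω F b) = ((Additive.toMul b : (↥F)ˣ) : Ω) := rfl

lemma i3_j_bijective : Function.Bijective (i3_j K Ω F) := by
  constructor
  · intro a b h
    have h1 : ((Additive.toMul a : (↥F)ˣ) : Ω) = ((Additive.toMul b : (↥F)ˣ) : Ω) := by
      rw [← i3_j_val, ← i3_j_val, h]
    have h2 : ((Additive.toMul a : (↥F)ˣ) : ↥F) = ((Additive.toMul b : (↥F)ˣ) : ↥F) :=
      Subtype.ext h1
    exact congrArg Additive.ofMul (Units.ext h2)
  · rintro ⟨x, hx⟩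
    have hmem : ((Additive.toMul x : Ωˣ) : Ω) ∈ F := by
      rw [← InfiniteGalois.fixedField_fixingSubgroup F, IntermediateField.mem_fixedField_iff]
      intro s hs
      have := hx ⟨s, hs⟩
      exact congrArg (fun y : Additive Ωˣ => ((Additive.toMul y : Ωˣ) : Ω)) this
    have hmem' : (((Additive.toMul x)⁻¹ : Ωˣ) : Ω) ∈ F := by
      rw [Units.val_inv_eq_inv_val]
      exact F.inv_mem hmem
    refine ⟨Additive.ofMul ⟨⟨_, hmem⟩, ⟨_, hmem'⟩, ?_, ?_⟩, ?_⟩
    · apply Subtype.ext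
      simp
    · apply Subtype.ext
      simp
    · apply Subtype.ext
      apply congrArg Additive.ofMul
      apply Units.ext
      rfl

lemma i3_j_comm [F.fixingSubgroup.Normal] (σ : Ω ≃ₐ[K] Ω) (b : Additive (↥F)ˣ) :
    ((Rep.ofAlgebraAutOnUnits K Ω).quotientToInvariants F.fixingSubgroup).ρ
        (QuotientGroup.mk σ) (i3_j K Ω F b) =
      i3_j K Ω F ((Rep.ofAlgebraAutOnUnits K ↥F).ρ (AlgEquiv.restrictNormalHom F σ) b) := by
  apply Subtype.ext
  apply congrArg Additive.ofMul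
  apply Units.ext
  show σ ((Additive.toMul b : (↥F)ˣ) : Ω) =
    ((AlgEquiv.restrictNormalHom F σ) ((Additive.toMul b : (↥F)ˣ) : ↥F) : Ω)
  rw [AlgEquiv.restrictNormalHom_apply]

end

/-- **I3**: `(Gal(Ω/K)/Gal(Ω/F), (Ωˣ)^{Gal(Ω/F)}) ≅ (Gal(F/K), Fˣ)`. -/
theorem stmtInvUnits : StmtInvUnits := by
  intro K Ω _ _ _ _ F _ _ _
  refine ⟨{ φ := i3_phi K Ω F
            f := (AddEquiv.ofBijective (i3_j K Ω F) (i3_j_bijective K Ω F)).symm
            comm := ?_ }⟩
  intro g a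
  obtain ⟨σ, rfl⟩ := QuotientGroup.mk_surjective g
  obtain ⟨b, rfl⟩ := (i3_j_bijective K Ω F).2 a
  have h1 : ∀ c, (AddEquiv.ofBijective (i3_j K Ω F) (i3_j_bijective K Ω F)).symm
      (i3_j K Ω F c) = c := fun c =>
    (AddEquiv.ofBijective (i3_j K Ω F) (i3_j_bijective K Ω F)).symm_apply_apply c
  have h2 := i3_j_comm K Ω F σ b
  exact (congrArg (AddEquiv.ofBijective (i3_j K Ω F) (i3_j_bijective K Ω F)).symm h2).trans
    ((h1 _).trans (congrArg ((Rep.ofAlgebraAutOnUnits K ↥F).ρ (AlgEquiv.restrictNormalHom F σ))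
      (h1 b).symm))

end Fermat.Agent.PT.B

end
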