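/-
PT-B piece B-cmglob (helper68): the datum axiom `cm_glob` for the concrete class module
`CRep S = J_S / E_S`.

`stmtCmGlob_of : StmtGA → StmtRamRel → StmtCompare → StmtFundPIso → StmtCmGlob`.

A normal level `U` of the tower `𝓕_S` is `Gal(ℚ̄/L)` for a tower field `L`; the comparison map
`f_L : C_S^{G_L} → C_S(L)` together with `G_ℚ/G_L ≅ Gal(L/ℚ)` is a `p`-isomorphism of pairs, and
the `p`-fundamental class of `C_S(L)` (GA) transports backwards (T-fund).
-/
import Fermat.Agent.PT.B.Plan4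
import Fermat.Agent.PT.B.InvUnits

set_option autoImplicit false
set_option linter.style.haveILetI false
set_option linter.unusedSectionVars false

noncomputable section

namespace Fermat.Agent.PT.B

open Fermat.Agent.PT CategoryTheory groupCohomology ExtCitation
open Fermat.Agent.PT.G Fermat.Agent.PT.G1

/-- the inclusion of the carrier of `(CRep S).quotientToInvariants G_L` into `C_S^{G_L}` -/
def cmglob_toCInv (S : Finset Nat.Primes) (L : QbarField) [L.fixingSubgroup.Normal] :
    ((CRep S).quotientToInvariants L.fixingSubgroup).V →+ ↥(CInv S L) where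
  toFun x := ⟨x.1, fun s hs => x.2 ⟨s, hs⟩⟩
  map_zero' := rfl
  map_add' _ _ := rfl

theorem cmglob_toCInv_val (S : Finset Nat.Primes) (L : QbarField) [L.fixingSubgroup.Normal]
    (x : ((CRep S).quotientToInvariants L.fixingSubgroup).V) :
    ((cmglob_toCInv S L x : ↥(CInv S L)) : (CRep S).V) = x.1 := rfl

theorem cmglob_toCInv_injective (S : Finset Nat.Primes) (L : QbarField)
    [L.fixingSubgroup.Normal] : Function.Injective (cmglob_toCInv S L) := by
  intro x y h
  apply Subtype.ext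
  exact congrArg (fun c : ↥(CInv S L) => (c : (CRep S).V)) h

theorem cmglob_toCInv_surjective (S : Finset Nat.Primes) (L : QbarField)
    [L.fixingSubgroup.Normal] : Function.Surjective (cmglob_toCInv S L) := by
  intro c
  exact ⟨⟨c.1, fun s => c.2 s.1 s.2⟩, rfl⟩

theorem cmglob_isGalois_qbar : IsGalois ℚ (AlgebraicClosure ℚ) := by
  haveI : IsAlgClosure ℚ (AlgebraicClosure ℚ) :=
    ⟨inferInstance, AlgebraicClosure.isAlgebraic ℚ⟩
  infer_instance

/-- the group isomorphism `G_ℚ/G_L ≅ Aut(L)`, with the `ℚ`-algebra structure on `L` which is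
used by the type-level campaigns (`DivisionRing.toRatAlgebra`) -/
def cmglob_phi (L : QbarField) (hGal : IsGalois ℚ ↥L) [L.fixingSubgroup.Normal] :
    GQ ⧸ L.fixingSubgroup ≃* (↥L ≃ₐ[ℚ] ↥L) :=
  @i3_phi ℚ (AlgebraicClosure ℚ) _ _ _ cmglob_isGalois_qbar L hGal _

theorem cmglob_i3_phi_apply (K Ω : Type) [Field K] [Field Ω] [Algebra K Ω] [IsGalois K Ω]
    (F : IntermediateField K Ω) [IsGalois K F] [F.fixingSubgroup.Normal] (σ : Ω ≃ₐ[K] Ω)
    (x : ↥F) : ((i3_phi K Ω F (QuotientGroup.mk σ) x : ↥F) : Ω) = σ (x : Ω) := by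
  rw [i3_phi_mk]
  exact AlgEquiv.restrictNormalHom_apply F σ x

theorem cmglob_phi_apply (L : QbarField) (hGal : IsGalois ℚ ↥L) [L.fixingSubgroup.Normal]
    (σ : GQ) (x : ↥L) :
    ((cmglob_phi L hGal (QuotientGroup.mk σ) x : ↥L) : AlgebraicClosure ℚ) =
      σ (x : AlgebraicClosure ℚ) :=
  @cmglob_i3_phi_apply ℚ (AlgebraicClosure ℚ) _ _ _ cmglob_isGalois_qbar L hGal _ σ x

/-- **B-cmglob**: the class module of the concrete datum has a `p`-fundamental class at every
normal level. -/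
theorem stmtCmGlob_of (hGA : StmtGA) (hRam : StmtRamRel) (hCmp : StmtCompare)
    (hFund : StmtFundPIso) : StmtCmGlob := by
  intro p _ hp2 S hpS U hUn hU
  haveI := cmglob_isGalois_qbar
  haveI hfin : Finite (GQ ⧸ U) := by
    haveI := (towerS S).finiteIndex U hU
    exact Subgroup.finite_quotient_of_finiteIndex
  obtain ⟨L, hL, rfl⟩ := hU
  have hT : IsTowerField S L := ⟨hL, (InfiniteGalois.normal_iff_isGalois L).1 hUn⟩
  haveI hNF : NumberField ↥L := numberField_of_isTowerField hT
  haveI hGal : IsGalois ℚ ↥L := hT.2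
  obtain ⟨f, hf⟩ := hCmp p S hpS
  obtain ⟨u', hu'⟩ := hGA p hp2 S hpS ↥L (hRam S L hL)
  obtain ⟨m, hm, hsurj⟩ := hf.pcoker L hT
  refine hFund p (GQ ⧸ L.fixingSubgroup) (↥L ≃ₐ[ℚ] ↥L)
    ((CRep S).quotientToInvariants L.fixingSubgroup) (csRep S ↥L) ⟨?_⟩ ⟨u', hu'⟩
  refine
    { φ := cmglob_phi L hGal
      f := (f L hT).comp (cmglob_toCInv S L)
      comm := ?_
      inj := (hf.inj L hT).comp (cmglob_toCInv_injective S L)
      m := m
      hm := hm
      surj := ?_ }
  · intro g a
    obtain ⟨σ, rfl⟩ := QuotientGroup.mk_surjective g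
    have h := hf.equivariant L hT σ (cmglob_phi L hGal (QuotientGroup.mk σ))
      (fun x => (cmglob_phi_apply L hGal σ x).symm) (cmglob_toCInv S L a)
    exact h
  · intro a'
    obtain ⟨c, hc⟩ := hsurj a'
    obtain ⟨a, rfl⟩ := cmglob_toCInv_surjective S L c
    exact ⟨a, hc⟩

end Fermat.Agent.PT.B

end
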