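/-
PT-B, pieces B-loc1 and B-locfin: the local field `F_q = ℚ_q·ι(F)` attached to `F ⊂ ℚ̄`.
-/
import Fermat.Agent.PT.B.Plan

set_option autoImplicit false

namespace Fermat.Agent.PT.B

open Polynomial IntermediateField

section

variable (q : ℕ) [Fact q.Prime]

theorem loc_embedding_mem_localField (F : QbarField) {x : AlgebraicClosure ℚ} (hx : x ∈ F) :
    padicEmbedding q x ∈ localField q F :=
  IntermediateField.subset_adjoin _ _ ⟨x, hx, rfl⟩

/-- An automorphism of `ℚ̄_q/ℚ_q` fixing `ι(F)` pointwise fixes `F_q`. -/
theorem loc_mem_fixingSubgroup_localField (F : QbarField) (τ : GQq q)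
    (h : ∀ x ∈ F, τ (padicEmbedding q x) = padicEmbedding q x) :
    τ ∈ (localField q F).fixingSubgroup := by
  have hle : localField q F ≤ IntermediateField.fixedField (Subgroup.zpowers τ) := by
    apply IntermediateField.adjoin_le_iff.mpr
    rintro _ ⟨x, hx, rfl⟩
    rw [SetLike.mem_coe, IntermediateField.mem_fixedField_iff]
    intro g hg
    obtain ⟨n, rfl⟩ := Subgroup.mem_zpowers_iff.mp hg
    have hfix : τ • padicEmbedding q x = padicEmbedding q x := h x hx
    exact MulAction.mem_stabilizer_iff.mp
      (Subgroup.zpow_mem _ (MulAction.mem_stabilizer_iff.mpr hfix) n)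
  have := (IntermediateField.le_iff_le (Subgroup.zpowers τ) (localField q F)).mp hle
  exact this (Subgroup.mem_zpowers τ)

end

/-- **B-loc1** -/
theorem stmtLocalLevel : StmtLocalLevel := by
  intro q _ F τ
  constructor
  · intro h
    apply loc_mem_fixingSubgroup_localField
    intro x hx
    rw [← padicEmbedding_localGaloisToGlobal]
    congr 1
    exact (IntermediateField.mem_fixingSubgroup_iff F _).mp h x hx
  · intro h
    rw [IntermediateField.mem_fixingSubgroup_iff]
    intro x hx
    have hinj : Function.Injective (padicEmbedding q) := (padicEmbedding q).toRingHom.injective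
    apply hinj
    rw [padicEmbedding_localGaloisToGlobal]
    exact (IntermediateField.mem_fixingSubgroup_iff _ _).mp h _
      (loc_embedding_mem_localField q F hx)

/-- **B-locfin** -/
theorem stmtLocalFinite : StmtLocalFinite := by
  intro q _ F hF
  obtain ⟨α, hα⟩ := Field.exists_primitive_element ℚ F
  set c : PadicAlgCl q := padicEmbedding q (α : AlgebraicClosure ℚ) with hc
  have hle : localField q F ≤ ℚ_[q]⟮c⟯ := by
    apply IntermediateField.adjoin_le_iff.mpr
    rintro _ ⟨x, hx, rfl⟩
    have hxmem : (⟨x, hx⟩ : F) ∈ ℚ⟮α⟯ := by rw [hα]; trivial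
    rw [IntermediateField.mem_adjoin_simple_iff] at hxmem
    obtain ⟨r, s, hrs⟩ := hxmem
    have hx' : x = aeval (α : AlgebraicClosure ℚ) r / aeval (α : AlgebraicClosure ℚ) s := by
      have h1 := congrArg F.val hrs
      rw [map_div₀, ← Polynomial.aeval_algHom_apply, ← Polynomial.aeval_algHom_apply] at h1
      exact h1
    rw [SetLike.mem_coe, IntermediateField.mem_adjoin_simple_iff]
    refine ⟨r.map (algebraMap ℚ ℚ_[q]), s.map (algebraMap ℚ ℚ_[q]), ?_⟩
    rw [hx', map_div₀, Polynomial.aeval_map_algebraMap, Polynomial.aeval_map_algebraMap,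
      Polynomial.aeval_algHom_apply, Polynomial.aeval_algHom_apply]
  have hint : IsIntegral ℚ_[q] c := ((PadicAlgCl.isAlgebraic q).isAlgebraic c).isIntegral
  have hfd : FiniteDimensional ℚ_[q] ℚ_[q]⟮c⟯ := IntermediateField.adjoin.finiteDimensional hint
  exact FiniteDimensional.of_injective (IntermediateField.inclusion hle).toLinearMap
    (IntermediateField.inclusion hle).injective

end Fermat.Agent.PT.B
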