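/-
PT-B, shared by B-cmloc and B-h90loc (helper11): a normal level `V` of the local tower is
`Gal(ℚ̄_q / K')` with `K' = ℚ_q·ι(F)` finite Galois over `ℚ_q` (`stmtLocalLevel`,
`stmtLocalFinite`), and the pair `(G_{ℚ_q}/V, (ℚ̄_qˣ)^V)` is isomorphic to `(Gal(K'/ℚ_q), K'ˣ)`
(`stmtInvUnits`).
-/
import Fermat.Agent.PT.B.Plan3
import Fermat.Agent.PT.B.LocalLevel
import Fermat.Agent.PT.B.InvUnits

set_option autoImplicit false
set_option linter.style.haveILetI false

noncomputable section

namespace Fermat.Agent.PT.B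

open Fermat.Agent.PT CategoryTheory groupCohomology ExtCitation

/-- A normal level of the local tower is the fixing subgroup of a finite Galois extension of
`ℚ_q` inside `ℚ̄_q`. -/
theorem cmLoc_exists_field (q : ℕ) [Fact q.Prime] (V : Subgroup (GQq q)) [V.Normal]
    (hV : V ∈ (towerLoc q).lev) :
    ∃ K' : IntermediateField ℚ_[q] (PadicAlgCl q), FiniteDimensional ℚ_[q] K' ∧
      IsGalois ℚ_[q] K' ∧ V = K'.fixingSubgroup := by
  obtain ⟨F, hF, hVF⟩ := hV
  have hVK : V = (localField q F).fixingSubgroup := by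
    rw [hVF]
    ext τ
    rw [Subgroup.mem_comap]
    exact stmtLocalLevel q F τ
  haveI hfin : FiniteDimensional ℚ_[q] (localField q F) := stmtLocalFinite q F hF
  refine ⟨localField q F, hfin, ?_, hVK⟩
  haveI : (localField q F).fixingSubgroup.Normal := hVK ▸ (inferInstance : V.Normal)
  exact (InfiniteGalois.normal_iff_isGalois (localField q F)).1 inferInstance

/-- the pair isomorphism at a normal local level -/
theorem cmLoc_pairIso (q : ℕ) [Fact q.Prime]
    (K' : IntermediateField ℚ_[q] (PadicAlgCl q)) [FiniteDimensional ℚ_[q] K']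
    [IsGalois ℚ_[q] K'] [K'.fixingSubgroup.Normal] :
    Nonempty (PairIso ((JlocQ q).quotientToInvariants K'.fixingSubgroup)
      (Rep.ofAlgebraAutOnUnits ℚ_[q] K')) :=
  stmtInvUnits ℚ_[q] (PadicAlgCl q) K'

end Fermat.Agent.PT.B

end
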