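/-
PT-B piece T-fund (helper57): a `p`-fundamental class transports backwards along a
`p`-isomorphism of pairs, `stmtFundPIso : StmtFundPIso`.

Route (no long exact sequence): `f : A → A'` injective with `m • A' ⊆ f A` has an "inverse up to
`m`", `g : A' → A`, `g ∘ f = m`, `f ∘ g = m`. On `Hⁿ(H, -)`, `H` a `p`-group, `n = 1, 2`,
multiplication by `m` is bijective (`|H|` kills `Hⁿ`), so `f_*` and `g_*` are bijective.
-/
import Fermat.Agent.PT.B.Plan3
import Fermat.Agent.PT.A.Sylow

set_option autoImplicit false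
set_option linter.unusedSectionVars false
set_option linter.style.haveILetI false

namespace Fermat.Agent.PT.B

namespace TF

open CategoryTheory groupCohomology Fermat.Agent.PT

/-! ### Abstract: multiplication by `m` on a group killed by `N`, `gcd (m, N) = 1` -/

lemma smul_cancel {X : Type*} [AddCommGroup X] {m N : ℕ} (hco : Nat.Coprime m N) {x y : X}
    (hx : N • x = 0) (hy : N • y = 0) (h : m • x = m • y) : x = y := by
  have hz : N • (x - y) = 0 := by rw [smul_sub, hx, hy, sub_zero]
  have hm : m • (x - y) = 0 := by rw [smul_sub, h, sub_self]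
  have h1 : (Nat.gcd m N) • (x - y) = 0 := by
    have hd : addOrderOf (x - y) ∣ Nat.gcd m N :=
      Nat.dvd_gcd (addOrderOf_dvd_of_nsmul_eq_zero hm) (addOrderOf_dvd_of_nsmul_eq_zero hz)
    exact addOrderOf_dvd_iff_nsmul_eq_zero.1 hd
  rw [hco, one_smul] at h1
  exact sub_eq_zero.1 h1

lemma exists_smul_eq {X : Type*} [AddCommGroup X] {m N : ℕ} (hco : Nat.Coprime m N) {x : X}
    (hx : N • x = 0) : ∃ s : ℤ, m • (s • x) = x := by
  have h := Nat.gcd_eq_gcd_ab m N
  rw [hco] at h
  refine ⟨Nat.gcdA m N, ?_⟩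
  have h1 : ((m : ℤ) * Nat.gcdA m N + (N : ℤ) * Nat.gcdB m N) • x = x := by
    rw [← h]
    simp
  rw [add_smul, mul_smul, mul_smul] at h1
  have h2 : (N : ℤ) • (Nat.gcdB m N • x) = 0 := by
    rw [smul_comm, natCast_zsmul, hx, smul_zero]
  rw [h2, add_zero, natCast_zsmul] at h1
  exact h1

/-- `|K|` kills `H^{n+1}(K, X)`. -/
lemma card_smul_eq_zero {K : Type} [Group K] [Finite K] (X : Rep.{0} ℤ K) (n : ℕ)
    (x : groupCohomology X (n + 1)) : Nat.card K • x = 0 := by
  have hz := isZero_groupCohomology_succ_of_subsingleton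
    (Rep.res (⊥ : Subgroup K).subtype X) n
  have hsub : Subsingleton (groupCohomology (Rep.res (⊥ : Subgroup K).subtype X) (n + 1)) :=
    ModuleCat.subsingleton_of_isZero hz
  have h0 : (resSub X (⊥ : Subgroup K) (n + 1)).hom x = 0 := Subsingleton.elim _ _
  have := SylowRes.index_smul_eq_zero_of_res_eq_zero (⊥ : Subgroup K) n X x h0
  rwa [Subgroup.index_bot] at this

attribute [-instance] AddCommGroup.toIntModule

/-! ### The inverse up to `m` -/

section

variable {p : ℕ} {G G' : Type} [Group G] [Group G'] {A : Rep.{0} ℤ G} {A' : Rep.{0} ℤ G'}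
  (e : PairPIso p A A')

/-- `g : A' → A` with `f ∘ g = m`. -/
noncomputable def gFun (a' : A'.V) : A.V := (e.surj a').choose

lemma f_gFun (a' : A'.V) : e.f (gFun e a') = e.m • a' := (e.surj a').choose_spec

lemma gFun_f (a : A.V) : gFun e (e.f a) = e.m • a :=
  e.inj (by rw [f_gFun, map_nsmul])

lemma gFun_add (a' b' : A'.V) : gFun e (a' + b') = gFun e a' + gFun e b' :=
  e.inj (by rw [map_add, f_gFun, f_gFun, f_gFun, smul_add])

lemma gFun_comm (g : G) (a' : A'.V) : gFun e (A'.ρ (e.φ g) a') = A.ρ g (gFun e a') :=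
  e.inj (by rw [e.comm, f_gFun, f_gFun, map_nsmul])

/-- `g` as a linear map. -/
noncomputable def gLin : A'.V →ₗ[ℤ] A.V :=
  { toFun := gFun e
    map_add' := gFun_add e
    map_smul' := fun n a' => by
      have := map_intCast_smul (AddMonoidHom.mk' (gFun e) (gFun_add e)) ℤ ℤ n a'
      simpa using this }

lemma gLin_apply (a' : A'.V) : gLin e a' = gFun e a' := rfl

/-- `f` as a linear map. -/
noncomputable def fLin : A.V →ₗ[ℤ] A'.V :=
  { toFun := e.f
    map_add' := map_add e.f
    map_smul' := fun n a => by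
      have := map_intCast_smul e.f ℤ ℤ n a
      simpa using this }

lemma fLin_apply (a : A.V) : fLin e a = e.f a := rfl

variable (H : Subgroup G)

/-- The image subgroup. -/
abbrev H' : Subgroup G' := H.map (e.φ : G →* G')

/-- `H →* H'`. -/
noncomputable def ψ : H →* H' e H := (e.φ.subgroupMap H : H →* H.map (e.φ : G →* G'))

/-- `H' →* H`. -/
noncomputable def ψinv : H' e H →* H := ((e.φ.subgroupMap H).symm : H.map (e.φ : G →* G') →* H)

lemma ψinv_ψ (h : H) : ψinv e H (ψ e H h) = h := (e.φ.subgroupMap H).symm_apply_apply h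

lemma ψ_ψinv (h' : H' e H) : ψ e H (ψinv e H h') = h' := (e.φ.subgroupMap H).apply_symm_apply h'

lemma coe_ψ (h : H) : ((ψ e H h : H' e H) : G') = e.φ (h : G) := rfl

/-- `g` on the restrictions to `H`, `H'`. -/
noncomputable def gH :
    Rep.res (ψ e H) (Rep.res (H' e H).subtype A') ⟶ Rep.res H.subtype A :=
  Rep.ofHom
    { toLinearMap := (gLin (A := A) (A' := A') e : A'.V →ₗ[ℤ] A.V)
      isIntertwining' := fun h => LinearMap.ext fun a' => gFun_comm e (h : G) a' }

/-- `f` on the restrictions to `H`, `H'`. -/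
noncomputable def fH :
    Rep.res (ψinv e H) (Rep.res H.subtype A) ⟶ Rep.res (H' e H).subtype A' :=
  Rep.ofHom
    { toLinearMap := (fLin (A := A) (A' := A') e : A.V →ₗ[ℤ] A'.V)
      isIntertwining' := fun h' => LinearMap.ext fun a => by
        have h1 := e.comm ((ψinv e H h' : H) : G) a
        have h2 : e.φ ((ψinv e H h' : H) : G) = (h' : G') := by
          rw [← coe_ψ, ψ_ψinv]
        rw [h2] at h1
        exact h1 }

/-- `g` on the whole groups. -/
noncomputable def gG : Rep.res (e.φ : G →* G') A' ⟶ A :=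
  Rep.ofHom
    { toLinearMap := (gLin (A := A) (A' := A') e : A'.V →ₗ[ℤ] A.V)
      isIntertwining' := fun g => LinearMap.ext fun a' => gFun_comm e g a' }

end


/-! ### The maps on cohomology -/

section coh

variable {p : ℕ} {G G' : Type} [Group G] [Group G'] {A : Rep.{0} ℤ G} {A' : Rep.{0} ℤ G'}
  (e : PairPIso p A A') (H : Subgroup G)

/-- `α : Hⁿ(H', A') → Hⁿ(H, A)`, induced by `g`. -/
noncomputable def α (n : ℕ) :
    groupCohomology (Rep.res (H' e H).subtype A') n ⟶ groupCohomology (Rep.res H.subtype A) n :=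
  groupCohomology.map (ψ e H) (gH e H) n

/-- `β : Hⁿ(H, A) → Hⁿ(H', A')`, induced by `f`. -/
noncomputable def β (n : ℕ) :
    groupCohomology (Rep.res H.subtype A) n ⟶ groupCohomology (Rep.res (H' e H).subtype A') n :=
  groupCohomology.map (ψinv e H) (fH e H) n

lemma α_β₂ (x : H2 (Rep.res H.subtype A)) : (α e H 2).hom ((β e H 2).hom x) = e.m • x := by
  induction x using H2_induction_on with | h c => ?_
  unfold α β
  erw [H2π_comp_map_apply, H2π_comp_map_apply]
  rw [← map_nsmul]
  congr 1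
  apply cocycles₂_ext
  intro g h
  show gFun e (e.f (c (ψinv e H (ψ e H g), ψinv e H (ψ e H h)))) = e.m • c (g, h)
  rw [gFun_f, ψinv_ψ, ψinv_ψ]

lemma β_α₂ (x : H2 (Rep.res (H' e H).subtype A')) :
    (β e H 2).hom ((α e H 2).hom x) = e.m • x := by
  induction x using H2_induction_on with | h c => ?_
  unfold α β
  erw [H2π_comp_map_apply, H2π_comp_map_apply]
  rw [← map_nsmul]
  congr 1
  apply cocycles₂_ext
  intro g h
  show e.f (gFun e (c (ψ e H (ψinv e H g), ψ e H (ψinv e H h)))) = e.m • c (g, h)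
  rw [f_gFun, ψ_ψinv, ψ_ψinv]

lemma α_β₁ (x : H1 (Rep.res H.subtype A)) : (α e H 1).hom ((β e H 1).hom x) = e.m • x := by
  induction x using H1_induction_on with | h c => ?_
  unfold α β
  erw [H1π_comp_map_apply, H1π_comp_map_apply]
  rw [← map_nsmul]
  congr 1
  apply cocycles₁_ext
  intro g
  show gFun e (e.f (c (ψinv e H (ψ e H g)))) = e.m • c g
  rw [gFun_f, ψinv_ψ]

end coh


section main

variable {p : ℕ} {G G' : Type} [Group G] [Group G'] {A : Rep.{0} ℤ G} {A' : Rep.{0} ℤ G'}
  (e : PairPIso p A A') (H : Subgroup G)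

/-- compatibility of `α` with the restrictions -/
lemma α_res (u' : H2 A') :
    (α e H 2).hom ((resSub A' (H' e H) 2).hom u') =
      (resSub A H 2).hom ((groupCohomology.map (e.φ : G →* G') (gG e) 2).hom u') := by
  induction u' using H2_induction_on with | h c => ?_
  unfold α resSub
  erw [H2π_comp_map_apply, H2π_comp_map_apply, H2π_comp_map_apply, H2π_comp_map_apply]
  congr 1

lemma coprime_card [Fact p.Prime] [Finite G] (hH : IsPGroup p H) :
    Nat.Coprime e.m (Nat.card H) := by
  obtain ⟨n, hn⟩ := IsPGroup.iff_card.1 hH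
  rw [hn]
  exact Nat.Coprime.pow_right n
    (((Fact.out : p.Prime).coprime_iff_not_dvd).2 e.hm).symm

lemma card_H' : Nat.card (H' e H) = Nat.card H :=
  (Nat.card_congr (e.φ.subgroupMap H).toEquiv).symm

lemma isPGroup_H' (hH : IsPGroup p H) : IsPGroup p (H' e H) := hH.map _

end main


section main2

variable {p : ℕ} [Fact p.Prime] {G G' : Type} [Group G] [Group G'] [Finite G]
  {A : Rep.{0} ℤ G} {A' : Rep.{0} ℤ G'} (e : PairPIso p A A') (H : Subgroup G)

lemma finite_G' {p : ℕ} {G G' : Type} [Group G] [Group G'] [Finite G]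
    {A : Rep.{0} ℤ G} {A' : Rep.{0} ℤ G'} (e : PairPIso p A A') : Finite G' :=
  Finite.of_equiv G e.φ.toEquiv

lemma β_inj₁ (hH : IsPGroup p H) : Function.Injective (β e H 1).hom := by
  intro x y hxy
  apply smul_cancel (coprime_card e H hH) (card_smul_eq_zero _ 0 x) (card_smul_eq_zero _ 0 y)
  rw [← α_β₁, ← α_β₁, hxy]

lemma β_inj₂ (hH : IsPGroup p H) : Function.Injective (β e H 2).hom := by
  intro x y hxy
  apply smul_cancel (coprime_card e H hH) (card_smul_eq_zero _ 1 x) (card_smul_eq_zero _ 1 y)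
  rw [← α_β₂, ← α_β₂, hxy]

lemma β_surj₂ (hH : IsPGroup p H) : Function.Surjective (β e H 2).hom := by
  intro x'
  haveI : Finite G' := finite_G' e
  have hco : Nat.Coprime e.m (Nat.card (H' e H)) := by
    rw [card_H']
    exact coprime_card e H hH
  obtain ⟨s, hs⟩ := exists_smul_eq hco (card_smul_eq_zero _ 1 x')
  exact ⟨(α e H 2).hom (s • x'), by rw [β_α₂, hs]⟩

end main2

end TF

open TF groupCohomology in
/-- **T-fund**: a `p`-fundamental class transports backwards along a `p`-isomorphism of pairs. -/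
theorem stmtFundPIso : StmtFundPIso := by
  intro p _ G G' _ _ _ A A' ⟨e⟩ ⟨u', hu'⟩
  haveI : Finite G' := finite_G' e
  refine ⟨(groupCohomology.map (e.φ : G →* G') (gG e) 2).hom u', ?_, ?_, ?_⟩
  · intro H hH
    have hsub := hu'.h1 (H' e H) (isPGroup_H' e H hH)
    exact ⟨fun x y => β_inj₁ e H hH (Subsingleton.elim _ _)⟩
  · intro H hH
    rw [← card_H' e H, ← hu'.h2_card (H' e H) (isPGroup_H' e H hH)]
    exact Nat.card_congr (Equiv.ofBijective _ ⟨β_inj₂ e H hH, β_surj₂ e H hH⟩)
  · intro H hH x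
    obtain ⟨s, hs⟩ := exists_smul_eq (coprime_card e H hH) (card_smul_eq_zero _ 1 x)
    obtain ⟨n, hn⟩ := hu'.h2_gen (H' e H) (isPGroup_H' e H hH) ((β e H 2).hom (s • x))
    refine ⟨n, ?_⟩
    have h1 : (α e H 2).hom ((β e H 2).hom (s • x)) = x := by rw [α_β₂, hs]
    rw [← h1, ← hn, ← α_res]
    first
      | exact (map_zsmul (α e H 2).hom n _).symm
      | exact (LinearMap.map_smul (α e H 2).hom n _).symm
      | exact (map_zsmul ((α e H 2).hom : _ →+ _) n _).symm
      | exact (map_zsmul (α e H 2).hom.toAddMonoidHom n _).symm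

end Fermat.Agent.PT.B

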