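/-
PT-B, piece B-cmloc (helper11): the datum axiom `cm_loc` for `JlocQ q = ℚ̄_qˣ`.
`(G_{ℚ_q}/V, (ℚ̄_qˣ)^V) ≅ (Gal(K'/ℚ_q), K'ˣ)` (LocLevelField.lean), which has a `p`-fundamental
class (PT-L `fundClass`); transport by `stmtFundPIso`.
-/
import Fermat.Agent.PT.B.LocLevelField
import Fermat.Agent.PT.B.TransportFund
import Fermat.Agent.PT.L.Final

set_option autoImplicit false
set_option linter.style.haveILetI false

noncomputable section

namespace Fermat.Agent.PT.B

open Fermat.Agent.PT CategoryTheory groupCohomology ExtCitation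

/-- **B-cmloc**. -/
theorem stmtCmLoc : StmtCmLoc := by
  intro p _ q _ V _ hV
  obtain ⟨K', hfin, hgal, hVK⟩ := cmLoc_exists_field q V hV
  subst hVK
  haveI := hfin
  haveI := hgal
  obtain ⟨e⟩ := cmLoc_pairIso q K'
  haveI : Finite (GQq q ⧸ K'.fixingSubgroup) := by
    haveI := (towerLoc q).finiteIndex _ hV
    infer_instance
  exact stmtFundPIso p _ _ _ _ ⟨e.toPairPIso p⟩ (Fermat.Agent.PT.L.fundClass q p ℚ_[q] ↥K')

end Fermat.Agent.PT.B

end
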