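/-
PT-B (bridge for S55) — INTERFACE FILE 4: the COMPARISON MAP
`f_L : (J_S / E_S)^{Gal(ℚ̄/L)} → C_S(L)` between the class module of the concrete datum
(`CRep S`, PT/B/Concrete.lean) and the type-level class module `CS S L` (PT/G/Defs.lean), and
the shapes in which PT-B consumes the results of PT-G3 and PT-X.
Definitions and statements only.  Piece table: NOTES/PT-B.md.
-/
import Fermat.Agent.PT.B.Plan3
import Fermat.Agent.PT.G.Plan2
import Fermat.Agent.PT.G.Reps
import Fermat.Agent.PT.G3.Plan2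

set_option autoImplicit false
set_option linter.style.haveILetI false

noncomputable section

namespace Fermat.Agent.PT.B

open Fermat.Agent.PT CategoryTheory groupCohomology ExtCitation
open Fermat.Agent.PT.G Fermat.Agent.PT.G1
open scoped Pointwise TensorProduct

/-! ## Tower fields as number fields -/

theorem numberField_of_finiteDimensional (L : QbarField) (h : FiniteDimensional ℚ L) :
    NumberField ↥L :=
  haveI := h
  ⟨⟩

theorem numberField_of_isUnramifiedOutside {S : Finset Nat.Primes} {L : QbarField}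
    (hL : L.IsUnramifiedOutside S) : NumberField ↥L :=
  numberField_of_finiteDimensional L hL.1

theorem numberField_of_isTowerField {S : Finset Nat.Primes} {L : QbarField}
    (hL : IsTowerField S L) : NumberField ↥L :=
  numberField_of_isUnramifiedOutside hL.1

/-- The algebra structure `L → L'` for `L ≤ L'` (use with `letI`). -/
abbrev algebraOfLe {L L' : QbarField} (h : L ≤ L') : Algebra ↥L ↥L' :=
  (IntermediateField.inclusion h).toRingHom.toAlgebra

theorem algebraOfLe_apply {L L' : QbarField} (h : L ≤ L') (x : ↥L) :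
    ((@algebraMap ↥L ↥L' _ _ (algebraOfLe h) x : ↥L') : AlgebraicClosure ℚ) = x := rfl

/-! ## I1, in the shape used by PT-G3 -/

/-- **I1'** (RAM-rel): a field unramified outside `S` (prelude) is unramified outside `S` in the
ideal-theoretic sense of PT/G/Plan2.lean. -/
def StmtRamRel : Prop :=
  ∀ (S : Finset Nat.Primes) (L : QbarField) (hL : L.IsUnramifiedOutside S),
    haveI := numberField_of_isUnramifiedOutside hL
    UnramOffRel S ℚ ↥L

/-! ## The invariants of the class module -/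

/-- `C_S^{Gal(ℚ̄/L)}` as an additive subgroup of `C_S = J_S / E_S`. -/
def CInv (S : Finset Nat.Primes) (L : QbarField) : AddSubgroup (CRep S).V where
  carrier := {c | ∀ s ∈ L.fixingSubgroup, (CRep S).ρ s c = c}
  add_mem' := fun {a b} ha hb s hs => by rw [map_add, ha s hs, hb s hs]
  zero_mem' := fun s _ => map_zero _
  neg_mem' := fun {a} ha s hs => by rw [map_neg, ha s hs]

theorem mem_CInv_iff (S : Finset Nat.Primes) (L : QbarField) (c : (CRep S).V) :
    c ∈ CInv S L ↔ ∀ s ∈ L.fixingSubgroup, (CRep S).ρ s c = c := Iff.rfl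

/-- `C^{G_L} ⊆ C^{G_{L'}}` for `L ≤ L'`. -/
theorem CInv_mono (S : Finset Nat.Primes) {L L' : QbarField} (h : L ≤ L') :
    CInv S L ≤ CInv S L' :=
  fun _ hc s hs => hc s (IntermediateField.fixingSubgroup_antitone h hs)

/-- `G_ℚ` preserves `C^{G_L}` when `L/ℚ` is Galois. -/
theorem smul_mem_CInv (S : Finset Nat.Primes) {L : QbarField} (hL : IsGalois ℚ L) (g : GQ)
    {c : (CRep S).V} (hc : c ∈ CInv S L) : (CRep S).ρ g c ∈ CInv S L := by
  haveI : IsAlgClosure ℚ (AlgebraicClosure ℚ) :=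
    ⟨inferInstance, AlgebraicClosure.isAlgebraic ℚ⟩
  haveI : IsGalois ℚ (AlgebraicClosure ℚ) := inferInstance
  haveI : L.fixingSubgroup.Normal := (InfiniteGalois.normal_iff_isGalois L).2 hL
  intro s hs
  have h1 : g⁻¹ * s * g ∈ L.fixingSubgroup := by
    have := Subgroup.Normal.conj_mem (inferInstance : L.fixingSubgroup.Normal) s hs g⁻¹
    simpa using this
  have h2 := hc _ h1
  have h3 : (CRep S).ρ s ((CRep S).ρ g c) = (CRep S).ρ g ((CRep S).ρ (g⁻¹ * s * g) c) := by
    rw [← Module.End.mul_apply, ← Module.End.mul_apply, ← map_mul, ← map_mul]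
    congr 2
    group
  rw [h3, h2]

/-- the image of `θ_L` lands in `J^{G_L}`, hence its class lies in `C^{G_L}` -/
theorem thetaL_invariant (S : Finset Nat.Primes) (L : QbarField) [NumberField L]
    (hL : L.IsUnramifiedOutside S) (z : Additive (JL S ↥L)) (s : GQ)
    (hs : s ∈ L.fixingSubgroup) : (JS S).ρ s (thetaL S L hL z) = thetaL S L hL z := by
  apply Subtype.ext
  funext v g
  exact congrArg Additive.ofMul (Units.ext
    (tensEv_mul_of_mem ((v : Nat.Primes) : ℕ) L g s hs ((Additive.toMul z) v : _)))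

theorem piC_thetaL_mem_CInv (S : Finset Nat.Primes) (L : QbarField) [NumberField L]
    (hL : L.IsUnramifiedOutside S) (z : Additive (JL S ↥L)) :
    (piC S).hom (thetaL S L hL z) ∈ CInv S L := by
  intro s hs
  rw [← Rep.hom_comm_apply (piC S) s, thetaL_invariant S L hL z s hs]

/-! ## The comparison map -/

/-- A family of maps `f_L : C_S^{G_L} → C_S(L)`, `L` in the tower. -/
abbrev CompareFamily (S : Finset Nat.Primes) : Type :=
  ∀ (L : QbarField) (hL : IsTowerField S L),
    ↥(CInv S L) →+ @CS S ↥L _ (numberField_of_isTowerField hL)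

/-- **The properties of the comparison maps** `f_L : (J_S/E_S)^{G_L} → C_S(L)`:
injective, cokernel killed by an integer prime to `p`, equivariant, `f_L(π(θ_L z)) = [z]` and
natural in `L`.  (`f_L c` is THE class with `csMap_{L'/L}(f_L c) = csOfJ_{L'} z` whenever
`c = π(θ_{L'} z)`; it exists by Galois descent for `C_S(·)`, PT/G/Descent.lean.) -/
structure IsCompare (p : ℕ) (S : Finset Nat.Primes) (f : CompareFamily S) : Prop where
  inj : ∀ (L : QbarField) (hL : IsTowerField S L), Function.Injective (f L hL)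
  pcoker : ∀ (L : QbarField) (hL : IsTowerField S L),
    ∃ m : ℕ, ¬ p ∣ m ∧
      ∀ c' : @CS S ↥L _ (numberField_of_isTowerField hL), ∃ c, f L hL c = m • c'
  equivariant : ∀ (L : QbarField) (hL : IsTowerField S L) (g : GQ)
    (σ : @AlgEquiv ℚ ↥L ↥L _ _ _ _ _) (_ : ∀ x : ↥L, g (x : AlgebraicClosure ℚ) = σ x)
    (c : ↥(CInv S L)),
    f L hL ⟨(CRep S).ρ g c.1, smul_mem_CInv S hL.2 g c.2⟩ =
      @csEnd S ↥L _ (numberField_of_isTowerField hL) σ (f L hL c)
  idelic : ∀ (L : QbarField) (hL : IsTowerField S L)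
    (z : Additive (@JL S ↥L _ (numberField_of_isTowerField hL))),
    f L hL ⟨(piC S).hom (@thetaL S L (numberField_of_isTowerField hL) hL.1 z),
        @piC_thetaL_mem_CInv S L (numberField_of_isTowerField hL) hL.1 z⟩ =
      @csOfJ S ↥L _ (numberField_of_isTowerField hL) z
  natural : ∀ (L L' : QbarField) (hL : IsTowerField S L) (hL' : IsTowerField S L')
    (hle : L ≤ L') (c : ↥(CInv S L)),
    @csMap S ↥L ↥L' _ (numberField_of_isTowerField hL) _ (numberField_of_isTowerField hL')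
        (algebraOfLe hle) (f L hL c) =
      f L' hL' ⟨c.1, CInv_mono S hle c.2⟩

/-- **I5/I6** (COMPARE): the comparison maps exist. -/
def StmtCompare : Prop :=
  ∀ (p : ℕ) [Fact p.Prime] (S : Finset Nat.Primes), pPrime p ∈ S →
    ∃ f : CompareFamily S, IsCompare p S f

/-! ## The shapes in which PT-B consumes PT-G3 and PT-X -/

/-- **(GA)** (PT-G3): the type-level class module has a `p`-fundamental class. -/
def StmtGA : Prop :=
  ∀ (p : ℕ) [Fact p.Prime], p ≠ 2 → ∀ (S : Finset Nat.Primes), pPrime p ∈ S →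
    ∀ (L : Type) [Field L] [NumberField L] [IsGalois ℚ L], UnramOffRel S ℚ L →
      ∃ u : H2 (csRep S L), IsPFundClass p (csRep S L) u

/-- **(GB)** (PT-G3), finite-level `surv`, in cocycle form: a `p`-primary class of
`H²(Aut L, J_L)` supported at one `q ∈ S` which dies in `H²(Aut L, C_S(L))` is zero. -/
def StmtGB : Prop :=
  ∀ (p : ℕ) [Fact p.Prime], p ≠ 2 → ∀ (S : Finset Nat.Primes), pPrime p ∈ S →
    ∀ (L : Type) [Field L] [NumberField L] [IsGalois ℚ L], UnramOffRel S ℚ L →
    ∀ (q : ↥S) (y : (L ≃ₐ[ℚ] L) × (L ≃ₐ[ℚ] L) → (jlRep S L).V),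
      y ∈ cocycles₂ (jlRep S L) →
      (∀ q' : ↥S, q' ≠ q → ∀ gg, (Additive.toMul (y gg : Additive (JL S L)) : JL S L) q' = 1) →
      (∃ (k : ℕ) (t : (L ≃ₐ[ℚ] L) → (jlRep S L).V), (d₁₂ (jlRep S L)).hom t = (p ^ k) • y) →
      (∃ t : (L ≃ₐ[ℚ] L) → (csRep S L).V,
        (d₁₂ (csRep S L)).hom t = fun gg => (csOfJRep S L).hom (y gg)) →
      ∃ t : (L ≃ₐ[ℚ] L) → (jlRep S L).V, (d₁₂ (jlRep S L)).hom t = y

/-- **(X-CAP)** (PT-X), `p`-capitulation: a class of `C_S(L)` whose image in `Cl_S(L)` has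
`p`-power order becomes idelic in a larger tower field. -/
def StmtCapCS : Prop :=
  ∀ (p : ℕ) [Fact p.Prime] (S : Finset Nat.Primes), pPrime p ∈ S →
    ∀ (L : QbarField) (hL : IsTowerField S L)
      (c : @CS S ↥L _ (numberField_of_isTowerField hL)),
      (∃ k : ℕ, (p ^ k) • c ∈
        LinearMap.range (@csOfJ S ↥L _ (numberField_of_isTowerField hL))) →
      ∃ (L' : QbarField) (hL' : IsTowerField S L') (hle : L ≤ L'),
        @csMap S ↥L ↥L' _ (numberField_of_isTowerField hL) _ (numberField_of_isTowerField hL')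
            (algebraOfLe hle) c ∈
          LinearMap.range (@csOfJ S ↥L' _ (numberField_of_isTowerField hL'))

/-- **(X-EX)** (PT-X), existence theorem mod `p`: above every tower field there are tower fields
`L₁ ≤ L'` with `N_{L'/L₁} C_S(L') ⊆ p · C_S(L₁)`. -/
def StmtExistCS : Prop :=
  ∀ (p : ℕ) [Fact p.Prime], p ≠ 2 → ∀ (S : Finset Nat.Primes), pPrime p ∈ S →
    ∀ (L : QbarField), IsTowerField S L →
      ∃ (L₁ L' : QbarField) (hL₁ : IsTowerField S L₁) (hL' : IsTowerField S L')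
        (_ : L ≤ L₁) (hle : L₁ ≤ L'),
        haveI := numberField_of_isTowerField hL₁
        haveI := numberField_of_isTowerField hL'
        letI := algebraOfLe hle
        ∀ c : CS S ↥L', ∃ c₁ : CS S ↥L₁,
          csMap S ↥L₁ ↥L' (p • c₁) = Fermat.Agent.PT.G3.galNorm S ↥L₁ ↥L' c

/-! ## The hard axioms of the concrete datum -/

/-- **B-cmglob** = the datum axiom `cm_glob` for `CRep S`. -/
def StmtCmGlob : Prop :=
  ∀ (p : ℕ) [Fact p.Prime], p ≠ 2 → ∀ (S : Finset Nat.Primes), pPrime p ∈ S →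
    ∀ (U : Subgroup GQ) [U.Normal], U ∈ (towerS S).lev →
      ∃ u : H2 ((CRep S).quotientToInvariants U),
        IsPFundClass p ((CRep S).quotientToInvariants U) u

/-- **B-exist** = the datum axiom `exist` for `CRep S`. -/
def StmtExistC : Prop :=
  ∀ (p : ℕ) [Fact p.Prime], p ≠ 2 → ∀ (S : Finset Nat.Primes), pPrime p ∈ S →
    ∀ U ∈ (towerS S).lev, ∃ U₁ ∈ (towerS S).lev, ∃ U' ∈ (towerS S).lev,
      U₁ ≤ U ∧ U' ≤ U₁ ∧ U₁.Normal ∧ U'.Normal ∧
      ∀ c : (CRep S).V, (∀ s ∈ U', (CRep S).ρ s c = c) →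
        ∃ c' : (CRep S).V, (∀ s ∈ U₁, (CRep S).ρ s c' = c') ∧
          p • c' = ∑ᶠ t : ↥U₁ ⧸ U'.subgroupOf U₁, (CRep S).ρ ((Quotient.out t : ↥U₁) : GQ) c

/-- **B-surv** = the datum axiom `surv` for the concrete datum. -/
def StmtSurvC : Prop :=
  ∀ (p : ℕ) [Fact p.Prime], p ≠ 2 → ∀ (S : Finset Nat.Primes), pPrime p ∈ S →
    ∀ (v : ↥S) (y : GQ × GQ → (JS S).V),
      y ∈ cocycles₂ (JS S) → IsLevel₂ (towerS S) y →
      (∀ v' : ↥S, v' ≠ v → ∀ g g' h : GQ, (y (g, g')).1 v' h = 0) →
      (∃ (k : ℕ) (t : GQ → (JS S).V), IsLevel₁ (towerS S) t ∧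
        (d₁₂ (JS S)).hom t = (p ^ k) • y) →
      (∃ t : GQ → (CRep S).V, IsLevel₁ (towerS S) t ∧
        (d₁₂ (CRep S)).hom t = fun gg => (piC S).hom (y gg)) →
      ∃ t : GlocS S v → (JlocS S v).V, IsLevel₁ (towerLocS S v) t ∧
        (d₁₂ (JlocS S v)).hom t = fun dd => (y (rS S v dd.1, rS S v dd.2)).1 v 1

end Fermat.Agent.PT.B

end
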