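/-
PT-B, piece **theta**: elementary properties of the comparison map `θ_L : J_L → J_S`
(`thetaL`, PT/B/Plan3.lean): naturality in `L`, equivariance, compatibility with the diagonal
embeddings, and (from `StmtTens`) `J_S = ⋃_L θ_L(J_L)`.
-/
import Fermat.Agent.PT.B.Plan4
import Fermat.Agent.PT.G.Map

set_option autoImplicit false
set_option linter.style.haveILetI false

noncomputable section

namespace Fermat.Agent.PT.B

open Fermat.Agent.PT CategoryTheory groupCohomology ExtCitation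
open Fermat.Agent.PT.G Fermat.Agent.PT.G1
open scoped Pointwise TensorProduct

/-! ### Levels -/

/-- every element of `J_S` is fixed by a level -/
theorem JS_discrete (S : Finset Nat.Primes) (x : (JS S).V) :
    ∃ U ∈ (towerS S).lev, ∀ s ∈ U, (JS S).ρ s x = x := by
  have h : ∀ v : ↥S, ∃ U ∈ (towerS S).lev, ∀ g s : GQ, s ∈ U → x.1 v (g * s) = x.1 v g :=
    fun v => (x.2 v).2
  choose U hU hUx using h
  have hfin : ∀ T : Finset ↥S, ∃ W ∈ (towerS S).lev, ∀ v ∈ T, W ≤ U v := by
    intro T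
    induction T using Finset.induction_on with
    | empty => exact ⟨⊤, (towerS S).top_mem, by simp⟩
    | insert a T _ ih =>
      obtain ⟨W, hW, hWT⟩ := ih
      refine ⟨U a ⊓ W, (towerS S).inf_mem _ _ (hU a) hW, fun v hv => ?_⟩
      rcases Finset.mem_insert.1 hv with rfl | hv
      · exact inf_le_left
      · exact inf_le_right.trans (hWT v hv)
  obtain ⟨W, hW, hWU⟩ := hfin Finset.univ
  refine ⟨W, hW, fun s hs => ?_⟩
  apply Subtype.ext
  funext v g
  exact hUx v g s (hWU v (Finset.mem_univ v) hs)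

/-- below every level there is the level of a tower field -/
theorem exists_isTowerField_fixingSubgroup_le (S : Finset Nat.Primes) (U : Subgroup GQ)
    (hU : U ∈ (towerS S).lev) : ∃ L : QbarField, IsTowerField S L ∧ L.fixingSubgroup ≤ U := by
  obtain ⟨F, hF, rfl⟩ := hU
  obtain ⟨L, hle, hL⟩ := stmtNormalClosure S F hF
  exact ⟨L, hL, IntermediateField.fixingSubgroup_antitone hle⟩

/-- **`J_S = ⋃_L θ_L(J_L)`** (given I2). -/
theorem exists_thetaL_eq (hT : StmtTens) (S : Finset Nat.Primes) (x : (JS S).V) :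
    ∃ (L : QbarField) (hL : IsTowerField S L),
      ∃ z : Additive (@JL S ↥L _ (numberField_of_isTowerField hL)),
        @thetaL S L (numberField_of_isTowerField hL) hL.1 z = x := by
  obtain ⟨U, hU, hx⟩ := JS_discrete S x
  obtain ⟨L, hL, hLU⟩ := exists_isTowerField_fixingSubgroup_le S U hU
  haveI := numberField_of_isTowerField hL
  obtain ⟨z, hz⟩ := (hT S L hL.1 hL.2).2 x (fun s hs => hx s (hLU hs))
  exact ⟨L, hL, z, hz⟩

/-! ### Naturality in `L` -/

theorem tensEv_semiIncl (q : ℕ) [Fact q.Prime] {L L' : QbarField} [NumberField L]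
    [NumberField L'] (hle : L ≤ L') (g : GQ) (z : semiAlg q ↥L) :
    tensEv q L' g (@semiIncl ↥L ↥L' _ _ _ _ (algebraOfLe hle) q _ z) = tensEv q L g z := by
  letI := algebraOfLe hle
  induction z using TensorProduct.induction_on with
  | zero => simp
  | tmul y x =>
    rw [semiIncl_tmul, tensEv_tmul, tensEv_tmul]
    rfl
  | add a b ha hb => rw [map_add, map_add, map_add, ha, hb]

/-- `θ_{L'} ∘ (J_L → J_{L'}) = θ_L`. -/
theorem thetaL_jlMapLin (S : Finset Nat.Primes) {L L' : QbarField} [NumberField L]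
    [NumberField L'] (hL : L.IsUnramifiedOutside S) (hL' : L'.IsUnramifiedOutside S)
    (hle : L ≤ L') (z : Additive (JL S ↥L)) :
    thetaL S L' hL' (@jlMapLin S ↥L ↥L' _ _ _ _ (algebraOfLe hle) z) = thetaL S L hL z := by
  apply Subtype.ext
  funext v g
  exact congrArg Additive.ofMul (Units.ext
    (tensEv_semiIncl ((v : Nat.Primes) : ℕ) hle g ((Additive.toMul z) v : _)))

/-! ### Equivariance -/

theorem tensEv_semiMap (q : ℕ) [Fact q.Prime] (L : QbarField) [NumberField L] (g h : GQ)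
    (σ : ↥L ≃ₐ[ℚ] ↥L) (hσ : ∀ x : ↥L, g (x : AlgebraicClosure ℚ) = σ x) (z : semiAlg q ↥L) :
    tensEv q L h (semiMap q σ z) = tensEv q L (h * g) z := by
  induction z using TensorProduct.induction_on with
  | zero => simp
  | tmul y x =>
    have h1 : semiMap q σ (y ⊗ₜ[ℚ] x) = y ⊗ₜ[ℚ] σ x := by simp [semiMap]
    rw [h1, tensEv_tmul, tensEv_tmul, ← hσ x]
    rfl
  | add a b ha hb => rw [map_add, map_add, map_add, ha, hb]

/-- `θ_L (σ z) = g · θ_L z` if `g|_L = σ`. -/
theorem thetaL_jlEnd (S : Finset Nat.Primes) (L : QbarField) [NumberField L]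
    (hL : L.IsUnramifiedOutside S) (g : GQ) (σ : ↥L ≃ₐ[ℚ] ↥L)
    (hσ : ∀ x : ↥L, g (x : AlgebraicClosure ℚ) = σ x) (z : Additive (JL S ↥L)) :
    thetaL S L hL (jlEnd S σ z) = (JS S).ρ g (thetaL S L hL z) := by
  apply Subtype.ext
  funext v h
  exact congrArg Additive.ofMul (Units.ext
    (tensEv_semiMap ((v : Nat.Primes) : ℕ) L g h σ hσ ((Additive.toMul z) v : _)))

/-! ### The diagonal -/

/-- `θ_L (diag x) = (g ↦ ι_q (g x))`. -/
theorem thetaL_jlDiag_apply (S : Finset Nat.Primes) (L : QbarField) [NumberField L]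
    (hL : L.IsUnramifiedOutside S) (x : (↥L)ˣ) (v : ↥S) (g : GQ) :
    (thetaL S L hL (Additive.ofMul (jlDiag S ↥L x))).1 v g =
      Additive.ofMul (jUnits ((v : Nat.Primes) : ℕ)
        (g • Units.map (L.val : ↥L →* AlgebraicClosure ℚ) x)) := by
  refine congrArg Additive.ofMul (Units.ext ?_)
  show tensEv ((v : Nat.Primes) : ℕ) L g ((1 : ℚ_[((v : Nat.Primes) : ℕ)]) ⊗ₜ[ℚ] (x : ↥L)) = _
  rw [tensEv_tmul, map_one, one_mul]
  rfl

/-- `θ_L ∘ diag = iDiag` on the `S`-units of `L`. -/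
theorem thetaL_jlDiag_of_mem (S : Finset Nat.Primes) (L : QbarField) [NumberField L]
    (hL : L.IsUnramifiedOutside S) (x : (↥L)ˣ)
    (hx : Units.map (L.val : ↥L →* AlgebraicClosure ℚ) x ∈ unitsS S) :
    thetaL S L hL (Additive.ofMul (jlDiag S ↥L x)) =
      (iDiag S).hom (Additive.ofMul (⟨_, hx⟩ : ↥(unitsS S))) := by
  apply Subtype.ext
  funext v g
  rw [thetaL_jlDiag_apply]
  rfl

end Fermat.Agent.PT.B

end
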