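/-
PT-B, piece **compare**, part 1: Galois dictionary for tower fields and the KEY LEMMA
`π(θ_L z) = 0 ↔ csOfJ z = 0` (the kernel of `J_L → C_S = J_S/E_S` is the group of `S`-units of
`L`, which is also the kernel of `J_L → C_S(L)`).
-/
import Fermat.Agent.PT.B.Theta
import Fermat.Agent.PT.G.Exact

set_option autoImplicit false
set_option linter.style.haveILetI false

noncomputable section

namespace Fermat.Agent.PT.B

open Fermat.Agent.PT CategoryTheory groupCohomology ExtCitation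
open Fermat.Agent.PT.G Fermat.Agent.PT.G1
open scoped Pointwise TensorProduct

/-! ### Galois dictionary -/

theorem cmp_isGalois_qbar : IsGalois ℚ (AlgebraicClosure ℚ) := by
  haveI : IsAlgClosure ℚ (AlgebraicClosure ℚ) :=
    ⟨inferInstance, AlgebraicClosure.isAlgebraic ℚ⟩
  infer_instance

theorem cmp_normal_qbar : Normal ℚ (AlgebraicClosure ℚ) := by
  haveI : IsAlgClosure ℚ (AlgebraicClosure ℚ) :=
    ⟨inferInstance, AlgebraicClosure.isAlgebraic ℚ⟩
  exact IsAlgClosure.normal ℚ (AlgebraicClosure ℚ)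

/-- an element fixed by `Gal(ℚ̄/L)` lies in `L` -/
theorem cmp_mem_of_fixed (L : QbarField) (x : AlgebraicClosure ℚ)
    (h : ∀ s ∈ L.fixingSubgroup, s x = x) : x ∈ L := by
  haveI := cmp_isGalois_qbar
  rw [← InfiniteGalois.fixedField_fixingSubgroup L]
  exact fun s => h s.1 s.2

/-- every automorphism of a Galois `L/ℚ` lifts to `G_ℚ` -/
theorem cmp_exists_lift (L : QbarField) (hL : IsGalois ℚ L) (σ : ↥L ≃ₐ[ℚ] ↥L) :
    ∃ g : GQ, ∀ x : ↥L, g (x : AlgebraicClosure ℚ) = σ x := by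
  haveI := cmp_normal_qbar
  haveI : Normal ℚ ↥L := hL.to_normal
  obtain ⟨g, hg⟩ := AlgEquiv.restrictNormalHom_surjective (F := ℚ) (K₁ := ↥L)
    (AlgebraicClosure ℚ) σ
  refine ⟨g, fun x => ?_⟩
  rw [← hg]
  exact (AlgEquiv.restrictNormal_commutes g ↥L x).symm

/-- the restriction of `g ∈ G_ℚ` to a Galois `L/ℚ` -/
def cmpRestrict (L : QbarField) (hL : IsGalois ℚ L) (g : GQ) : ↥L ≃ₐ[ℚ] ↥L :=
  haveI : Normal ℚ ↥L := hL.to_normal
  AlgEquiv.restrictNormalHom (F := ℚ) (K₁ := AlgebraicClosure ℚ) ↥L g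

theorem cmpRestrict_apply (L : QbarField) (hL : IsGalois ℚ L) (g : GQ) (x : ↥L) :
    g (x : AlgebraicClosure ℚ) = cmpRestrict L hL g x :=
  haveI : Normal ℚ ↥L := hL.to_normal
  (AlgEquiv.restrictNormal_commutes g ↥L x).symm

/-! ### The diagonal is injective -/

theorem iDiag_injective (S : Finset Nat.Primes) (hS : S.Nonempty) :
    Function.Injective (iDiag S).hom := by
  obtain ⟨q, hq⟩ := hS
  intro e e' h
  have h1 : ((iDiag S).hom e).1 ⟨q, hq⟩ 1 = ((iDiag S).hom e').1 ⟨q, hq⟩ 1 := by rw [h]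
  rw [iDiag_apply, iDiag_apply, map_one] at h1
  exact jLocP_injective S q h1

/-! ### The key lemma -/

/-- If `θ_L z` is the diagonal image of `e ∈ E_S`, then `z` is the diagonal image of an `S`-unit
of `L`. -/
theorem cmp_exists_unit_of_thetaL_eq (hT : StmtTens) (hU : StmtUnitsS) (S : Finset Nat.Primes)
    (hS : S.Nonempty) (L : QbarField) [NumberField L] (hL : L.IsUnramifiedOutside S)
    (hG : IsGalois ℚ L) (z : Additive (JL S ↥L)) (e : (ERep S).V)
    (he : (iDiag S).hom e = thetaL S L hL z) :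
    z ∈ LinearMap.range (jlDiagUnits S ↥L) := by
  -- `e` is fixed by `G_L`
  have hfix : ∀ s ∈ L.fixingSubgroup, (ERep S).ρ s e = e := by
    intro s hs
    apply iDiag_injective S hS
    rw [Rep.hom_comm_apply (iDiag S) s e, he, thetaL_invariant S L hL z s hs]
  -- hence `e ∈ L`
  have hmem : (((Additive.toMul (e : Additive ↥(unitsS S)) : ↥(unitsS S)) :
      (AlgebraicClosure ℚ)ˣ) : AlgebraicClosure ℚ) ∈ L := by
    apply cmp_mem_of_fixed
    intro s hs
    have := hfix s hs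
    exact congrArg (fun e : Additive ↥(unitsS S) =>
      (((Additive.toMul e : ↥(unitsS S)) : (AlgebraicClosure ℚ)ˣ) : AlgebraicClosure ℚ)) this
  have hmem' : (((Additive.toMul (e : Additive ↥(unitsS S)) : ↥(unitsS S)) :
      (AlgebraicClosure ℚ)ˣ)⁻¹ : (AlgebraicClosure ℚ)ˣ).1 ∈ L := by
    rw [Units.val_inv_eq_inv_val]
    exact inv_mem hmem
  -- the unit of `L`
  let e₀ : (↥L)ˣ := ⟨⟨_, hmem⟩, ⟨_, hmem'⟩, Subtype.ext (Units.mul_inv _), Subtype.ext (Units.inv_mul _)⟩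
  have he₀ : Units.map (L.val : ↥L →* AlgebraicClosure ℚ) e₀ =
      ((Additive.toMul (e : Additive ↥(unitsS S)) : ↥(unitsS S)) : (AlgebraicClosure ℚ)ˣ) :=
    Units.ext rfl
  have hin : Units.map (L.val : ↥L →* AlgebraicClosure ℚ) e₀ ∈ unitsS S := by
    rw [he₀]
    exact (Additive.toMul (e : Additive ↥(unitsS S)) : ↥(unitsS S)).2
  have hn : e₀ ∈ nUnits (sProd S) ↥L := (hU S L hL e₀).1 hin
  refine ⟨Additive.ofMul ⟨e₀, hn⟩, ?_⟩
  apply (hT S L hL hG).1
  rw [← he]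
  have h2 := thetaL_jlDiag_of_mem S L hL e₀ hin
  refine h2.trans ?_
  congr 1

/-- **KEY LEMMA**: `π(θ_L z) = 0 ↔ csOfJ z = 0`. -/
theorem piC_thetaL_eq_zero_iff (hT : StmtTens) (hU : StmtUnitsS) (S : Finset Nat.Primes)
    (hS : S.Nonempty) (L : QbarField) [NumberField L] (hL : L.IsUnramifiedOutside S)
    (hG : IsGalois ℚ L) (z : Additive (JL S ↥L)) :
    (piC S).hom (thetaL S L hL z) = 0 ↔ csOfJ S ↥L z = 0 := by
  rw [← LinearMap.mem_ker, cse_ker_csOfJ, piC_eq_zero_iff]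
  constructor
  · rintro ⟨e, he⟩
    exact cmp_exists_unit_of_thetaL_eq hT hU S hS L hL hG z e he
  · rintro ⟨u, rfl⟩
    have hin : Units.map (L.val : ↥L →* AlgebraicClosure ℚ)
        ((Additive.toMul u : ↥(nUnits (∏ q ∈ S, (q : ℕ)) ↥L)) : (↥L)ˣ) ∈ unitsS S :=
      (hU S L hL _).2 (Additive.toMul u).2
    exact ⟨Additive.ofMul ⟨_, hin⟩, (thetaL_jlDiag_of_mem S L hL _ hin).symm⟩

end Fermat.Agent.PT.B

end
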