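/-
PT-B, piece **compare**, part 2: `csMap` for tower fields `L ≤ L'` inside `ℚ̄`
(transitivity, injectivity, Galois descent), in instance-free form.
-/
import Fermat.Agent.PT.B.Compare1
import Fermat.Agent.PT.G.Descent
import Fermat.Agent.PT.G.MapInj
import Fermat.Agent.PT.G.DivInv
import Fermat.Agent.PT.G3.MapComp

set_option autoImplicit false
set_option linter.style.haveILetI false
set_option linter.unusedSectionVars false

noncomputable section

namespace Fermat.Agent.PT.B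

open Fermat.Agent.PT CategoryTheory groupCohomology ExtCitation
open Fermat.Agent.PT.G Fermat.Agent.PT.G1 Fermat.Agent.PT.G3
open scoped Pointwise TensorProduct

section

variable (S : Finset Nat.Primes) {L L' L'' : QbarField} [NumberField L] [NumberField L']
  [NumberField L'']

/-- `csMap` for `L ≤ L'`. -/
abbrev csMapLe (hle : L ≤ L') : CS S ↥L →ₗ[ℤ] CS S ↥L' :=
  @csMap S ↥L ↥L' _ _ _ _ (algebraOfLe hle)

/-- `jlMapLin` for `L ≤ L'`. -/
abbrev jlMapLe (hle : L ≤ L') : Additive (JL S ↥L) →ₗ[ℤ] Additive (JL S ↥L') :=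
  @jlMapLin S ↥L ↥L' _ _ _ _ (algebraOfLe hle)

theorem cmp_isScalarTower (h₁ : L ≤ L') (h₂ : L' ≤ L'') :
    @IsScalarTower ↥L ↥L' ↥L'' (algebraOfLe h₁).toSMul (algebraOfLe h₂).toSMul
      (algebraOfLe (h₁.trans h₂)).toSMul :=
  letI := algebraOfLe h₁
  letI := algebraOfLe h₂
  letI := algebraOfLe (h₁.trans h₂)
  IsScalarTower.of_algebraMap_eq (fun _ => rfl)

theorem csMapLe_comp (h₁ : L ≤ L') (h₂ : L' ≤ L'') (c : CS S ↥L) :
    csMapLe S h₂ (csMapLe S h₁ c) = csMapLe S (h₁.trans h₂) c := by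
  letI := algebraOfLe h₁
  letI := algebraOfLe h₂
  letI := algebraOfLe (h₁.trans h₂)
  haveI := cmp_isScalarTower h₁ h₂
  exact stmtCSMapComp S ↥L ↥L' ↥L'' c

theorem csMapLe_csOfJ (hle : L ≤ L') (z : Additive (JL S ↥L)) :
    csMapLe S hle (csOfJ S ↥L z) = csOfJ S ↥L' (jlMapLe S hle z) := by
  letI := algebraOfLe hle
  exact csMap_csOfJ S ↥L ↥L' z

theorem csMapLe_injective (hS : S.Nonempty) (hle : L ≤ L') :
    Function.Injective (csMapLe S hle) := by
  letI := algebraOfLe hle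
  exact stmtCSMapInj S ↥L ↥L' hS

theorem thetaL_jlMapLe (hL : L.IsUnramifiedOutside S) (hL' : L'.IsUnramifiedOutside S)
    (hle : L ≤ L') (z : Additive (JL S ↥L)) :
    thetaL S L' hL' (jlMapLe S hle z) = thetaL S L hL z :=
  thetaL_jlMapLin S hL hL' hle z

theorem csEnd_csMapLe (hle : L ≤ L') (σ' : ↥L' ≃ₐ[ℚ] ↥L') (σ : ↥L ≃ₐ[ℚ] ↥L)
    (h : ∀ x : ↥L, (σ' (IntermediateField.inclusion hle x) : AlgebraicClosure ℚ) = σ x)
    (c : CS S ↥L) :
    csEnd S σ' (csMapLe S hle c) = csMapLe S hle (csEnd S σ c) := by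
  letI := algebraOfLe hle
  refine csEnd_csMap S ?_ c
  intro x
  exact Subtype.ext (h x)

theorem csEnd_csMapLe_of_fixes (hle : L ≤ L') (σ' : ↥L' ≃ₐ[ℚ] ↥L')
    (h : ∀ x : ↥L, (σ' (IntermediateField.inclusion hle x) : AlgebraicClosure ℚ) = x)
    (c : CS S ↥L) :
    csEnd S σ' (csMapLe S hle c) = csMapLe S hle c := by
  letI := algebraOfLe hle
  refine csEnd_csMap_of_fixes S ?_ c
  intro x
  exact Subtype.ext (h x)

/-- Galois descent for `C_S(·)` along tower fields. -/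
theorem csMapLe_descent (hR : StmtRamRel) (hS : S.Nonempty) (hL' : L'.IsUnramifiedOutside S)
    (hG' : IsGalois ℚ L') (hle : L ≤ L') (c : CS S ↥L')
    (hc : ∀ σ' : ↥L' ≃ₐ[ℚ] ↥L',
      (∀ x : ↥L, (σ' (IntermediateField.inclusion hle x) : AlgebraicClosure ℚ) = x) →
        csEnd S σ' c = c) :
    ∃ c₀ : CS S ↥L, csMapLe S hle c₀ = c := by
  letI := algebraOfLe hle
  haveI : IsScalarTower ℚ ↥L ↥L' := IsScalarTower.of_algebraMap_eq (fun _ => rfl)
  haveI : IsGalois ↥L ↥L' := IsGalois.tower_top_of_isGalois ℚ ↥L ↥L'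
  have hun : UnramOffRel S ↥L ↥L' := (stmtUnramTower S ℚ ↥L ↥L' (hR S L' hL')).1
  refine stmtCSDescent_of stmtSemiInv stmtDivInv S ↥L ↥L' hS hun c ?_
  intro σ' hσ'
  exact hc σ' (fun x => congrArg Subtype.val (hσ' x))

end

end Fermat.Agent.PT.B

end
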