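/-
PT-B, piece **compare**, part 3: the comparison relation `CmpRel` between `C_S = J_S/E_S` and
`C_S(L)`, its existence and uniqueness, and the comparison family.
-/
import Fermat.Agent.PT.B.Compare2

set_option autoImplicit false
set_option linter.style.haveILetI false
set_option linter.unusedSectionVars false

noncomputable section

namespace Fermat.Agent.PT.B

open Fermat.Agent.PT CategoryTheory groupCohomology ExtCitation
open Fermat.Agent.PT.G Fermat.Agent.PT.G1 Fermat.Agent.PT.G3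
open scoped Pointwise TensorProduct

variable (S : Finset Nat.Primes)

/-- `c₀ ∈ C_S(L)` is a comparison value of `c ∈ C_S = J_S/E_S`: there are a tower field
`L' ≥ L` and `z ∈ J_{L'}` with `c = π(θ_{L'} z)` and `csMap_{L'/L} c₀ = csOfJ z`. -/
def CmpRel {L : QbarField} [NumberField L] (c : (CRep S).V) (c₀ : CS S ↥L) : Prop :=
  ∃ (L' : QbarField) (hL' : IsTowerField S L') (hle : L ≤ L'),
    ∃ z : Additive (@JL S ↥L' _ (numberField_of_isTowerField hL')),
      (piC S).hom (@thetaL S L' (numberField_of_isTowerField hL') hL'.1 z) = c ∧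
      @csMapLe S L L' _ (numberField_of_isTowerField hL') hle c₀ =
        @csOfJ S ↥L' _ (numberField_of_isTowerField hL') z

/-- the witness of `CmpRel` can be moved up -/
theorem CmpRel.up {L : QbarField} [NumberField L] {c : (CRep S).V} {c₀ : CS S ↥L}
    {L' L'' : QbarField} [NumberField L'] [NumberField L''] (hL' : L'.IsUnramifiedOutside S)
    (hL'' : L''.IsUnramifiedOutside S) (hle : L ≤ L') (hle' : L' ≤ L'')
    (z : Additive (JL S ↥L')) (h1 : (piC S).hom (thetaL S L' hL' z) = c)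
    (h2 : csMapLe S hle c₀ = csOfJ S ↥L' z) :
    (piC S).hom (thetaL S L'' hL'' (jlMapLe S hle' z)) = c ∧
      csMapLe S (hle.trans hle') c₀ = csOfJ S ↥L'' (jlMapLe S hle' z) := by
  refine ⟨?_, ?_⟩
  · rw [thetaL_jlMapLe S hL' hL'' hle' z, h1]
  · rw [← csMapLe_comp S hle hle', h2, csMapLe_csOfJ]

/-- the witness of `CmpRel` can be chosen above any given tower field -/
theorem CmpRel.exists_ge {L : QbarField} [NumberField L] {c : (CRep S).V} {c₀ : CS S ↥L}
    (h : CmpRel S c c₀) (L₁ : QbarField) (hL₁ : L₁.IsUnramifiedOutside S) :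
    ∃ (L' : QbarField) (hL' : IsTowerField S L') (hle : L ≤ L') (_ : L₁ ≤ L'),
      ∃ z : Additive (@JL S ↥L' _ (numberField_of_isTowerField hL')),
        (piC S).hom (@thetaL S L' (numberField_of_isTowerField hL') hL'.1 z) = c ∧
        @csMapLe S L L' _ (numberField_of_isTowerField hL') hle c₀ =
          @csOfJ S ↥L' _ (numberField_of_isTowerField hL') z := by
  obtain ⟨L', hL', hle, z, h1, h2⟩ := h
  haveI := numberField_of_isTowerField hL'
  obtain ⟨L'', hle', hle₁, hL''⟩ := exists_isTowerField_ge hL'.1 hL₁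
  haveI := numberField_of_isTowerField hL''
  obtain ⟨h3, h4⟩ := CmpRel.up S hL'.1 hL''.1 hle hle' z h1 h2
  exact ⟨L'', hL'', hle.trans hle', hle₁, jlMapLe S hle' z, h3, h4⟩

/-- **Uniqueness** of the comparison value. -/
theorem CmpRel.unique (hT : StmtTens) (hU : StmtUnitsS) (hS : S.Nonempty) {L : QbarField}
    [NumberField L] {c : (CRep S).V} {c₀ c₀' : CS S ↥L} (h : CmpRel S c c₀)
    (h' : CmpRel S c c₀') : c₀ = c₀' := by
  obtain ⟨L', hL', hle, z, h1, h2⟩ := h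
  haveI := numberField_of_isTowerField hL'
  obtain ⟨L'', hL'', hle'', hle', z', h1', h2'⟩ := h'.exists_ge S L' hL'.1
  haveI := numberField_of_isTowerField hL''
  obtain ⟨h3, h4⟩ := CmpRel.up S hL'.1 hL''.1 hle hle' z h1 h2
  apply csMapLe_injective S hS hle''
  rw [h4, h2']
  have h5 : (piC S).hom (thetaL S L'' hL''.1 (jlMapLe S hle' z - z')) = 0 := by
    rw [map_sub, map_sub, h3, h1', sub_self]
  have h6 := (piC_thetaL_eq_zero_iff hT hU S hS L'' hL''.1 hL''.2 _).1 h5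
  rw [map_sub, sub_eq_zero] at h6
  exact h6

/-- the class of `θ_{L'} z` is `G_L`-invariant iff `csOfJ z` is `Gal(L'/L)`-invariant
(direction used for the existence of the comparison value) -/
theorem cmp_csEnd_csOfJ_of_invariant (hT : StmtTens) (hU : StmtUnitsS) (hS : S.Nonempty)
    {L L' : QbarField} [NumberField L'] (hL' : IsTowerField S L') (hle : L ≤ L')
    (z : Additive (JL S ↥L')) (hc : (piC S).hom (thetaL S L' hL'.1 z) ∈ CInv S L)
    (σ' : ↥L' ≃ₐ[ℚ] ↥L')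
    (hσ' : ∀ x : ↥L, (σ' (IntermediateField.inclusion hle x) : AlgebraicClosure ℚ) = x) :
    csEnd S σ' (csOfJ S ↥L' z) = csOfJ S ↥L' z := by
  obtain ⟨g, hg⟩ := cmp_exists_lift L' hL'.2 σ'
  have hgL : g ∈ L.fixingSubgroup := by
    rw [IntermediateField.mem_fixingSubgroup_iff]
    intro y hy
    have h1 := hg (IntermediateField.inclusion hle ⟨y, hy⟩)
    have h2 := hσ' ⟨y, hy⟩
    exact h1.trans h2
  have h1 : csEnd S σ' (csOfJ S ↥L' z) = csOfJ S ↥L' (jlEnd S σ' z) :=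
    (LinearMap.congr_fun (csOfJ_equivariant S σ') z).symm
  rw [h1, ← sub_eq_zero, ← map_sub]
  apply (piC_thetaL_eq_zero_iff hT hU S hS L' hL'.1 hL'.2 _).1
  rw [map_sub, map_sub, thetaL_jlEnd S L' hL'.1 g σ' hg z,
    Rep.hom_comm_apply (piC S) g, hc g hgL, sub_self]

/-- **Existence** of the comparison value on `C_S^{G_L}`. -/
theorem CmpRel.exists_of_mem (hT : StmtTens) (hU : StmtUnitsS) (hR : StmtRamRel)
    (hS : S.Nonempty) {L : QbarField} [NumberField L] (hL : L.IsUnramifiedOutside S)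
    (c : (CRep S).V) (hc : c ∈ CInv S L) : ∃ c₀ : CS S ↥L, CmpRel S c c₀ := by
  obtain ⟨x, rfl⟩ := piC_surjective S c
  obtain ⟨L₀, hL₀, z₀, hz₀⟩ := exists_thetaL_eq hT S x
  haveI := numberField_of_isTowerField hL₀
  obtain ⟨L', hle₀, hle, hL'⟩ := exists_isTowerField_ge hL₀.1 hL
  haveI := numberField_of_isTowerField hL'
  have hz : thetaL S L' hL'.1 (jlMapLe S hle₀ z₀) = x := by
    rw [thetaL_jlMapLe S hL₀.1 hL'.1 hle₀ z₀, hz₀]
  have hc' : (piC S).hom (thetaL S L' hL'.1 (jlMapLe S hle₀ z₀)) ∈ CInv S L := by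
    rw [hz]; exact hc
  obtain ⟨c₀, hc₀⟩ := csMapLe_descent S hR hS hL'.1 hL'.2 hle (csOfJ S ↥L' (jlMapLe S hle₀ z₀))
    (fun σ' hσ' => cmp_csEnd_csOfJ_of_invariant S hT hU hS hL' hle _ hc' σ' hσ')
  exact ⟨c₀, L', hL', hle, jlMapLe S hle₀ z₀, by rw [hz], hc₀⟩

/-! ### Properties of the relation -/

theorem CmpRel.add {L : QbarField} [NumberField L] {c c' : (CRep S).V} {c₀ c₀' : CS S ↥L}
    (h : CmpRel S c c₀) (h' : CmpRel S c' c₀') : CmpRel S (c + c') (c₀ + c₀') := by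
  obtain ⟨L', hL', hle, z, h1, h2⟩ := h
  haveI := numberField_of_isTowerField hL'
  obtain ⟨L'', hL'', hle'', hle', z', h1', h2'⟩ := h'.exists_ge S L' hL'.1
  haveI := numberField_of_isTowerField hL''
  obtain ⟨h3, h4⟩ := CmpRel.up S hL'.1 hL''.1 hle hle' z h1 h2
  refine ⟨L'', hL'', hle'', jlMapLe S hle' z + z', ?_, ?_⟩
  · rw [map_add, map_add, h3, h1']
  · rw [map_add, map_add, h4, h2']

theorem CmpRel.eq_zero (hT : StmtTens) (hU : StmtUnitsS) (hS : S.Nonempty) {L : QbarField}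
    [NumberField L] {c : (CRep S).V} (h : CmpRel S c (0 : CS S ↥L)) : c = 0 := by
  obtain ⟨L', hL', hle, z, h1, h2⟩ := h
  haveI := numberField_of_isTowerField hL'
  rw [map_zero] at h2
  rw [← h1]
  exact (piC_thetaL_eq_zero_iff hT hU S hS L' hL'.1 hL'.2 z).2 h2.symm

theorem CmpRel.smul {L : QbarField} [NumberField L] (hG : IsGalois ℚ L) {c : (CRep S).V}
    {c₀ : CS S ↥L} (h : CmpRel S c c₀) (g : GQ) (σ : ↥L ≃ₐ[ℚ] ↥L)
    (hσ : ∀ x : ↥L, g (x : AlgebraicClosure ℚ) = σ x) :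
    CmpRel S ((CRep S).ρ g c) (csEnd S σ c₀) := by
  obtain ⟨L', hL', hle, z, h1, h2⟩ := h
  haveI := numberField_of_isTowerField hL'
  refine ⟨L', hL', hle, jlEnd S (cmpRestrict L' hL'.2 g) z, ?_, ?_⟩
  · rw [thetaL_jlEnd S L' hL'.1 g (cmpRestrict L' hL'.2 g) (cmpRestrict_apply L' hL'.2 g) z,
      Rep.hom_comm_apply (piC S) g, h1]
  · have h3 : csEnd S (cmpRestrict L' hL'.2 g) (csMapLe S hle c₀) =
        csMapLe S hle (csEnd S σ c₀) := by
      refine csEnd_csMapLe S hle _ σ (fun x => ?_) c₀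
      rw [← cmpRestrict_apply L' hL'.2 g, ← hσ x]
      rfl
    rw [← h3, h2]
    exact (LinearMap.congr_fun (csOfJ_equivariant S (cmpRestrict L' hL'.2 g)) z).symm

theorem CmpRel.idelic (hT : StmtTens) {L : QbarField} [NumberField L] (hL : IsTowerField S L)
    (z : Additive (JL S ↥L)) :
    CmpRel S ((piC S).hom (thetaL S L hL.1 z)) (csOfJ S ↥L z) := by
  refine ⟨L, hL, le_refl L, z, rfl, ?_⟩
  rw [csMapLe_csOfJ]
  congr 1
  apply (hT S L hL.1 hL.2).1
  exact thetaL_jlMapLe S hL.1 hL.1 (le_refl L) z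

theorem CmpRel.natural {L L₁ : QbarField} [NumberField L] [NumberField L₁]
    (hL₁ : L₁.IsUnramifiedOutside S) (hle : L ≤ L₁) {c : (CRep S).V} {c₀ : CS S ↥L}
    (h : CmpRel S c c₀) : CmpRel S c (csMapLe S hle c₀) := by
  obtain ⟨L', hL', hle', hle₁, z, h1, h2⟩ := h.exists_ge S L₁ hL₁
  haveI := numberField_of_isTowerField hL'
  refine ⟨L', hL', hle₁, z, h1, ?_⟩
  rw [csMapLe_comp S hle hle₁]
  exact h2

/-- the cokernel is killed by an integer prime to `p` -/
theorem CmpRel.pcoker (p : ℕ) [Fact p.Prime] (hT : StmtTens) (hU : StmtUnitsS)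
    (hC : StmtCapCS) (hpS : pPrime p ∈ S) {L : QbarField} [NumberField L]
    (hL : IsTowerField S L) :
    ∃ m : ℕ, ¬ p ∣ m ∧ ∀ c' : CS S ↥L, ∃ c ∈ CInv S L, CmpRel S c (m • c') := by
  have hS : S.Nonempty := ⟨_, hpS⟩
  haveI : Finite (CS S ↥L ⧸ LinearMap.range (csOfJ S ↥L)) := (stmtCSExact S ↥L).2
  have hn0 : Nat.card (CS S ↥L ⧸ LinearMap.range (csOfJ S ↥L)) ≠ 0 := Nat.card_pos.ne'
  obtain ⟨a, m, hm, hnm⟩ := Nat.exists_eq_pow_mul_and_not_dvd hn0 p
    (Fact.out : p.Prime).ne_one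
  refine ⟨m, hm, fun c' => ?_⟩
  -- `p ^ a • (m • c')` is idelic
  have h1 : (p ^ a) • (m • c') ∈ LinearMap.range (csOfJ S ↥L) := by
    rw [← mul_smul, ← hnm, ← Submodule.Quotient.mk_eq_zero, Submodule.Quotient.mk_smul]
    exact card_nsmul_eq_zero'
  obtain ⟨L', hL', hle, z, hz⟩ := hC p S hpS L hL (m • c') ⟨a, h1⟩
  haveI := numberField_of_isTowerField hL'
  have hz' : csOfJ S ↥L' z = csMapLe S hle (m • c') := hz
  refine ⟨(piC S).hom (thetaL S L' hL'.1 z), ?_, L', hL', hle, z, rfl, hz'.symm⟩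
  -- invariance
  intro s hs
  rw [IntermediateField.mem_fixingSubgroup_iff] at hs
  rw [← Rep.hom_comm_apply (piC S) s,
    ← thetaL_jlEnd S L' hL'.1 s (cmpRestrict L' hL'.2 s) (cmpRestrict_apply L' hL'.2 s) z,
    ← sub_eq_zero, ← map_sub, ← map_sub]
  apply (piC_thetaL_eq_zero_iff hT hU S hS L' hL'.1 hL'.2 _).2
  rw [map_sub, sub_eq_zero]
  have h5 : csOfJ S ↥L' (jlEnd S (cmpRestrict L' hL'.2 s) z) =
      csEnd S (cmpRestrict L' hL'.2 s) (csOfJ S ↥L' z) :=
    LinearMap.congr_fun (csOfJ_equivariant S (cmpRestrict L' hL'.2 s)) z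
  rw [h5, hz']
  refine csEnd_csMapLe_of_fixes S hle _ (fun x => ?_) _
  rw [← cmpRestrict_apply L' hL'.2 s]
  exact hs x x.2

end Fermat.Agent.PT.B

end
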