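/-
PT-B, piece **compare** (I5/I6): the comparison family
`f_L : (J_S/E_S)^{G_L} → C_S(L)` exists (`StmtCompare`, PT/B/Plan4.lean), given the tensor model
(`StmtTens`), the dictionary of units (`StmtUnitsS`), ramification (`StmtRamRel`) and
`p`-capitulation (`StmtCapCS`).
-/
import Fermat.Agent.PT.B.Compare3

set_option autoImplicit false
set_option linter.style.haveILetI false
set_option linter.unusedSectionVars false

noncomputable section

namespace Fermat.Agent.PT.B

open Fermat.Agent.PT CategoryTheory groupCohomology ExtCitation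
open Fermat.Agent.PT.G Fermat.Agent.PT.G1 Fermat.Agent.PT.G3
open scoped Pointwise TensorProduct

variable (S : Finset Nat.Primes)

/-- the comparison value of `c ∈ C_S^{G_L}` -/
def cmpFun (hT : StmtTens) (hU : StmtUnitsS) (hR : StmtRamRel) (hS : S.Nonempty)
    (L : QbarField) (hL : IsTowerField S L) (c : ↥(CInv S L)) :
    @CS S ↥L _ (numberField_of_isTowerField hL) :=
  Classical.choose (@CmpRel.exists_of_mem S hT hU hR hS L (numberField_of_isTowerField hL)
    hL.1 c.1 c.2)

theorem cmpFun_spec (hT : StmtTens) (hU : StmtUnitsS) (hR : StmtRamRel) (hS : S.Nonempty)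
    (L : QbarField) (hL : IsTowerField S L) (c : ↥(CInv S L)) :
    @CmpRel S L (numberField_of_isTowerField hL) c.1 (cmpFun S hT hU hR hS L hL c) :=
  Classical.choose_spec (@CmpRel.exists_of_mem S hT hU hR hS L (numberField_of_isTowerField hL)
    hL.1 c.1 c.2)

/-- `cmpFun` is characterised by `CmpRel`. -/
theorem cmpFun_eq (hT : StmtTens) (hU : StmtUnitsS) (hR : StmtRamRel) (hS : S.Nonempty)
    (L : QbarField) (hL : IsTowerField S L) (c : ↥(CInv S L))
    (c₀ : @CS S ↥L _ (numberField_of_isTowerField hL))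
    (h : @CmpRel S L (numberField_of_isTowerField hL) c.1 c₀) :
    cmpFun S hT hU hR hS L hL c = c₀ :=
  @CmpRel.unique S hT hU hS L (numberField_of_isTowerField hL) _ _ _
    (cmpFun_spec S hT hU hR hS L hL c) h

/-- **The comparison family.** -/
def cmpFamily (hT : StmtTens) (hU : StmtUnitsS) (hR : StmtRamRel) (hS : S.Nonempty) :
    CompareFamily S := fun L hL =>
  AddMonoidHom.mk' (cmpFun S hT hU hR hS L hL) (fun c c' =>
    cmpFun_eq S hT hU hR hS L hL (c + c') _
      (@CmpRel.add S L (numberField_of_isTowerField hL) _ _ _ _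
        (cmpFun_spec S hT hU hR hS L hL c) (cmpFun_spec S hT hU hR hS L hL c')))

theorem cmpFamily_apply (hT : StmtTens) (hU : StmtUnitsS) (hR : StmtRamRel) (hS : S.Nonempty)
    (L : QbarField) (hL : IsTowerField S L) (c : ↥(CInv S L)) :
    cmpFamily S hT hU hR hS L hL c = cmpFun S hT hU hR hS L hL c := rfl

/-- **I5/I6**: the comparison maps exist. -/
theorem stmtCompare_of (hT : StmtTens) (hU : StmtUnitsS) (hR : StmtRamRel) (hC : StmtCapCS) :
    StmtCompare := by
  intro p _ S hpS
  have hS : S.Nonempty := ⟨_, hpS⟩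
  refine ⟨cmpFamily S hT hU hR hS, ?_, ?_, ?_, ?_, ?_⟩
  · -- injective
    intro L hL
    haveI := numberField_of_isTowerField hL
    rw [injective_iff_map_eq_zero]
    intro c hc
    have h := cmpFun_spec S hT hU hR hS L hL c
    rw [cmpFamily_apply] at hc
    rw [hc] at h
    exact Subtype.ext (CmpRel.eq_zero S hT hU hS h)
  · -- cokernel
    intro L hL
    haveI := numberField_of_isTowerField hL
    obtain ⟨m, hm, h⟩ := CmpRel.pcoker S p hT hU hC hpS hL
    refine ⟨m, hm, fun c' => ?_⟩
    obtain ⟨c, hc, hrel⟩ := h c'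
    exact ⟨⟨c, hc⟩, cmpFun_eq S hT hU hR hS L hL ⟨c, hc⟩ _ hrel⟩
  · -- equivariant
    intro L hL g σ hσ c
    haveI := numberField_of_isTowerField hL
    exact cmpFun_eq S hT hU hR hS L hL _ _
      (CmpRel.smul S hL.2 (cmpFun_spec S hT hU hR hS L hL c) g σ hσ)
  · -- idelic
    intro L hL z
    haveI := numberField_of_isTowerField hL
    exact cmpFun_eq S hT hU hR hS L hL _ _ (CmpRel.idelic S hT hL z)
  · -- natural
    intro L L' hL hL' hle c
    haveI := numberField_of_isTowerField hL
    haveI := numberField_of_isTowerField hL'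
    exact (cmpFun_eq S hT hU hR hS L' hL' _ _
      (CmpRel.natural S hL'.1 hle (cmpFun_spec S hT hU hR hS L hL c))).symm

end Fermat.Agent.PT.B

end
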