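/-
PT-B, piece I1' (helper11): a field unramified outside `S` in the prelude's sense (inertia
groups of valuation subrings of `ℚ̄`) is unramified outside `S` in the ideal-theoretic sense
of PT/G/Plan2.lean.  `stmtRamRel : StmtRamRel`.

Proof: `L` lies in a tower field `N` (`stmtNormalClosure`); in `N` all inertia groups at primes
off `S` are trivial (`stmtRam`), so `e(𝔓 | q) = |I_𝔓| = 1` (`uo_card_inertia`); then descend
along `ℚ ⊆ L ⊆ N` (`stmtUnramTower`).
-/
import Fermat.Agent.PT.B.Plan4
import Fermat.Agent.PT.B.Ram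
import Fermat.Agent.PT.B.NormalClosure
import Fermat.Agent.PT.G.UnramOff
import Fermat.Agent.PT.G3.MapComp

set_option autoImplicit false
set_option linter.style.haveILetI false

noncomputable section

namespace Fermat.Agent.PT.B

open NumberField IsDedekindDomain Fermat.Agent.PT.G Fermat.Agent.PT.G1

/-- A tower field is unramified outside `S` over `ℚ` in the ideal-theoretic sense. -/
theorem ramRel_of_isTowerField (S : Finset Nat.Primes) (N : QbarField) (hN : IsTowerField S N) :
    haveI := numberField_of_isTowerField hN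
    UnramOffRel S ℚ ↥N := by
  haveI := numberField_of_isTowerField hN
  haveI : IsGalois ℚ ↥N := hN.2
  intro P
  rw [← uo_card_inertia (K := ℚ) P.1]
  rw [Nat.card_eq_one_iff_unique]
  refine ⟨⟨fun a b => ?_⟩, ⟨1⟩⟩
  have key : ∀ σ : ↥(P.1.asIdeal.inertia (↥N ≃ₐ[ℚ] ↥N)), σ = 1 := by
    intro σ
    by_contra hσ
    have hσ1 : (σ : ↥N ≃ₐ[ℚ] ↥N) ≠ 1 := fun h => hσ (Subtype.ext h)
    obtain ⟨x, hx⟩ := stmtRam S N hN (σ : ↥N ≃ₐ[ℚ] ↥N) hσ1 P
    exact hx (σ.2 x)
  rw [key a, key b]

/-- **I1'** (RAM-rel). -/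
theorem stmtRamRel : StmtRamRel := by
  intro S L hL
  obtain ⟨N, hle, hN⟩ := stmtNormalClosure S L hL
  haveI := numberField_of_isUnramifiedOutside hL
  haveI := numberField_of_isTowerField hN
  letI := algebraOfLe hle
  haveI : IsScalarTower ℚ ↥L ↥N := IsScalarTower.of_algebraMap_eq fun x => by
    apply Subtype.ext
    rfl
  exact (Fermat.Agent.PT.G3.stmtUnramTower S ℚ ↥L ↥N (ramRel_of_isTowerField S N hN)).2

end Fermat.Agent.PT.B

end
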