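/-
PT-B, piece B-surv, abstract part (helper9): transport of the `surv` statement along a quotient
`φ : G ↠ Γ` (kernel `N`), an equivariant isomorphism `θ : X̄ ≅ X^N` and an equivariant additive
map `f : C^N → C̄` with `f ∘ π ∘ θ = π̄`.

`survAbs`: if `surv` holds for `(Γ, X̄, C̄)` (hypothesis `hGB`), then every 2-cocycle `y` of `G`
in `X` which is defined at level `N`, is `p`-primary up to level-`N` coboundaries and dies in
`C` (at level `N`) is the coboundary of a right-`N`-invariant 1-cochain.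
-/
import Mathlib

set_option autoImplicit false

namespace Fermat.Agent.PT.B

open CategoryTheory groupCohomology

attribute [local instance 1100] Rep.hV2

theorem survAbs {G Γ : Type} [Group G] [Group Γ] (φ : G →* Γ) (hφ : Function.Surjective φ)
    (X C : Rep.{0} ℤ G) (Xb Cb : Rep.{0} ℤ Γ) (π : X ⟶ C) (πb : Xb ⟶ Cb)
    (θ : Xb.V →+ X.V) (f : C.V → Cb.V)
    (hθinj : Function.Injective θ)
    (hθeq : ∀ g z, θ (Xb.ρ (φ g) z) = X.ρ g (θ z))
    (hθsurj : ∀ x : X.V, (∀ s ∈ φ.ker, X.ρ s x = x) → ∃ z, θ z = x)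
    (hfadd : ∀ c c' : C.V, (∀ s ∈ φ.ker, C.ρ s c = c) → (∀ s ∈ φ.ker, C.ρ s c' = c') →
      f (c + c') = f c + f c')
    (hfeq : ∀ (g : G) (c : C.V), (∀ s ∈ φ.ker, C.ρ s c = c) → f (C.ρ g c) = Cb.ρ (φ g) (f c))
    (hfπ : ∀ z : Xb.V, f (π.hom (θ z)) = πb.hom z)
    (p : ℕ) (Q : Xb.V → Prop)
    (hGB : ∀ yb : Γ × Γ → Xb.V, yb ∈ cocycles₂ Xb → (∀ gg, Q (yb gg)) →
      (∃ (k : ℕ) (t : Γ → Xb.V), (d₁₂ Xb).hom t = (p ^ k) • yb) →
      (∃ t : Γ → Cb.V, (d₁₂ Cb).hom t = fun gg => πb.hom (yb gg)) →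
      ∃ t : Γ → Xb.V, (d₁₂ Xb).hom t = yb)
    (y : G × G → X.V) (hy : y ∈ cocycles₂ X)
    (hyN : ∀ g g' s s', s ∈ φ.ker → s' ∈ φ.ker → y (g * s, g' * s') = y (g, g'))
    (hyinv : ∀ gg, ∀ s ∈ φ.ker, X.ρ s (y gg) = y gg)
    (hyQ : ∀ gg z, θ z = y gg → Q z)
    (ht : ∃ (k : ℕ) (t : G → X.V), (∀ g s, s ∈ φ.ker → t (g * s) = t g) ∧
      (∀ g, ∀ s ∈ φ.ker, X.ρ s (t g) = t g) ∧ (d₁₂ X).hom t = (p ^ k) • y)
    (ht' : ∃ t' : G → C.V, (∀ g s, s ∈ φ.ker → t' (g * s) = t' g) ∧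
      (∀ g, ∀ s ∈ φ.ker, C.ρ s (t' g) = t' g) ∧ (d₁₂ C).hom t' = fun gg => π.hom (y gg)) :
    ∃ s : G → X.V, (∀ g s', s' ∈ φ.ker → s (g * s') = s g) ∧ (d₁₂ X).hom s = y := by
  classical
  obtain ⟨k, t, htN, htinv, hdt⟩ := ht
  obtain ⟨t', ht'N, ht'inv, hdt'⟩ := ht'
  -- a set-theoretic section of `φ`
  obtain ⟨σ, hσ⟩ : ∃ σ : Γ → G, ∀ γ, φ (σ γ) = γ :=
    ⟨fun γ => (hφ γ).choose, fun γ => (hφ γ).choose_spec⟩
  have hσ' : ∀ g : G, ∃ s ∈ φ.ker, σ (φ g) = g * s := by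
    intro g
    refine ⟨g⁻¹ * σ (φ g), ?_, by group⟩
    rw [MonoidHom.mem_ker, map_mul, map_inv, hσ, inv_mul_cancel]
  -- normality: `g • x` is `N`-invariant if `x` is
  have hinvC : ∀ (g : G) (c : C.V), (∀ s ∈ φ.ker, C.ρ s c = c) →
      ∀ s ∈ φ.ker, C.ρ s (C.ρ g c) = C.ρ g c := by
    intro g c hc s hs
    have h1 : g⁻¹ * s * g ∈ φ.ker := by
      have := (inferInstance : φ.ker.Normal).conj_mem s hs g⁻¹
      simpa using this
    have h2 := hc _ h1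
    have h3 : C.ρ s (C.ρ g c) = C.ρ g (C.ρ (g⁻¹ * s * g) c) := by
      rw [← Module.End.mul_apply, ← Module.End.mul_apply, ← map_mul, ← map_mul]
      congr 2
      group
    rw [h3, h2]
  -- `f` on invariants
  have hf0 : f 0 = 0 := by
    have := hfadd 0 0 (fun s _ => map_zero _) (fun s _ => map_zero _)
    rw [add_zero] at this
    exact left_eq_add.mp this
  have hfneg : ∀ c : C.V, (∀ s ∈ φ.ker, C.ρ s c = c) → f (-c) = -f c := by
    intro c hc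
    have := hfadd c (-c) hc (fun s hs => by rw [map_neg, hc s hs])
    rw [add_neg_cancel, hf0] at this
    exact (neg_eq_of_add_eq_zero_right this.symm).symm
  have hfd : ∀ a b c : C.V, (∀ s ∈ φ.ker, C.ρ s a = a) → (∀ s ∈ φ.ker, C.ρ s b = b) →
      (∀ s ∈ φ.ker, C.ρ s c = c) → f (a - b + c) = f a - f b + f c := by
    intro a b c ha hb hc
    have hab : ∀ s ∈ φ.ker, C.ρ s (a - b) = a - b := fun s hs => by
      rw [map_sub, ha s hs, hb s hs]
    have hnb : ∀ s ∈ φ.ker, C.ρ s (-b) = -b := fun s hs => by rw [map_neg, hb s hs]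
    rw [hfadd _ _ hab hc, sub_eq_add_neg, hfadd _ _ ha hnb, hfneg b hb, ← sub_eq_add_neg]
  -- the descended cochains
  have hyb : ∀ γ γ' : Γ, ∃ z, θ z = y (σ γ, σ γ') := fun γ γ' => hθsurj _ (hyinv _)
  choose yb hyb using hyb
  have hyb' : ∀ g g' : G, θ (yb (φ g) (φ g')) = y (g, g') := by
    intro g g'
    obtain ⟨s, hs, h1⟩ := hσ' g
    obtain ⟨s', hs', h2⟩ := hσ' g'
    rw [hyb, h1, h2, hyN g g' s s' hs hs']
  have htb : ∀ γ : Γ, ∃ z, θ z = t (σ γ) := fun γ => hθsurj _ (htinv _)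
  choose tb htb using htb
  have htb' : ∀ g : G, θ (tb (φ g)) = t g := by
    intro g
    obtain ⟨s, hs, h1⟩ := hσ' g
    rw [htb, h1, htN g s hs]
  have ht'σ : ∀ g : G, t' (σ (φ g)) = t' g := by
    intro g
    obtain ⟨s, hs, h1⟩ := hσ' g
    rw [h1, ht'N g s hs]
  -- apply the finite-level statement
  obtain ⟨sb, hsb⟩ := hGB (fun gg => yb gg.1 gg.2)
    (by
      rw [mem_cocycles₂_iff]
      intro a b c
      obtain ⟨g, rfl⟩ := hφ a
      obtain ⟨g', rfl⟩ := hφ b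
      obtain ⟨g'', rfl⟩ := hφ c
      apply hθinj
      have h := (mem_cocycles₂_iff y).1 hy g g' g''
      simp only [map_add, ← map_mul, hyb', hθeq]
      exact h)
    (fun gg => by
      obtain ⟨a, b⟩ := gg
      obtain ⟨g, rfl⟩ := hφ a
      obtain ⟨g', rfl⟩ := hφ b
      exact hyQ (g, g') _ (hyb' g g'))
    ⟨k, tb, by
      funext gg
      obtain ⟨a, b⟩ := gg
      obtain ⟨g, rfl⟩ := hφ a
      obtain ⟨g', rfl⟩ := hφ b
      apply hθinj
      have h := congrFun hdt (g, g')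
      rw [d₁₂_hom_apply] at h
      rw [d₁₂_hom_apply]
      simp only [map_add, map_sub, ← map_mul, htb', hθeq, Pi.smul_apply, map_nsmul, hyb']
      exact h⟩
    ⟨fun γ => f (t' (σ γ)), by
      funext gg
      obtain ⟨a, b⟩ := gg
      obtain ⟨g, rfl⟩ := hφ a
      obtain ⟨g', rfl⟩ := hφ b
      have h := congrFun hdt' (g, g')
      rw [d₁₂_hom_apply] at h
      rw [d₁₂_hom_apply]
      simp only [← map_mul, ht'σ]
      rw [← hfeq g _ (ht'inv g'), ← hfd _ _ _ (hinvC g _ (ht'inv g')) (ht'inv _) (ht'inv _), h,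
        ← hyb' g g', hfπ]⟩
  refine ⟨fun g => θ (sb (φ g)), fun g s' hs' => ?_, ?_⟩
  · show θ (sb (φ (g * s'))) = θ (sb (φ g))
    rw [map_mul, (MonoidHom.mem_ker).1 hs', mul_one]
  · funext gg
    obtain ⟨g, g'⟩ := gg
    have h := congrFun hsb (φ g, φ g')
    rw [d₁₂_hom_apply] at h
    rw [d₁₂_hom_apply, ← hyb' g g']
    show X.ρ g (θ (sb (φ g'))) - θ (sb (φ (g * g'))) + θ (sb (φ g)) = θ (yb (φ g) (φ g'))
    rw [← hθeq, map_mul, ← map_sub, ← map_add, h]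

end Fermat.Agent.PT.B
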