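/-
PT-B, piece **B-surv** (helper9): the datum axiom `surv` for the concrete datum.
`stmtSurvC_of : StmtGB → StmtTens → StmtRamRel → StmtCompare → StmtSurvC`.

Proof: pick a tower field `L` such that `y`, `t`, `t'` are defined at level `G_L`; transport to
`Gal(L/ℚ)` by `θ_L⁻¹` and `f_L` (abstract part: `survAbs`, PT/B/SurvAbs.lean); (GB) gives
`y = d s` with `s` right-`G_L`-invariant; then `τ(d) := (s (r d)).1 v 1`.
-/
import Fermat.Agent.PT.B.Plan4
import Fermat.Agent.PT.B.Theta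
import Fermat.Agent.PT.B.SurvAbs
import Fermat.Agent.PT.F.Level

set_option autoImplicit false
set_option linter.style.haveILetI false

noncomputable section

namespace Fermat.Agent.PT.B

open Fermat.Agent.PT CategoryTheory groupCohomology ExtCitation
open Fermat.Agent.PT.G Fermat.Agent.PT.G1 Fermat.Agent.PT.F
open scoped Pointwise TensorProduct

attribute [local instance 1100] Rep.hV2

namespace Surv

/-- `θ_L z` vanishes at `q'` only if `z q' = 1` (from the injectivity of `θ_L`). -/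
theorem thetaL_component (S : Finset Nat.Primes) (L : QbarField) [NumberField L]
    (hL : L.IsUnramifiedOutside S) (hinj : Function.Injective (thetaL S L hL))
    (z : Additive (JL S ↥L)) (q' : ↥S) (h : ∀ g : GQ, (thetaL S L hL z).1 q' g = 0) :
    (Additive.toMul z : JL S ↥L) q' = 1 := by
  classical
  have h1 : thetaL S L hL (Additive.ofMul (Function.update (Additive.toMul z) q' 1)) =
      thetaL S L hL z := by
    apply Subtype.ext
    funext v g
    by_cases hv : v = q'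
    · subst hv
      rw [h g, thetaL_apply]
      simp only [toMul_ofMul, Function.update_self, map_one]
      rfl
    · rw [thetaL_apply, thetaL_apply]
      simp only [toMul_ofMul, Function.update_of_ne hv]
  have h2 := hinj h1
  have h3 := congrFun (congrArg Additive.toMul h2) q'
  simp only [toMul_ofMul, Function.update_self] at h3
  exact h3.symm

end Surv

open Surv

theorem stmtSurvC_of (hGB : StmtGB) (hT : StmtTens) (hRR : StmtRamRel) (hCmp : StmtCompare) :
    StmtSurvC := by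
  intro p _ hp2 S hpS v y hy hyl hsupp ht ht'
  classical
  haveI : IsAlgClosure ℚ (AlgebraicClosure ℚ) :=
    ⟨inferInstance, AlgebraicClosure.isAlgebraic ℚ⟩
  haveI : Normal ℚ (AlgebraicClosure ℚ) := IsAlgClosure.normal ℚ (AlgebraicClosure ℚ)
  obtain ⟨k, t, htl, hdt⟩ := ht
  obtain ⟨t', ht'l, hdt'⟩ := ht'
  obtain ⟨fam, hfam⟩ := hCmp p S hpS
  -- a common level
  obtain ⟨U₁, hU₁, hy1⟩ := exists_desc₂ (𝒯 := towerS S) (X := JS S) (JS_discrete S) hyl
  obtain ⟨U₂, hU₂, ht1⟩ := exists_desc₁ (𝒯 := towerS S) (X := JS S) (JS_discrete S) htl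
  obtain ⟨U₃, hU₃, ht'1⟩ := exists_desc₁ (𝒯 := towerS S) (X := CRep S) (CRep_discrete S) ht'l
  obtain ⟨L, hL, hLU⟩ := exists_isTowerField_fixingSubgroup_le S (U₁ ⊓ U₂ ⊓ U₃)
    ((towerS S).inf_mem _ _ ((towerS S).inf_mem _ _ hU₁ hU₂) hU₃)
  have hL1 : L.fixingSubgroup ≤ U₁ := fun s hs => (hLU hs).1.1
  have hL2 : L.fixingSubgroup ≤ U₂ := fun s hs => (hLU hs).1.2
  have hL3 : L.fixingSubgroup ≤ U₃ := fun s hs => (hLU hs).2
  haveI hNF : NumberField ↥L := numberField_of_isTowerField hL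
  haveI hGal : IsGalois ℚ ↥L := hL.2
  haveI hNor : Normal ℚ ↥L := IsGalois.to_normal
  obtain ⟨hθinj, hθsurj⟩ := hT S L hL.1 hL.2
  -- the restriction homomorphism
  obtain ⟨φ, hφdef⟩ : ∃ φ : GQ →* (↥L ≃ₐ[ℚ] ↥L),
      φ = AlgEquiv.restrictNormalHom (F := ℚ) (K₁ := AlgebraicClosure ℚ) ↥L := ⟨_, rfl⟩
  have hφsurj : Function.Surjective φ := by
    rw [hφdef]
    exact AlgEquiv.restrictNormalHom_surjective (AlgebraicClosure ℚ)
  have hφker : φ.ker = L.fixingSubgroup := by
    rw [hφdef]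
    exact @IntermediateField.restrictNormalHom_ker ℚ (AlgebraicClosure ℚ) _ _ _ L hNor
  have hφapp : ∀ (g : GQ) (x : ↥L), g (x : AlgebraicClosure ℚ) = (φ g x : ↥L) := by
    intro g x
    rw [hφdef]
    exact (AlgEquiv.restrictNormal_commutes g ↥L x).symm
  have hinvker : ∀ (c : (CRep S).V), (∀ s ∈ φ.ker, (CRep S).ρ s c = c) → c ∈ CInv S L := by
    intro c hc s hs
    exact hc s (by rw [hφker]; exact hs)
  -- the comparison map, extended by zero
  obtain ⟨f, hf⟩ : ∃ f : (CRep S).V → CS S ↥L, ∀ (c : (CRep S).V) (hc : c ∈ CInv S L),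
      f c = fam L hL ⟨c, hc⟩ :=
    ⟨fun c => if hc : c ∈ CInv S L then fam L hL ⟨c, hc⟩ else 0,
      fun c hc => by simp only [dif_pos hc]⟩
  -- the abstract transport
  obtain ⟨s, hsN, hds⟩ := survAbs φ hφsurj (JS S) (CRep S) (jlRep S ↥L) (csRep S ↥L) (piC S)
    (csOfJRep S ↥L) (thetaL S L hL.1) f hθinj
    (fun g z => thetaL_jlEnd S L hL.1 g (φ g) (hφapp g) z)
    (fun x hx => hθsurj x (fun s hs => hx s (by rw [hφker]; exact hs)))
    (fun c c' hc hc' =>
      (hf (c + c') ((CInv S L).add_mem (hinvker c hc) (hinvker c' hc'))).trans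
        ((map_add (fam L hL) ⟨c, hinvker c hc⟩ ⟨c', hinvker c' hc'⟩).trans
          (congrArg₂ (fun a b => a + b) (hf c (hinvker c hc)) (hf c' (hinvker c' hc'))).symm))
    (fun g c hc =>
      (hf _ (smul_mem_CInv S hL.2 g (hinvker c hc))).trans
        ((hfam.equivariant L hL g (φ g) (hφapp g) ⟨c, hinvker c hc⟩).trans
          (congrArg (csEnd S (φ g)) (hf c (hinvker c hc)).symm)))
    (fun z => (hf _ (piC_thetaL_mem_CInv S L hL.1 z)).trans (hfam.idelic L hL z))
    p (fun z => ∀ q' : ↥S, q' ≠ v → (Additive.toMul z : JL S ↥L) q' = 1)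
    (fun yb hyb hQ hpk hC =>
      hGB p hp2 S hpS ↥L (hRR S L hL.1) v yb hyb (fun q' hq' gg => hQ gg q' hq') hpk hC)
    y hy
    (fun g g' s s' hs hs' => hy1.1 g g' s s' (hL1 (by rw [← hφker]; exact hs))
      (hL1 (by rw [← hφker]; exact hs')))
    (fun gg s hs => hy1.2 gg s (hL1 (by rw [← hφker]; exact hs)))
    (fun gg z hz q' hq' => thetaL_component S L hL.1 hθinj z q' (fun g =>
      (congrArg (fun x : (JS S).V => x.1 q' g) hz).trans (hsupp q' hq' gg.1 gg.2 g)))
    ⟨k, t, fun g s hs => ht1.1 g s (hL2 (by rw [← hφker]; exact hs)),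
      fun g s hs => ht1.2 g s (hL2 (by rw [← hφker]; exact hs)), hdt⟩
    ⟨t', fun g s hs => ht'1.1 g s (hL3 (by rw [← hφker]; exact hs)),
      fun g s hs => ht'1.2 g s (hL3 (by rw [← hφker]; exact hs)), hdt'⟩
  -- the local cochain
  refine ⟨fun d => (s (rS S v d)).1 v 1, ?_, ?_⟩
  · refine ⟨L.fixingSubgroup.comap (rS S v),
      (letI : Fact ((v.1 : Nat.Primes) : ℕ).Prime := ⟨v.1.2⟩
       comap_mem_towerLoc S ((v.1 : Nat.Primes) : ℕ) _ ⟨L, hL.1, rfl⟩), fun d u hu => ?_⟩
    show (s (rS S v (d * u))).1 v 1 = (s (rS S v d)).1 v 1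
    rw [map_mul, hsN _ _ (by rw [hφker]; exact hu)]
  · funext dd
    obtain ⟨d, d'⟩ := dd
    have h1 := congrFun hds (rS S v d, rS S v d')
    rw [d₁₂_hom_apply] at h1
    have h2 := congrArg (fun x : (JS S).V => x.1 v 1) h1
    rw [d₁₂_hom_apply]
    have h3 : ((JS S).ρ (rS S v d) (s (rS S v d'))).1 v 1 =
        (JlocS S v).ρ d ((s (rS S v d')).1 v 1) := by
      have h4 := ((s (rS S v d')).2 v).1 d 1
      rw [mul_one] at h4
      rw [← h4]
      show (s (rS S v d')).1 v (1 * rS S v d) = _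
      rw [one_mul]
    show (JlocS S v).ρ d ((s (rS S v d')).1 v 1) - (s (rS S v (d * d'))).1 v 1 +
      (s (rS S v d)).1 v 1 = (y (rS S v d, rS S v d')).1 v 1
    rw [← h3, map_mul]
    exact h2

end Fermat.Agent.PT.B

end
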