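/-
PT-B piece I2 (helper67): `stmtTens : StmtTens`.

`θ_L : ∏_{q ∈ S} (ℚ_q ⊗ L)ˣ → J_S`, `z ↦ ((q, g) ↦ ev_{q,g}(z_q))`, is injective with image the
`Gal(ℚ̄/L)`-invariants.

* every `ℚ`-embedding `L → ℚ̄_q` is `x ↦ ι(g x)` for some `g ∈ G_ℚ` (`L/ℚ` normal);
* the matrix `(ι(g_j b_i))` is nonsingular (discriminant);
* hence `z ∈ ℚ_q ⊗ L` with `ev_g z = 0` for all `g` vanishes, and every function
  `f : G_ℚ → ℚ̄_q`, right `Gal(ℚ̄/L)`-invariant with `f(r(τ) g) = τ f(g)`, is `g ↦ ev_g z` for a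
  unique `z` (solve over `ℚ̄_q`; the solution is `Gal(ℚ̄_q/ℚ_q)`-fixed by uniqueness).
-/
import Fermat.Agent.PT.B.Plan3

set_option autoImplicit false
set_option linter.style.haveILetI false

noncomputable section

namespace Fermat.Agent.PT.B

open Fermat.Agent.PT CategoryTheory groupCohomology ExtCitation
open Fermat.Agent.PT.G Fermat.Agent.PT.G1
open scoped Pointwise TensorProduct

section Abstract

variable (q : ℕ) [Fact q.Prime] (K : Type) [Field K] [NumberField K]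

/-- evaluation `ℚ_q ⊗ K → ℚ̄_q` at an embedding -/
def tens2Ev (φ : K →ₐ[ℚ] PadicAlgCl q) : semiAlg q K →ₐ[ℚ_[q]] PadicAlgCl q :=
  Algebra.TensorProduct.lift (Algebra.ofId ℚ_[q] (PadicAlgCl q)) φ (fun _ _ => Commute.all _ _)

@[simp] lemma tens2Ev_tmul (φ : K →ₐ[ℚ] PadicAlgCl q) (y : ℚ_[q]) (x : K) :
    tens2Ev q K φ (y ⊗ₜ[ℚ] x) = algebraMap ℚ_[q] (PadicAlgCl q) y * φ x := by
  simp [tens2Ev, Algebra.ofId_apply]

/-- a basis of `K` indexed by the embeddings -/
def tens2Basis : Module.Basis (K →ₐ[ℚ] PadicAlgCl q) ℚ K :=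
  (Module.finBasis ℚ K).reindex (Fintype.equivOfCardEq (by rw [Fintype.card_fin, AlgHom.card]))

lemma tens2_det_ne_zero [DecidableEq (K →ₐ[ℚ] PadicAlgCl q)] :
    (Algebra.embeddingsMatrixReindex ℚ (PadicAlgCl q) (tens2Basis q K) (Equiv.refl _)).det ≠ 0 := by
  have h1 := Algebra.discr_eq_det_embeddingsMatrixReindex_pow_two ℚ (PadicAlgCl q)
    (tens2Basis q K) (Equiv.refl _)
  have h2 := Algebra.discr_not_zero_of_basis ℚ (tens2Basis q K)
  intro h0
  rw [h0, zero_pow two_ne_zero] at h1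
  exact h2 ((algebraMap ℚ (PadicAlgCl q)).injective (by rw [h1, map_zero]))

lemma tens2_vec_eq_zero (y : (K →ₐ[ℚ] PadicAlgCl q) → PadicAlgCl q)
    (h : ∀ φ : K →ₐ[ℚ] PadicAlgCl q, ∑ i, y i * φ (tens2Basis q K i) = 0) : y = 0 := by
  classical
  apply Matrix.eq_zero_of_vecMul_eq_zero (tens2_det_ne_zero q K)
  funext φ
  simpa [Matrix.vecMul, dotProduct, Algebra.embeddingsMatrixReindex,
    Algebra.embeddingsMatrix] using h φ

lemma tens2Ev_eq_sum (φ : K →ₐ[ℚ] PadicAlgCl q) (z : semiAlg q K) :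
    tens2Ev q K φ z = ∑ i, algebraMap ℚ_[q] (PadicAlgCl q)
      ((Algebra.TensorProduct.basis ℚ_[q] (tens2Basis q K)).repr z i) *
        φ (tens2Basis q K i) := by
  conv_lhs => rw [← (Algebra.TensorProduct.basis ℚ_[q] (tens2Basis q K)).sum_repr z]
  rw [map_sum]
  refine Finset.sum_congr rfl fun i _ => ?_
  rw [Algebra.TensorProduct.basis_repr_symm_apply', tens2Ev_tmul]

lemma tens2Ev_injective (z : semiAlg q K)
    (h : ∀ φ : K →ₐ[ℚ] PadicAlgCl q, tens2Ev q K φ z = 0) : z = 0 := by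
  have h1 := tens2_vec_eq_zero q K (fun i => algebraMap ℚ_[q] (PadicAlgCl q)
      ((Algebra.TensorProduct.basis ℚ_[q] (tens2Basis q K)).repr z i))
    (fun φ => by rw [← tens2Ev_eq_sum]; exact h φ)
  apply (Algebra.TensorProduct.basis ℚ_[q] (tens2Basis q K)).repr.injective
  ext i
  have := congrFun h1 i
  simp only [Pi.zero_apply] at this
  rw [map_zero, Finsupp.zero_apply]
  exact (algebraMap ℚ_[q] (PadicAlgCl q)).injective (by rw [this, map_zero])

lemma tens2Ev_surjective (F : (K →ₐ[ℚ] PadicAlgCl q) → PadicAlgCl q)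
    (hF : ∀ (τ : PadicAlgCl q ≃ₐ[ℚ_[q]] PadicAlgCl q) (φ ψ : K →ₐ[ℚ] PadicAlgCl q),
      (∀ x, ψ x = τ (φ x)) → τ (F φ) = F ψ) :
    ∃ z : semiAlg q K, ∀ φ, tens2Ev q K φ z = F φ := by
  classical
  set E := Algebra.embeddingsMatrixReindex ℚ (PadicAlgCl q) (tens2Basis q K) (Equiv.refl _)
    with hE
  have hdet : IsUnit E.det := (tens2_det_ne_zero q K).isUnit
  set y : (K →ₐ[ℚ] PadicAlgCl q) → PadicAlgCl q := Matrix.vecMul F E⁻¹ with hy
  have hyE : Matrix.vecMul y E = F := by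
    rw [hy, Matrix.vecMul_vecMul, Matrix.nonsing_inv_mul _ hdet, Matrix.vecMul_one]
  have hsum : ∀ φ : K →ₐ[ℚ] PadicAlgCl q, ∑ i, y i * φ (tens2Basis q K i) = F φ := by
    intro φ
    have := congrFun hyE φ
    simpa [Matrix.vecMul, dotProduct, Algebra.embeddingsMatrixReindex,
      Algebra.embeddingsMatrix, hE] using this
  -- the solution is Galois-fixed
  have hfix : ∀ (τ : PadicAlgCl q ≃ₐ[ℚ_[q]] PadicAlgCl q) i, τ (y i) = y i := by
    intro τ i
    have h0 : (fun i => τ (y i) - y i) = 0 := by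
      apply tens2_vec_eq_zero q K
      intro ψ
      set φ : K →ₐ[ℚ] PadicAlgCl q :=
        RingHom.toRatAlgHom (((τ.symm : PadicAlgCl q ≃ₐ[ℚ_[q]] PadicAlgCl q) :
          PadicAlgCl q →+* PadicAlgCl q).comp (ψ : K →+* PadicAlgCl q)) with hφ
      have hψ : ∀ x, ψ x = τ (φ x) := fun x => by
        show ψ x = τ (τ.symm (ψ x))
        rw [AlgEquiv.apply_symm_apply]
      have h1 := hF τ φ ψ hψ
      rw [← hsum φ, ← hsum ψ, map_sum] at h1
      simp only [map_mul, ← hψ] at h1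
      simp only [sub_mul, Finset.sum_sub_distrib]
      rw [h1, sub_self]
    have := congrFun h0 i
    simpa [sub_eq_zero] using this
  haveI : IsGalois ℚ_[q] (PadicAlgCl q) := inferInstance
  have hmem : ∀ i, ∃ c : ℚ_[q], algebraMap ℚ_[q] (PadicAlgCl q) c = y i := fun i =>
    (InfiniteGalois.mem_range_algebraMap_iff_fixed (y i)).2 (fun τ => hfix τ i)
  choose c hc using hmem
  refine ⟨∑ i, c i • Algebra.TensorProduct.basis ℚ_[q] (tens2Basis q K) i, fun φ => ?_⟩
  rw [map_sum, ← hsum φ]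
  refine Finset.sum_congr rfl fun i _ => ?_
  rw [Algebra.TensorProduct.basis_repr_symm_apply', tens2Ev_tmul, hc]

end Abstract

section Local

variable (q : ℕ) [Fact q.Prime] (L : QbarField) [NumberField L]

/-- Every `ℚ`-embedding `L → ℚ̄_q` is `x ↦ ι (g x)` for some `g ∈ G_ℚ` (`L/ℚ` normal). -/
lemma tens2_exists_embAt [hG : IsGalois ℚ L] (φ : ↥L →ₐ[ℚ] PadicAlgCl q) :
    ∃ g : GQ, embAt q L g = φ := by
  letI : Algebra ↥L (PadicAlgCl q) := (embAt q L 1).toRingHom.toAlgebra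
  haveI : IsScalarTower ℚ ↥L (PadicAlgCl q) :=
    IsScalarTower.of_algebraMap_eq' (Subsingleton.elim _ _)
  haveI : Normal ℚ ↥L := IsGalois.to_normal
  have hφ := (Normal.algHomEquivAut ℚ (PadicAlgCl q) ↥L).symm_apply_apply φ
  haveI : Algebra.IsAlgebraic ℚ (AlgebraicClosure ℚ) := AlgebraicClosure.isAlgebraic ℚ
  haveI : IsAlgClosure ℚ (AlgebraicClosure ℚ) := ⟨inferInstance, inferInstance⟩
  haveI : Normal ℚ (AlgebraicClosure ℚ) := IsAlgClosure.normal ℚ _
  obtain ⟨g, hg⟩ := AlgEquiv.restrictNormalHom_surjective (F := ℚ)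
    (K₁ := ↥L) (AlgebraicClosure ℚ) (Normal.algHomEquivAut ℚ (PadicAlgCl q) ↥L φ)
  refine ⟨g, ?_⟩
  rw [← hφ, ← hg]
  ext x
  have hN : @Normal ℚ ↥L _ _ (IntermediateField.algebra' L) := hG.to_normal
  have h1 : ((AlgEquiv.restrictNormalHom (↥L) g x : ↥L) : AlgebraicClosure ℚ) =
      g (x : AlgebraicClosure ℚ) := @AlgEquiv.restrictNormalHom_apply ℚ _ _ _ _ L hN g x
  show padicEmbedding q (g (x : AlgebraicClosure ℚ)) =
    padicEmbedding q ((AlgEquiv.restrictNormalHom (↥L) g x : ↥L) : AlgebraicClosure ℚ)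
  rw [h1]

lemma tens2_tensEv_eq (g : GQ) (z : semiAlg q ↥L) :
    tensEv q L g z = tens2Ev q ↥L (embAt q L g) z := rfl

/-- an element of `ℚ_q ⊗ L` killed by all evaluations vanishes -/
lemma tens2_eq_zero [hG : IsGalois ℚ L] (z : semiAlg q ↥L)
    (h : ∀ g : GQ, tensEv q L g z = 0) : z = 0 := by
  apply tens2Ev_injective q ↥L z
  intro φ
  obtain ⟨g, rfl⟩ := tens2_exists_embAt q L φ
  exact h g

lemma tens2_mem_fixingSubgroup (g g' : GQ) (h : embAt q L g = embAt q L g') :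
    g⁻¹ * g' ∈ L.fixingSubgroup := by
  rw [IntermediateField.mem_fixingSubgroup_iff]
  intro x hx
  have h1 := DFunLike.congr_fun h ⟨x, hx⟩
  simp only [embAt_apply] at h1
  have h2 : g x = g' x := (padicEmbedding q).injective h1
  show g⁻¹ (g' x) = x
  rw [← h2]
  exact g.symm_apply_apply x

/-- every function `G_ℚ → ℚ̄_q` which is right `Gal(ℚ̄/L)`-invariant and `G_{ℚ_q}`-equivariant is
`g ↦ ev_g z`. -/
lemma tens2_exists [hG : IsGalois ℚ L] (f : GQ → PadicAlgCl q)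
    (h1 : ∀ (τ : GQq q) (g : GQ), f (localGaloisToGlobal q τ * g) = τ (f g))
    (h2 : ∀ (g s : GQ), s ∈ L.fixingSubgroup → f (g * s) = f g) :
    ∃ z : semiAlg q ↥L, ∀ g, tensEv q L g z = f g := by
  choose γ hγ using tens2_exists_embAt q L
  have hwd : ∀ g g', embAt q L g = embAt q L g' → f g = f g' := by
    intro g g' h
    have := h2 g (g⁻¹ * g') (tens2_mem_fixingSubgroup q L g g' h)
    rw [mul_inv_cancel_left] at this
    exact this.symm
  obtain ⟨z, hz⟩ := tens2Ev_surjective q ↥L (fun φ => f (γ φ)) (by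
    intro τ φ ψ hψ
    show τ (f (γ φ)) = f (γ ψ)
    rw [← h1]
    apply hwd
    rw [hγ ψ]
    ext x
    have e : φ x = padicEmbedding q ((γ φ) (x : AlgebraicClosure ℚ)) := by
      rw [← embAt_apply]
      exact (DFunLike.congr_fun (hγ φ) x).symm
    rw [embAt_apply, hψ, e]
    exact padicEmbedding_localGaloisToGlobal q τ _)
  refine ⟨z, fun g => ?_⟩
  rw [tens2_tensEv_eq, hz]
  exact hwd _ _ (hγ _)

end Local

/-- **I2** (TENS). -/
theorem stmtTens : StmtTens := by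
  intro S L _ hL hG
  constructor
  · intro z z' h
    apply Additive.toMul.injective
    funext v
    apply Units.ext
    have h0 : ∀ g : GQ, tensEv ((v : Nat.Primes) : ℕ) L g
        (((Additive.toMul z) v : (semiAlg ((v : Nat.Primes) : ℕ) ↥L)ˣ) -
          ((Additive.toMul z') v : (semiAlg ((v : Nat.Primes) : ℕ) ↥L)ˣ)) = 0 := by
      intro g
      have h1 := congrArg (fun x : (JS S).V => x.1 v g) h
      simp only [thetaL_apply] at h1
      have h2 := congrArg (fun u : Additive (PadicAlgCl ((v : Nat.Primes) : ℕ))ˣ =>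
        ((Additive.toMul u : (PadicAlgCl ((v : Nat.Primes) : ℕ))ˣ) :
          PadicAlgCl ((v : Nat.Primes) : ℕ))) h1
      rw [map_sub, sub_eq_zero]
      exact h2
    exact sub_eq_zero.1 (tens2_eq_zero _ L _ h0)
  · intro x hx
    -- the components of `x`
    have key : ∀ v : ↥S, ∃ u : (semiAlg ((v : Nat.Primes) : ℕ) ↥L)ˣ, ∀ g : GQ,
        tensEv ((v : Nat.Primes) : ℕ) L g (u : semiAlg ((v : Nat.Primes) : ℕ) ↥L) =
          ((Additive.toMul (x.1 v g : Additive (PadicAlgCl ((v : Nat.Primes) : ℕ))ˣ) :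
            (PadicAlgCl ((v : Nat.Primes) : ℕ))ˣ) : PadicAlgCl ((v : Nat.Primes) : ℕ)) := by
      intro v
      set f : GQ → PadicAlgCl ((v : Nat.Primes) : ℕ) := fun g =>
        ((Additive.toMul (x.1 v g : Additive (PadicAlgCl ((v : Nat.Primes) : ℕ))ˣ) :
          (PadicAlgCl ((v : Nat.Primes) : ℕ))ˣ) : PadicAlgCl ((v : Nat.Primes) : ℕ)) with hf
      have hf0 : ∀ g, f g ≠ 0 := fun g => Units.ne_zero _
      have h1 : ∀ (τ : GQq ((v : Nat.Primes) : ℕ)) (g : GQ),
          f (localGaloisToGlobal ((v : Nat.Primes) : ℕ) τ * g) = τ (f g) := by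
        intro τ g
        have := (x.2 v).1 τ g
        exact congrArg (fun u : Additive (PadicAlgCl ((v : Nat.Primes) : ℕ))ˣ =>
          ((Additive.toMul u : (PadicAlgCl ((v : Nat.Primes) : ℕ))ˣ) :
            PadicAlgCl ((v : Nat.Primes) : ℕ))) this
      have h2 : ∀ (g s : GQ), s ∈ L.fixingSubgroup → f (g * s) = f g := by
        intro g s hs
        have := congrArg (fun y : (JS S).V => y.1 v g) (hx s hs)
        exact congrArg (fun u : Additive (PadicAlgCl ((v : Nat.Primes) : ℕ))ˣ =>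
          ((Additive.toMul u : (PadicAlgCl ((v : Nat.Primes) : ℕ))ˣ) :
            PadicAlgCl ((v : Nat.Primes) : ℕ))) this
      obtain ⟨z, hz⟩ := tens2_exists _ L f h1 h2
      obtain ⟨z', hz'⟩ := tens2_exists _ L (fun g => (f g)⁻¹)
        (fun τ g => by
          show (f _)⁻¹ = τ ((f g)⁻¹)
          rw [h1, map_inv₀])
        (fun g s hs => by
          show (f _)⁻¹ = (f g)⁻¹
          rw [h2 g s hs])
      have hmul : z * z' = 1 := by
        apply sub_eq_zero.1
        apply tens2_eq_zero _ L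
        intro g
        rw [map_sub, map_mul, map_one, hz, hz', mul_inv_cancel₀ (hf0 g), sub_self]
      exact ⟨⟨z, z', hmul, by rw [mul_comm]; exact hmul⟩, fun g => hz g⟩
    choose u hu using key
    refine ⟨Additive.ofMul u, ?_⟩
    apply Subtype.ext
    funext v g
    rw [thetaL_apply]
    exact congrArg Additive.ofMul (Units.ext (hu v g))

end Fermat.Agent.PT.B

end
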