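/-
PT-B piece I-units (helper60): the `S`-units of the datum at level `L` are the `N`-units of the
type `L` (`N = ∏ S`).

`x ∈ Lˣ` is a unit at all valuation subrings `A` of `ℚ̄` over primes `q ∉ S` iff
`N^k x` and `N^k x⁻¹` are integral over `ℤ` for some `k`.

(⇐) integral elements lie in every valuation subring, and `N` is a unit of `A` for `q ∤ N`.
(⇒) valuative criterion of integrality (Mathlib:
`Subring.exists_le_valuationSubring_of_isIntegrallyClosedIn`): take `a ∈ ℤ`, `a ≠ 0` with `a x`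
integral and `k = |a|`; for a valuation subring `V` over `q ∈ S` write `|a| = q^e a''`,
`q ∤ a''`; then `v(N^k x) ≤ v(q)^k v(x) ≤ v(q)^e v(x) = v(a x) ≤ 1`.
-/
import Fermat.Agent.PT.B.Plan3

set_option autoImplicit false
set_option linter.style.haveILetI false
set_option linter.unusedSectionVars false

namespace Fermat.Agent.PT.B

open Fermat.Agent.PT

section iunitsGeneral

variable {K : Type} [Field K]

/-- Integral elements lie in every valuation subring. -/
lemma iunits_mem_of_isIntegral (V : ValuationSubring K) {y : K} (hy : IsIntegral ℤ y) :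
    y ∈ V := by
  have h1 : IsIntegral V y := hy.tower_top
  obtain ⟨z, hz⟩ := (IsIntegrallyClosed.isIntegral_iff (R := V) (K := K)).1 h1
  rw [← hz]
  exact z.2

/-- Valuative criterion of integrality over `ℤ`. -/
lemma iunits_isIntegral_of_forall_mem {y : K} (h : ∀ V : ValuationSubring K, y ∈ V) :
    IsIntegral ℤ y := by
  by_contra hy
  have h1 : y ∉ (integralClosure ℤ K).toSubring := hy
  obtain ⟨V, -, hV⟩ := Subring.exists_le_valuationSubring_of_isIntegrallyClosedIn h1
  exact hV (h V)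

lemma iunits_val_natCast_le (V : ValuationSubring K) (n : ℕ) : V.valuation (n : K) ≤ 1 :=
  (V.valuation_le_one_iff _).2 (natCast_mem V n)

lemma iunits_val_intCast_le (V : ValuationSubring K) (n : ℤ) : V.valuation (n : K) ≤ 1 :=
  (V.valuation_le_one_iff _).2 (intCast_mem V n)

/-- A natural number prime to the residue characteristic is a unit. -/
lemma iunits_val_eq_one (V : ValuationSubring K) {q : ℕ} (hq : q.Prime)
    (hV : V.LiesOverPrime q) {m : ℕ} (hm : ¬ q ∣ m) : V.valuation (m : K) = 1 := by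
  have hqv : V.valuation (q : K) < 1 := V.mem_nonunits_iff.1 hV
  refine le_antisymm (iunits_val_natCast_le V m) (not_lt.1 fun hlt => ?_)
  have hcop : IsCoprime (q : ℤ) (m : ℤ) :=
    Nat.isCoprime_iff_coprime.2 ((Nat.Prime.coprime_iff_not_dvd hq).2 hm)
  obtain ⟨a, b, hab⟩ := hcop
  have h1 : ((a : K) * (q : K) + (b : K) * (m : K)) = 1 := by
    have := congrArg (fun t : ℤ => (t : K)) hab
    push_cast at this
    exact this
  have h2 : V.valuation ((a : K) * (q : K) + (b : K) * (m : K)) < 1 := by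
    refine lt_of_le_of_lt (V.valuation.map_add _ _) (max_lt ?_ ?_)
    · rw [map_mul]
      exact lt_of_le_of_lt (mul_le_of_le_one_left' (iunits_val_intCast_le V a)) hqv
    · rw [map_mul]
      exact lt_of_le_of_lt (mul_le_of_le_one_left' (iunits_val_intCast_le V b)) hlt
  rw [h1, map_one] at h2
  exact lt_irrefl _ h2

/-- If no prime is a nonunit, every nonzero natural number is a unit. -/
lemma iunits_val_eq_one_of_no_prime (V : ValuationSubring K)
    (hV : ∀ q : ℕ, q.Prime → ¬ V.LiesOverPrime q) (m : ℕ) (hm : m ≠ 0) :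
    V.valuation (m : K) = 1 := by
  induction m using Nat.recOnMul with
  | zero => exact absurd rfl hm
  | one => simp
  | prime p hp =>
    refine le_antisymm (iunits_val_natCast_le V p) (not_lt.1 fun hlt => ?_)
    exact hV p hp (V.mem_nonunits_iff.2 hlt)
  | mul a b ha hb =>
    have ha0 : a ≠ 0 := fun h => hm (by rw [h, zero_mul])
    have hb0 : b ≠ 0 := fun h => hm (by rw [h, mul_zero])
    rw [Nat.cast_mul, map_mul, ha ha0, hb hb0, mul_one]

lemma iunits_val_intCast (V : ValuationSubring K) (a : ℤ) :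
    V.valuation (a : K) = V.valuation ((a.natAbs : ℕ) : K) := by
  obtain ⟨n, rfl | rfl⟩ := Int.eq_nat_or_neg a
  · simp
  · simp [Valuation.map_neg]

end iunitsGeneral

section iunitsMain

variable (S : Finset Nat.Primes)

lemma iunits_sProd_eq (q : Nat.Primes) (hq : q ∈ S) :
    G.sProd S = (q : ℕ) * ∏ q' ∈ S.erase q, (q' : ℕ) := by
  rw [G.sProd, Finset.mul_prod_erase S (fun q' : Nat.Primes => (q' : ℕ)) hq]

lemma iunits_not_dvd_sProd (q : Nat.Primes) (hq : q ∉ S) : ¬ (q : ℕ) ∣ G.sProd S := by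
  intro h
  rw [G.sProd, Prime.dvd_finsetProd_iff (Nat.prime_iff.1 q.2)] at h
  obtain ⟨q', hq', hdvd⟩ := h
  have : (q : ℕ) = (q' : ℕ) := (Nat.prime_dvd_prime_iff_eq q.2 q'.2).1 hdvd
  exact hq ((Subtype.ext this : q = q') ▸ hq')

variable {K : Type} [Field K]

/-- (⇒) for one element. -/
lemma iunits_forward [Algebra ℚ K] [Algebra.IsAlgebraic ℚ K] (x : Kˣ)
    (hx : ∀ q : Nat.Primes, q ∉ S → ∀ A : ValuationSubring K,
      A.LiesOverPrime (q : ℕ) → x ∈ A.unitGroup) :
    ∃ k : ℕ, IsIntegral ℤ (((G.sProd S : ℕ) : K) ^ k * (x : K)) := by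
  have hxalg : IsAlgebraic ℤ (x : K) :=
    (IsFractionRing.isAlgebraic_iff ℤ ℚ K).2 (Algebra.IsAlgebraic.isAlgebraic (x : K))
  obtain ⟨a, ha0, ha⟩ := hxalg.exists_integral_multiple
  rw [zsmul_eq_mul] at ha
  have hk0 : a.natAbs ≠ 0 := Int.natAbs_ne_zero.2 ha0
  refine ⟨a.natAbs, iunits_isIntegral_of_forall_mem fun V => ?_⟩
  rw [← V.valuation_le_one_iff, map_mul, map_pow]
  have hax : V.valuation (a : K) * V.valuation (x : K) ≤ 1 := by
    rw [← map_mul, V.valuation_le_one_iff]
    exact iunits_mem_of_isIntegral V ha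
  have hN1 : V.valuation ((G.sProd S : ℕ) : K) ≤ 1 := iunits_val_natCast_le V _
  by_cases hex : ∃ q : ℕ, q.Prime ∧ V.LiesOverPrime q
  · obtain ⟨q, hq, hV⟩ := hex
    by_cases hqS : (⟨q, hq⟩ : Nat.Primes) ∈ S
    · -- `q ∈ S`
      obtain ⟨e, a'', ha'', hea⟩ := Nat.exists_eq_pow_mul_and_not_dvd hk0 q hq.ne_one
      have hva'' : V.valuation (a'' : K) = 1 := iunits_val_eq_one V hq hV ha''
      have hva : V.valuation (a : K) = V.valuation (q : K) ^ e := by
        rw [iunits_val_intCast, hea, Nat.cast_mul, Nat.cast_pow, map_mul, map_pow, hva'',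
          mul_one]
      have hqv : V.valuation (q : K) ≤ 1 := iunits_val_natCast_le V q
      have hNq : V.valuation ((G.sProd S : ℕ) : K) ≤ V.valuation (q : K) := by
        rw [iunits_sProd_eq S ⟨q, hq⟩ hqS, Nat.cast_mul, map_mul]
        exact mul_le_of_le_one_right' (iunits_val_natCast_le V _)
      have hek : e ≤ a.natAbs := by
        have h1 : e < q ^ e := Nat.lt_pow_self hq.one_lt
        have h2 : q ^ e ≤ a.natAbs := by
          rw [hea]
          apply Nat.le_mul_of_pos_right
          rcases Nat.eq_zero_or_pos a'' with h | h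
          · exact absurd (h ▸ dvd_zero q) ha''
          · exact h
        omega
      calc V.valuation ((G.sProd S : ℕ) : K) ^ a.natAbs * V.valuation (x : K)
          ≤ V.valuation (q : K) ^ a.natAbs * V.valuation (x : K) :=
            mul_le_mul' (pow_le_pow_left' hNq _) le_rfl
        _ ≤ V.valuation (q : K) ^ e * V.valuation (x : K) :=
            mul_le_mul' (pow_le_pow_right_of_le_one' hqv hek) le_rfl
        _ = V.valuation (a : K) * V.valuation (x : K) := by rw [hva]
        _ ≤ 1 := hax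
    · -- `q ∉ S`
      have hxu : V.valuation (x : K) = 1 :=
        (V.mem_unitGroup_iff x).1 (hx ⟨q, hq⟩ hqS V hV)
      rw [hxu, mul_one]
      exact pow_le_one' hN1 _
  · -- no residue characteristic
    push Not at hex
    have hva : V.valuation (a : K) = 1 := by
      rw [iunits_val_intCast]
      exact iunits_val_eq_one_of_no_prime V hex _ hk0
    rw [hva, one_mul] at hax
    calc V.valuation ((G.sProd S : ℕ) : K) ^ a.natAbs * V.valuation (x : K)
        ≤ 1 * 1 := mul_le_mul' (pow_le_one' hN1 _) hax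
      _ = 1 := mul_one 1

/-- (⇐) for one element. -/
lemma iunits_backward (x : Kˣ) (k : ℕ)
    (h1 : IsIntegral ℤ (((G.sProd S : ℕ) : K) ^ k * (x : K)))
    (h2 : IsIntegral ℤ (((G.sProd S : ℕ) : K) ^ k * ((x⁻¹ : Kˣ) : K)))
    (q : Nat.Primes) (hq : q ∉ S) (A : ValuationSubring K) (hA : A.LiesOverPrime (q : ℕ)) :
    x ∈ A.unitGroup := by
  have hN : A.valuation ((G.sProd S : ℕ) : K) = 1 :=
    iunits_val_eq_one A q.2 hA (iunits_not_dvd_sProd S q hq)
  have h1' := (A.valuation_le_one_iff _).2 (iunits_mem_of_isIntegral A h1)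
  have h2' := (A.valuation_le_one_iff _).2 (iunits_mem_of_isIntegral A h2)
  rw [map_mul, map_pow, hN, one_pow, one_mul] at h1' h2'
  rw [A.mem_unitGroup_iff]
  refine le_antisymm h1' ?_
  have h3 : A.valuation (x : K) * A.valuation ((x⁻¹ : Kˣ) : K) = 1 := by
    rw [← map_mul, ← Units.val_mul, mul_inv_cancel, Units.val_one, map_one]
  calc (1 : _) = A.valuation (x : K) * A.valuation ((x⁻¹ : Kˣ) : K) := h3.symm
    _ ≤ A.valuation (x : K) * 1 := mul_le_mul' le_rfl h2'
    _ = A.valuation (x : K) := mul_one _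

end iunitsMain

section iunitsTransfer

variable {K' K : Type} [Field K'] [Field K]

/-- Integrality over `ℤ` is insensitive to field embeddings. -/
lemma iunits_isIntegral_map (f : K' →+* K) (y : K') : IsIntegral ℤ (f y) ↔ IsIntegral ℤ y :=
  isIntegral_algHom_iff f.toIntAlgHom f.injective

lemma iunits_isIntegral_natCast_pow (N j : ℕ) : IsIntegral ℤ ((N : K) ^ j) := by
  have h : IsIntegral ℤ (algebraMap ℤ K (N : ℤ)) := isIntegral_algebraMap
  have h2 : algebraMap ℤ K (N : ℤ) = (N : K) := by simp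
  rw [h2] at h
  exact h.pow j

lemma iunits_isIntegral_pow_add (N k1 k2 : ℕ) (y : K)
    (h : IsIntegral ℤ ((N : K) ^ k1 * y)) : IsIntegral ℤ ((N : K) ^ (k1 + k2) * y) := by
  have h2 := (iunits_isIntegral_natCast_pow (K := K) N k2).mul h
  have e : (N : K) ^ (k1 + k2) * y = (N : K) ^ k2 * ((N : K) ^ k1 * y) := by ring
  rw [e]
  exact h2

end iunitsTransfer

/-- **I-units**: the `S`-units of the datum at level `L` are the `N`-units of the type `L`. -/
theorem stmtUnitsS : StmtUnitsS := by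
  intro S L hL x
  haveI : Algebra.IsAlgebraic ℚ (AlgebraicClosure ℚ) := AlgebraicClosure.isAlgebraic ℚ
  have hcast : ∀ (k : ℕ) (y : ↥L),
      @IsIntegral ℤ (AlgebraicClosure ℚ) _ _ (Ring.toIntAlgebra _)
        (((G.sProd S : ℕ) : AlgebraicClosure ℚ) ^ k * (y : AlgebraicClosure ℚ)) ↔
      @IsIntegral ℤ (↥L) _ _ (Ring.toIntAlgebra _) (((G.sProd S : ℕ) : ↥L) ^ k * y) := by
    intro k y
    rw [← iunits_isIntegral_map ((L.val : ↥L →ₐ[ℚ] AlgebraicClosure ℚ) : ↥L →+* AlgebraicClosure ℚ)]
    simp only [map_mul, map_pow, map_natCast]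
    rfl
  constructor
  · rintro ⟨-, hu⟩
    obtain ⟨k1, hk1⟩ := iunits_forward S (Units.map (L.val : ↥L →* AlgebraicClosure ℚ) x) hu
    obtain ⟨k2, hk2⟩ := iunits_forward S (Units.map (L.val : ↥L →* AlgebraicClosure ℚ) x⁻¹)
      (fun q hq A hA => by
        rw [map_inv]
        exact inv_mem (hu q hq A hA))
    refine ⟨k1 + k2, ?_, ?_⟩
    · exact (hcast _ _).1 (iunits_isIntegral_pow_add _ k1 k2 _ hk1)
    · refine (hcast _ _).1 ?_
      rw [add_comm]
      exact iunits_isIntegral_pow_add _ k2 k1 _ hk2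
  · rintro ⟨k, h1, h2⟩
    refine ⟨⟨L, hL, x.1.2⟩, fun q hq A hA => ?_⟩
    refine iunits_backward S _ k ?_ ?_ q hq A hA
    · exact (hcast k x).2 h1
    · have := (hcast k ((x⁻¹ : (↥L)ˣ) : ↥L)).2 h2
      rw [← map_inv]
      exact this

end Fermat.Agent.PT.B
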