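import Fermat.Agent.PT.B.Plan
import Fermat.Agent.S31.Cyclo

/-!
# PT-B, piece B-cyc: the cyclotomic field `ℚ(ζ_p)` is in the tower `𝓕_S` as soon as `p ∈ S`

* `cycloField p` : the intermediate field `ℚ(μ_p) ⊂ ℚ̄` (generated by ALL `p`-th roots of unity, so
  that no choice of a primitive root is involved);
* `cycloField_isTowerField` : it is finite Galois over `ℚ` and unramified outside `S ∋ p`;
* `cycloChar_eq_one_of_mem_fixingSubgroup` : the mod `p` cyclotomic character is trivial on
  `Gal(ℚ̄/ℚ(μ_p))`, and conversely (`mem_fixingSubgroup_cycloField_iff`);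
* `stmtCycloField : StmtCycloField`.
-/

set_option autoImplicit false

namespace Fermat.Agent.PT.B

open ExtCitation IntermediateField

/-- `ℚ(μ_p) ⊂ ℚ̄`. -/
noncomputable def cycloField (p : ℕ) : QbarField :=
  IntermediateField.adjoin ℚ {x : AlgebraicClosure ℚ | x ^ p = 1}

theorem cycloField_exists_primitiveRoot (p : ℕ) [NeZero p] :
    ∃ ζ : AlgebraicClosure ℚ, IsPrimitiveRoot ζ p :=
  HasEnoughRootsOfUnity.exists_primitiveRoot (AlgebraicClosure ℚ) p

theorem cycloField_eq_adjoin_simple {p : ℕ} [NeZero p] {ζ : AlgebraicClosure ℚ}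
    (hζ : IsPrimitiveRoot ζ p) : cycloField p = ℚ⟮ζ⟯ := by
  apply le_antisymm
  · rw [cycloField, IntermediateField.adjoin_le_iff]
    intro x hx
    obtain ⟨i, -, rfl⟩ := hζ.eq_pow_of_pow_eq_one hx
    exact pow_mem (IntermediateField.mem_adjoin_simple_self ℚ ζ) i
  · rw [IntermediateField.adjoin_simple_le_iff]
    exact IntermediateField.subset_adjoin ℚ _ hζ.pow_eq_one

/-- An automorphism lies in `Gal(ℚ̄/ℚ(μ_p))` iff it fixes every `p`-th root of unity. -/
theorem mem_fixingSubgroup_cycloField_iff {p : ℕ} (σ : GQ) :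
    σ ∈ (cycloField p).fixingSubgroup ↔ ∀ x : AlgebraicClosure ℚ, x ^ p = 1 → σ x = x := by
  rw [IntermediateField.mem_fixingSubgroup_iff]
  constructor
  · intro h x hx
    exact h x (IntermediateField.subset_adjoin ℚ _ hx)
  · intro h x hx
    have hle : cycloField p ≤ IntermediateField.fixedField (Subgroup.zpowers σ) := by
      rw [cycloField, IntermediateField.adjoin_le_iff]
      intro y hy
      rw [SetLike.mem_coe, IntermediateField.mem_fixedField_iff]
      intro τ hτ
      obtain ⟨n, rfl⟩ := Subgroup.mem_zpowers_iff.mp hτ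
      have hfix : σ y = y := h y hy
      have hmem : σ ∈ MulAction.stabilizer GQ y := MulAction.mem_stabilizer_iff.mpr hfix
      have := (MulAction.stabilizer GQ y).zpow_mem hmem n
      exact MulAction.mem_stabilizer_iff.mp this
    have := (IntermediateField.mem_fixedField_iff _ _).mp (hle hx) σ (Subgroup.mem_zpowers σ)
    exact this

instance cycloField_finiteDimensional (p : ℕ) [NeZero p] :
    FiniteDimensional ℚ (cycloField p) := by
  obtain ⟨ζ, hζ⟩ := cycloField_exists_primitiveRoot p
  rw [cycloField_eq_adjoin_simple hζ]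
  have hint : Algebra.IsIntegral ℚ (AlgebraicClosure ℚ) :=
    (AlgebraicClosure.isAlgebraic ℚ).isIntegral
  have hcyc : IsCyclotomicExtension {p} ℚ ℚ⟮ζ⟯ :=
    hζ.intermediateField_adjoin_isCyclotomicExtension ℚ
  exact IsCyclotomicExtension.finiteDimensional {p} ℚ ℚ⟮ζ⟯

instance cycloField_isGalois (p : ℕ) [NeZero p] : IsGalois ℚ (cycloField p) := by
  obtain ⟨ζ, hζ⟩ := cycloField_exists_primitiveRoot p
  rw [cycloField_eq_adjoin_simple hζ]
  have hint : Algebra.IsIntegral ℚ (AlgebraicClosure ℚ) :=
    (AlgebraicClosure.isAlgebraic ℚ).isIntegral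
  have hcyc : IsCyclotomicExtension {p} ℚ ℚ⟮ζ⟯ :=
    hζ.intermediateField_adjoin_isCyclotomicExtension ℚ
  exact IsCyclotomicExtension.isGalois {p} ℚ ℚ⟮ζ⟯

/-- `ℚ(μ_p)` is unramified outside every `S ∋ p`. -/
theorem cycloField_isUnramifiedOutside (p : ℕ) [Fact p.Prime] (S : Finset Nat.Primes)
    (hpS : pPrime p ∈ S) : (cycloField p).IsUnramifiedOutside S := by
  have : NeZero p := ⟨(Fact.out : p.Prime).ne_zero⟩
  refine ⟨inferInstance, fun q hq A hA σ hσ => ?_⟩
  have hqp : (q : ℕ) ≠ p := by
    intro h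
    apply hq
    have : q = pPrime p := Subtype.ext h
    rw [this]
    exact hpS
  rw [mem_fixingSubgroup_cycloField_iff]
  intro x hx
  have hM : ((p : ℕ) : AlgebraicClosure ℚ) ∉ A.nonunits := by
    have := Fermat.Agent.S31.natCast_pow_not_mem_nonunits A (Fact.out : p.Prime) q.2 hqp hA 1
    simpa using this
  exact Fermat.Agent.S31.inertia_rootOfUnity A hM (Fact.out : p.Prime).ne_zero hσ hx

theorem cycloField_isTowerField (p : ℕ) [Fact p.Prime] (S : Finset Nat.Primes)
    (hpS : pPrime p ∈ S) : IsTowerField S (cycloField p) :=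
  haveI : NeZero p := ⟨(Fact.out : p.Prime).ne_zero⟩
  ⟨cycloField_isUnramifiedOutside p S hpS, inferInstance⟩

/-- The mod `p` cyclotomic character is trivial exactly on `Gal(ℚ̄/ℚ(μ_p))`. -/
theorem cycloChar_eq_one_iff (p : ℕ) [Fact p.Prime] (σ : GQ) :
    cycloChar p σ = 1 ↔ σ ∈ (cycloField p).fixingSubgroup := by
  have : NeZero p := ⟨(Fact.out : p.Prime).ne_zero⟩
  rw [mem_fixingSubgroup_cycloField_iff]
  constructor
  · intro h x hx
    have hx0 : x ≠ 0 := by
      rintro rfl
      rw [zero_pow (Fact.out : p.Prime).ne_zero] at hx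
      exact zero_ne_one hx
    set t : (AlgebraicClosure ℚ)ˣ := Units.mk0 x hx0 with ht
    have htmem : t ∈ rootsOfUnity p (AlgebraicClosure ℚ) := by
      rw [mem_rootsOfUnity]
      ext
      simpa [ht] using hx
    have := modularCyclotomicCharacter.spec (AlgebraicClosure ℚ) (card_rootsOfUnity_eq_self p)
      (σ : AlgebraicClosure ℚ ≃+* AlgebraicClosure ℚ) htmem
    have h1 : (modularCyclotomicCharacter (AlgebraicClosure ℚ) (card_rootsOfUnity_eq_self p))
        (σ : AlgebraicClosure ℚ ≃+* AlgebraicClosure ℚ) = 1 := h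
    rw [h1] at this
    have hval : ((1 : (ZMod p)ˣ) : ZMod p).val = 1 := by
      have : Fact (1 < p) := ⟨(Fact.out : p.Prime).one_lt⟩
      simp [ZMod.val_one]
    rw [hval, pow_one] at this
    simpa [ht] using this
  · intro h
    have key := modularCyclotomicCharacter.unique (AlgebraicClosure ℚ)
      (card_rootsOfUnity_eq_self p) (σ : AlgebraicClosure ℚ ≃+* AlgebraicClosure ℚ)
      (c := (1 : ZMod p)) (by
        intro t ht
        have hval : (1 : ZMod p).val = 1 := by
          have : Fact (1 < p) := ⟨(Fact.out : p.Prime).one_lt⟩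
          exact ZMod.val_one p
        rw [hval, pow_one]
        have htp : (t : AlgebraicClosure ℚ) ^ p = 1 := by
          have := (mem_rootsOfUnity _ _).mp ht
          have := congrArg (fun u : (AlgebraicClosure ℚ)ˣ => (u : AlgebraicClosure ℚ)) this
          simpa using this
        exact h _ htp)
    apply Units.ext
    exact key.symm

theorem stmtCycloField : StmtCycloField := by
  intro p _ S hpS
  exact ⟨cycloField p, cycloField_isTowerField p S hpS,
    fun s hs => (cycloChar_eq_one_iff p s).mpr hs⟩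

end Fermat.Agent.PT.B
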