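/-
PT-B: the comparison maps exist, UNCONDITIONALLY (`stmtCompare : StmtCompare`), and the datum
axioms `surv`, `exist` reduced to the campaign statements `StmtGB`, `StmtGA`, `X.StmtExistTL`.
-/
import Fermat.Agent.PT.B.Compare
import Fermat.Agent.PT.B.Tens
import Fermat.Agent.PT.B.UnitsS
import Fermat.Agent.PT.B.RamRel
import Fermat.Agent.PT.B.Surv
import Fermat.Agent.PT.B.Exist
import Fermat.Agent.PT.X.CapFinal
import Fermat.Agent.PT.X.ExistCS
import Fermat.Agent.PT.X.KummerTower
import Fermat.Agent.PT.X.KummerRam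
import Fermat.Agent.PT.G.CyclicFinal

set_option autoImplicit false

namespace Fermat.Agent.PT.B

/-- **The comparison maps exist.** -/
theorem stmtCompare : StmtCompare := stmtCompare_of stmtTens stmtUnitsS stmtRamRel Fermat.Agent.PT.X.stmtCapCS

/-- the datum axiom `surv` from (GB) -/
theorem stmtSurvC_of_GB (hGB : StmtGB) : StmtSurvC :=
  stmtSurvC_of hGB stmtTens stmtRamRel stmtCompare

/-- the existence theorem mod `p` for the type-level class modules, from (GA) and `ExistTL` -/
theorem stmtExistCS_of_GA (hGA : StmtGA) (hTL : Fermat.Agent.PT.X.StmtExistTL) : StmtExistCS :=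
  Fermat.Agent.PT.X.stmtExistCS_of hTL Fermat.Agent.PT.X.stmtKummerTower hGA stmtRamRel
    Fermat.Agent.PT.G.stmtCSDescent Fermat.Agent.PT.X.stmtKummerUnram

/-- the datum axiom `exist` from (GA) and `ExistTL` -/
theorem stmtExistC_of_GA (hGA : StmtGA) (hTL : Fermat.Agent.PT.X.StmtExistTL) : StmtExistC :=
  stmtExistC_of (stmtExistCS_of_GA hGA hTL) stmtCompare

end Fermat.Agent.PT.B
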