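/-
PT-B, piece B-dec (decomposition group): for `L/ℚ` finite Galois inside `ℚ̄`, every element of the
decomposition group of `padicPlace q` agrees on `L` with the image of a local Galois element.

Proof.  (i) an element `σ` of the decomposition group preserves the `q`-adic norm `‖ι ·‖`
(`ι = padicEmbedding q`): both `‖ι ·‖` and `‖ι (σ ·)‖` have the same unit ball and agree on `q`.
(ii) For a primitive element `α` of `L`, `u = ι α`, `u' = ι (σ α)`, the minimal polynomial of `u`
over `ℚ_q` kills `u'`: approximate it by rational polynomials and use (i).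
(iii) Hence `u'` is a `ℚ_q`-conjugate of `u`: `τ u = u'` for some `τ ∈ G_{ℚ_q}`, and
`τ ∘ ι = ι ∘ σ` on `L = ℚ(α)`.
-/
import Fermat.Agent.PT.B.Plan

set_option autoImplicit false

namespace Fermat.Agent.PT.B

open Polynomial IntermediateField
open scoped Pointwise

section

variable (q : ℕ) [Fact q.Prime]

/-- norm of `q` in `ℚ̄_q` -/
theorem dec_norm_q : ‖((q : ℕ) : PadicAlgCl q)‖ = (q : ℝ)⁻¹ := by
  rw [← map_natCast (algebraMap ℚ_[q] (PadicAlgCl q)), PadicAlgCl.norm_extends, Padic.norm_p]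

/-- an element of the decomposition group maps the unit ball into itself -/
theorem dec_mem_of_mem {σ : GQ} (hσ : σ ∈ (padicPlace q).decompositionSubgroup ℚ)
    {x : AlgebraicClosure ℚ} (hx : ‖padicEmbedding q x‖ ≤ 1) : ‖padicEmbedding q (σ x)‖ ≤ 1 := by
  have hstab : σ • padicPlace q = padicPlace q := MulAction.mem_stabilizer_iff.mp hσ
  have hxA : x ∈ padicPlace q := by
    rw [mem_padicPlace_iff]; exact_mod_cast hx
  have h1 : σ • x ∈ σ • padicPlace q := ValuationSubring.smul_mem_pointwise_smul σ x _ hxA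
  rw [hstab, mem_padicPlace_iff] at h1
  exact_mod_cast h1

/-- (i), one inequality -/
theorem dec_norm_le {σ : GQ} (hσ : σ ∈ (padicPlace q).decompositionSubgroup ℚ)
    (x : AlgebraicClosure ℚ) : ‖padicEmbedding q (σ x)‖ ≤ ‖padicEmbedding q x‖ := by
  by_contra hlt
  rw [not_le] at hlt
  set s : ℝ := ‖padicEmbedding q x‖ with hs
  set t : ℝ := ‖padicEmbedding q (σ x)‖ with ht
  have hq1 : (1 : ℝ) < q := by exact_mod_cast (Fact.out : q.Prime).one_lt
  have hq0 : (0 : ℝ) < q := lt_trans zero_lt_one hq1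
  have hx0 : x ≠ 0 := by
    rintro rfl
    rw [hs, ht] at hlt
    simp at hlt
  have hs0 : 0 < s := by
    rw [hs, norm_pos_iff]
    exact (map_ne_zero_iff _ (padicEmbedding q).toRingHom.injective).2 hx0
  have hts : 1 < t / s := (one_lt_div hs0).2 hlt
  obtain ⟨n, hn⟩ := pow_unbounded_of_one_lt (q : ℝ) hts
  have hsn : 0 < s ^ n := pow_pos hs0 n
  have hn' : (q : ℝ) * s ^ n < t ^ n := by
    rw [div_pow, lt_div_iff₀ hsn] at hn
    exact hn
  obtain ⟨m, hm1, hm2⟩ := exists_mem_Ioc_zpow hsn hq1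
  -- the test element
  set y : AlgebraicClosure ℚ := x ^ n * ((q : ℕ) : AlgebraicClosure ℚ) ^ (m + 1) with hy
  have hιq : padicEmbedding q ((q : ℕ) : AlgebraicClosure ℚ) = ((q : ℕ) : PadicAlgCl q) :=
    map_natCast _ q
  have hσq : σ ((q : ℕ) : AlgebraicClosure ℚ) = ((q : ℕ) : AlgebraicClosure ℚ) :=
    map_natCast _ q
  have hny : ‖padicEmbedding q y‖ = s ^ n * ((q : ℝ)⁻¹) ^ (m + 1) := by
    rw [hy, map_mul, map_pow, map_zpow₀, hιq, norm_mul, norm_pow, norm_zpow, dec_norm_q]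
  have hnσy : ‖padicEmbedding q (σ y)‖ = t ^ n * ((q : ℝ)⁻¹) ^ (m + 1) := by
    rw [hy, map_mul, map_pow, map_zpow₀, hσq, map_mul, map_pow, map_zpow₀, hιq, norm_mul,
      norm_pow, norm_zpow, dec_norm_q]
  have hqm : (0 : ℝ) < (q : ℝ) ^ (m + 1) := zpow_pos hq0 _
  have h1 : ‖padicEmbedding q y‖ ≤ 1 := by
    rw [hny, inv_zpow, ← div_eq_mul_inv, div_le_one hqm]
    exact hm2
  have h2 : 1 < ‖padicEmbedding q (σ y)‖ := by
    rw [hnσy, inv_zpow, ← div_eq_mul_inv, one_lt_div hqm]
    calc (q : ℝ) ^ (m + 1) = q * q ^ m := by rw [zpow_add₀ hq0.ne', zpow_one, mul_comm]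
      _ < q * s ^ n := by gcongr
      _ < t ^ n := hn'
  exact absurd (dec_mem_of_mem q hσ h1) (not_le.2 h2)

/-- (i) elements of the decomposition group of `padicPlace q` preserve the `q`-adic norm -/
theorem dec_norm_eq {σ : GQ} (hσ : σ ∈ (padicPlace q).decompositionSubgroup ℚ)
    (x : AlgebraicClosure ℚ) : ‖padicEmbedding q (σ x)‖ = ‖padicEmbedding q x‖ := by
  refine le_antisymm (dec_norm_le q hσ x) ?_
  have h := dec_norm_le q (Subgroup.inv_mem _ hσ) (σ x)
  have hinv : σ⁻¹ (σ x) = x := by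
    show (σ⁻¹ * σ) x = x
    rw [inv_mul_cancel]; rfl
  rwa [hinv] at h


/-- crude bound for the value of a polynomial with small coefficients -/
theorem dec_norm_aeval_le (h : ℚ_[q][X]) (N : ℕ) (hN : h.natDegree < N) (ε : ℝ)
    (hε : ∀ i, ‖h.coeff i‖ ≤ ε) (z : PadicAlgCl q) :
    ‖aeval z h‖ ≤ ε * ∑ i ∈ Finset.range N, ‖z‖ ^ i := by
  rw [aeval_eq_sum_range' hN, Finset.mul_sum]
  refine (norm_sum_le _ _).trans (Finset.sum_le_sum fun i _ => ?_)
  rw [norm_smul, norm_pow]
  exact mul_le_mul_of_nonneg_right (hε i) (pow_nonneg (norm_nonneg _) _)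

/-- `ι (σ (P(α))) = P(ι (σ α))` for a rational polynomial `P` -/
theorem dec_embedding_aeval' (β : AlgebraicClosure ℚ) (g : ℚ[X]) :
    padicEmbedding q (aeval β g) =
      aeval (padicEmbedding q β) (g.map (algebraMap ℚ ℚ_[q])) := by
  rw [aeval_map_algebraMap, aeval_algHom_apply]

/-- `ι (σ (P(α))) = P(ι (σ α))` for a rational polynomial `P` -/
theorem dec_embedding_aeval (σ : GQ) (α : AlgebraicClosure ℚ) (g : ℚ[X]) :
    padicEmbedding q (σ (aeval α g)) =
      aeval (padicEmbedding q (σ α)) (g.map (algebraMap ℚ ℚ_[q])) := by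
  have h1 : σ (aeval α g) = aeval (σ α) g := (aeval_algHom_apply σ α g).symm
  rw [h1, dec_embedding_aeval']

/-- (ii) a polynomial over `ℚ_q` killing `ι α` kills `ι (σ α)` for `σ` in the decomposition
group. -/
theorem dec_aeval_eq_zero {σ : GQ} (hσ : σ ∈ (padicPlace q).decompositionSubgroup ℚ)
    (α : AlgebraicClosure ℚ) (f : ℚ_[q][X]) (hf : f.Monic)
    (hα : aeval (padicEmbedding q α) f = 0) : aeval (padicEmbedding q (σ α)) f = 0 := by
  by_contra hne
  set u : PadicAlgCl q := padicEmbedding q α with hu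
  set u' : PadicAlgCl q := padicEmbedding q (σ α) with hu'
  have huu' : ‖u'‖ = ‖u‖ := dec_norm_eq q hσ α
  set N : ℕ := f.natDegree + 1 with hN
  set C : ℝ := ∑ i ∈ Finset.range N, ‖u‖ ^ i with hC
  have hC1 : 1 ≤ C := by
    have h0 : (0 : ℕ) ∈ Finset.range N := Finset.mem_range.2 (Nat.succ_pos _)
    have := Finset.single_le_sum (f := fun i => ‖u‖ ^ i)
      (fun i _ => pow_nonneg (norm_nonneg u) i) h0
    simpa using this
  have hC0 : 0 < C := lt_of_lt_of_le zero_lt_one hC1
  set ε₀ : ℝ := ‖aeval u' f‖ with hε₀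
  have hε₀pos : 0 < ε₀ := norm_pos_iff.2 hne
  set ε : ℝ := ε₀ / (3 * C) with hε
  have hεpos : 0 < ε := div_pos hε₀pos (by positivity)
  obtain ⟨g, -, hdeg, hcoeff⟩ :=
    exists_monic_and_natDegree_eq_and_norm_map_algebraMap_coeff_sub_lt
      (Padic.denseRange_ratCast q) hf hεpos
  set G : ℚ_[q][X] := g.map (algebraMap ℚ ℚ_[q]) with hG
  set h : ℚ_[q][X] := G - f with hh
  have hhdeg : h.natDegree < N := by
    refine lt_of_le_of_lt (natDegree_sub_le _ _) ?_
    rw [hN, Nat.lt_succ_iff, hG, natDegree_map, ← hdeg, max_self]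
  have hhcoeff : ∀ i, ‖h.coeff i‖ ≤ ε := fun i => by
    rw [hh, coeff_sub]; exact (hcoeff i).le
  -- value of `G` at `u`
  have hGu : ‖aeval u G‖ ≤ ε * C := by
    have : aeval u G = aeval u h := by rw [hh, map_sub, hα, sub_zero]
    rw [this]
    exact dec_norm_aeval_le q h N hhdeg ε hhcoeff u
  -- value of `G` at `u'`
  have hGu' : ‖aeval u' G‖ ≤ ε * C := by
    have h1 : aeval u' G = padicEmbedding q (σ (aeval α g)) := (dec_embedding_aeval q σ α g).symm
    have h2 : aeval u G = padicEmbedding q (aeval α g) := (dec_embedding_aeval' q α g).symm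
    rw [h1, dec_norm_eq q hσ, ← h2]
    exact hGu
  have hhu' : ‖aeval u' h‖ ≤ ε * C := by
    have := dec_norm_aeval_le q h N hhdeg ε hhcoeff u'
    rwa [huu'] at this
  have hfinal : ε₀ ≤ ε * C + ε * C := by
    have : aeval u' f = aeval u' G - aeval u' h := by rw [hh, map_sub]; ring
    rw [hε₀, this]
    exact (norm_sub_le _ _).trans (add_le_add hGu' hhu')
  have hεC : ε * C = ε₀ / 3 := by
    rw [hε]; field_simp
  rw [hεC] at hfinal
  linarith

end

/-- **B-dec** -/
theorem stmtDecomp : StmtDecomp := by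
  intro q _ L hfd hgal σ hσ
  obtain ⟨α, hα⟩ := Field.exists_primitive_element ℚ L
  set a : AlgebraicClosure ℚ := (α : AlgebraicClosure ℚ) with ha
  set u : PadicAlgCl q := padicEmbedding q a with hu
  set u' : PadicAlgCl q := padicEmbedding q (σ a) with hu'
  have hint : IsIntegral ℚ_[q] u := ((PadicAlgCl.isAlgebraic q).isAlgebraic u).isIntegral
  have hroot : aeval u' (minpoly ℚ_[q] u) = 0 :=
    dec_aeval_eq_zero q hσ a _ (minpoly.monic hint) (minpoly.aeval _ _)
  have hconj : IsConjRoot ℚ_[q] u u' := isConjRoot_of_aeval_eq_zero hint hroot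
  obtain ⟨τ, hτ⟩ := isConjRoot_iff_exists_algEquiv.mp hconj.symm
  refine ⟨τ, fun x hx => ?_⟩
  have hxmem : (⟨x, hx⟩ : L) ∈ ℚ⟮α⟯ := by rw [hα]; trivial
  rw [IntermediateField.mem_adjoin_simple_iff] at hxmem
  obtain ⟨r, s, hrs⟩ := hxmem
  have hx' : x = aeval a r / aeval a s := by
    have h1 := congrArg L.val hrs
    rw [map_div₀, ← Polynomial.aeval_algHom_apply, ← Polynomial.aeval_algHom_apply] at h1
    exact h1
  have hτr : ∀ P : ℚ[X], τ (padicEmbedding q (aeval a P)) = padicEmbedding q (σ (aeval a P)) := by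
    intro P
    rw [dec_embedding_aeval' q a P, dec_embedding_aeval q σ a P, ← aeval_algHom_apply, hτ]
  apply (padicEmbedding q).toRingHom.injective
  show padicEmbedding q (localGaloisToGlobal q τ x) = padicEmbedding q (σ x)
  rw [padicEmbedding_localGaloisToGlobal, hx', map_div₀, map_div₀, map_div₀, map_div₀, hτr, hτr]

end Fermat.Agent.PT.B
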