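import Fermat.Agent.PT.B.CycloField
import Fermat.Agent.PT.B.NormalClosure

/-!
# PT-B, piece B-dual: the dual twist `M*(1)` is again trivial on `Gal(ℚ̄/L')` for a field `L'` of
the tower `𝓕_S` (take `L' = L·ℚ(μ_p)`).

* `isTowerField_bot` : `ℚ` is in the tower (composita: `isTowerField_sup` in NormalClosure.lean);
* `dualTwist_ρ_eq_one` : if `ρ_M(s) = ρ_M(s⁻¹) = 1` and `χ(s) = 1` then `ρ_{M*(χ)}(s) = 1`;
* `stmtDualTwist : StmtDualTwist`.
-/

set_option autoImplicit false

namespace Fermat.Agent.PT.B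

open ExtCitation IntermediateField

/-- The tower `𝓕_S` contains `ℚ`. -/
theorem isTowerField_bot (S : Finset Nat.Primes) : IsTowerField S (⊥ : QbarField) :=
  ⟨IntermediateField.isUnramifiedOutside_bot S, isGalois_bot⟩

theorem dualTwist_ρ_eq_one {k : Type} [Field k] {G : Type} [Group G] (M : Rep.{0, 0, 0} k G)
    (χ : G →* kˣ) {s : G} (h1 : M.ρ s⁻¹ = 1) (h2 : χ s = 1) : (M.dualTwist χ).ρ s = 1 := by
  apply LinearMap.ext
  intro f
  rw [Rep.dualTwist_ρ_apply, h1, h2]
  simp
  rfl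

theorem stmtDualTwist : StmtDualTwist := by
  intro p _ S hpS M _ L hL hM
  refine ⟨L ⊔ cycloField p, le_sup_left, isTowerField_sup hL (cycloField_isTowerField p S hpS),
    ?_, ?_⟩
  · intro s hs
    rw [IntermediateField.fixingSubgroup_sup] at hs
    exact (cycloChar_eq_one_iff p s).mpr hs.2
  · intro s hs
    rw [IntermediateField.fixingSubgroup_sup] at hs
    exact dualTwist_ρ_eq_one M (cycloChar p) (hM s⁻¹ (inv_mem hs.1))
      ((cycloChar_eq_one_iff p s).mpr hs.2)

end Fermat.Agent.PT.B
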