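/-
PT-B, piece B-jdiv (helper48): `J_v = ℚ̄_qˣ` is `p`-divisible (`PadicAlgCl q` is algebraically
closed).
-/
import Fermat.Agent.PT.B.Plan3

set_option autoImplicit false

namespace Fermat.Agent.PT.B

open Fermat.Agent.PT

/-- the units of an algebraically closed field are divisible -/
theorem jdiv_exists_pow {K : Type} [Field K] [IsAlgClosed K] (n : ℕ) (hn : 0 < n) (x : Kˣ) :
    ∃ y : Kˣ, y ^ n = x := by
  obtain ⟨z, hz⟩ := IsAlgClosed.exists_pow_nat_eq (x : K) hn
  have hz0 : z ≠ 0 := by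
    rintro rfl
    rw [zero_pow hn.ne'] at hz
    exact x.ne_zero hz.symm
  refine ⟨Units.mk0 z hz0, ?_⟩
  apply Units.ext
  simpa using hz

/-- **B-jdiv** = the datum axiom `J_div`. -/
theorem stmtJDiv : StmtJDiv := by
  intro p hp q _ x
  obtain ⟨y, hy⟩ := jdiv_exists_pow (K := PadicAlgCl q) p hp.out.pos (Additive.toMul x)
  exact ⟨Additive.ofMul y, by
    show Additive.ofMul (y ^ p) = x
    rw [hy]
    rfl⟩

end Fermat.Agent.PT.B
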