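/-
PT-B, piece B-ediv (helper48): the `S`-units `E_S` of `ℚ_S` are `p`-divisible (`p ∈ S`).
A `p`-th root `w` of an `S`-unit `α ∈ F` generates an extension `F(w)` unramified outside `S`
(PT-X `isUnramifiedOutside_adjoin_root` with `β = 1`, `u = α`), and `v(w)^p = v(α) = 1` forces
`v(w) = 1` at every place over a prime outside `S`.
-/
import Fermat.Agent.PT.B.Plan3
import Fermat.Agent.PT.B.JDiv
import Fermat.Agent.PT.X.KummerUnram

set_option autoImplicit false

namespace Fermat.Agent.PT.B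

open Fermat.Agent.PT ExtCitation

/-- a `p`-th root of a unit of a valuation ring is a unit -/
theorem ediv_mem_unitGroup {K : Type} [Field K] (A : ValuationSubring K) (n : ℕ) (hn : n ≠ 0)
    (w x : Kˣ) (hw : w ^ n = x) (hx : x ∈ A.unitGroup) : w ∈ A.unitGroup := by
  rw [ValuationSubring.mem_unitGroup_iff] at hx ⊢
  have h1 : A.valuation (w : K) ^ n = 1 := by
    rw [← map_pow, ← Units.val_pow_eq_pow_val, hw, hx]
  rcases pow_eq_one_iff.1 h1 with h | h
  · exact h
  · exact absurd h hn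

/-- **B-ediv** = the datum axiom `E_div`. -/
theorem stmtEDiv : StmtEDiv := by
  intro p hp S hpS e
  obtain ⟨⟨F, hF, hxF⟩, hunit⟩ := (Additive.toMul e).2
  obtain ⟨w, hw⟩ := jdiv_exists_pow (K := AlgebraicClosure ℚ) p hp.out.pos
    ((Additive.toMul e : ↥(unitsS S)) : (AlgebraicClosure ℚ)ˣ)
  have hw' : (w : AlgebraicClosure ℚ) ^ ((pPrime p : Nat.Primes) : ℕ) =
      (((Additive.toMul e : ↥(unitsS S)) : (AlgebraicClosure ℚ)ˣ) : AlgebraicClosure ℚ) := by
    rw [← hw]
    rfl
  have hwS : w ∈ unitsS S := by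
    refine ⟨⟨F ⊔ IntermediateField.adjoin ℚ {(w : AlgebraicClosure ℚ)},
      Fermat.Agent.PT.X.isUnramifiedOutside_adjoin_root S (pPrime p) hpS F hF _ _ hw' ?_,
      (le_sup_right : IntermediateField.adjoin ℚ {(w : AlgebraicClosure ℚ)} ≤ _)
        (IntermediateField.mem_adjoin_simple_self ℚ _)⟩, ?_⟩
    · intro q hq A hA
      have h1 := hunit q hq A hA
      refine ⟨1, _, one_mem _, hxF, ?_, ?_, by rw [one_pow, mul_one]; rfl⟩
      · exact ((mem_unitGroup_iff_mem_and_inv_mem A _).1 h1).1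
      · intro hnon
        rw [ValuationSubring.mem_nonunits_iff] at hnon
        rw [ValuationSubring.mem_unitGroup_iff] at h1
        rw [h1] at hnon
        exact lt_irrefl _ hnon
    · intro q hq A hA
      exact ediv_mem_unitGroup A p hp.out.ne_zero w _ hw (hunit q hq A hA)
  refine ⟨Additive.ofMul ⟨w, hwS⟩, ?_⟩
  show Additive.ofMul ((⟨w, hwS⟩ : ↥(unitsS S)) ^ p) = e
  have : ((⟨w, hwS⟩ : ↥(unitsS S)) ^ p) = Additive.toMul e := by
    apply Subtype.ext
    exact hw
  rw [this]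
  rfl

end Fermat.Agent.PT.B
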