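/-
PT-B, piece B-kras (Krasner): the fields `F_q = ℚ_q·ι(F)`, `F/ℚ` finite Galois inside `ℚ̄`, are
cofinal among the finite extensions of `ℚ_q` inside `ℚ̄_q`.
-/
import Fermat.Agent.PT.B.Plan

set_option autoImplicit false

namespace Fermat.Agent.PT.B

open Polynomial IntermediateField

section

variable (q : ℕ) [Fact q.Prime]

/-- Every element of `ℚ̄_q` lies in `ℚ_q(b)` for some `b` which is a root of a monic
polynomial with rational coefficients (Krasner's lemma + density of `ℚ` in `ℚ_q`). -/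
theorem kras_exists_rat_root (a : PadicAlgCl q) :
    ∃ (g : ℚ[X]) (b : PadicAlgCl q), g.Monic ∧ aeval b g = 0 ∧ a ∈ ℚ_[q]⟮b⟯ := by
  have hint : IsIntegral ℚ_[q] a := (PadicAlgCl.isAlgebraic q).isAlgebraic a |>.isIntegral
  set f : ℚ_[q][X] := minpoly ℚ_[q] a with hf
  have fmon : f.Monic := minpoly.monic hint
  have firr : Irreducible f := minpoly.irreducible hint
  have fa0 : f.aeval a = 0 := minpoly.aeval _ _
  have fnatdeg0 : f.natDegree ≠ 0 := (Irreducible.natDegree_pos firr).ne'
  classical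
  let S : Finset (PadicAlgCl q) := {x ∈ (f.rootSet (PadicAlgCl q)).toFinset | x ≠ a}
  let δ : ℝ := if hS : S.Nonempty then Finset.min' (S.image fun x => ‖a - x‖)
      (Finset.image_nonempty.mpr hS) else 1
  have norm_sub_le : ∀ a' : PadicAlgCl q, IsConjRoot ℚ_[q] a a' → a ≠ a' → δ ≤ ‖a - a'‖ := by
    intro a' conj ne
    by_cases hS : S.Nonempty <;> simp only [hS, ↓reduceDIte, δ]
    · apply Finset.min'_le (S.image fun x => ‖a - x‖) (‖a - a'‖)
      apply Finset.mem_image_of_mem
      simp only [Finset.mem_filter, Set.mem_toFinset, S]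
      rw [hf, ← (isConjRoot_iff_mem_minpoly_rootSet hint)]
      exact ⟨conj, ne.symm⟩
    · simp only [ne_eq, Finset.not_nonempty_iff_eq_empty, Finset.filter_eq_empty_iff,
      Set.mem_toFinset, not_not, S] at hS
      rw [isConjRoot_iff_mem_minpoly_rootSet hint] at conj
      exact (ne (hS conj).symm).elim
  have δpos : δ > 0 := by
    by_cases hS : S.Nonempty <;> simp only [hS, ↓reduceDIte, δ]
    · simp only [gt_iff_lt, Finset.lt_min'_iff, Finset.mem_image, forall_exists_index, and_imp,
        forall_apply_eq_imp_iff₂]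
      rintro a' ha'
      simp only [Finset.mem_filter, Set.mem_toFinset, S] at ha'
      rw [norm_pos_iff, sub_ne_zero]
      exact ha'.2.symm
    · linarith
  have hε : (δ / (max ‖a‖ 1)) ^ f.natDegree / (f.natDegree + 1) > 0 := by positivity
  have hi : DenseRange (algebraMap ℚ ℚ_[q]) := Padic.denseRange_ratCast q
  obtain ⟨g, gmon, gdeg, gcoeff⟩ :=
    exists_monic_and_natDegree_eq_and_norm_map_algebraMap_coeff_sub_lt hi fmon hε
  obtain ⟨b, hb, hab⟩ := exists_aroots_norm_sub_lt_of_norm_coeff_sub_lt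
      (L := PadicAlgCl q) hε fa0 fmon (gmon.map _) (gdeg ▸ (g.natDegree_map _)) gcoeff
      (IsAlgClosed.splits _)
  have hab : ‖a - b‖ < δ := by
    rw [← Real.rpow_natCast, ← mul_comm_div, div_self, one_mul,
        ← Real.rpow_mul (div_pos δpos (by positivity)).le, mul_inv_cancel₀] at hab
    · simpa [mul_assoc, div_mul_cancel₀ _ (by positivity : (max ‖a‖ 1) > 0).ne'] using hab
    · simp [fnatdeg0]
    · positivity
  simp only [Polynomial.mem_roots', ne_eq, Polynomial.map_eq_zero, Polynomial.IsRoot.def,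
    Polynomial.eval_map_algebraMap] at hb
  have hgb : aeval b g = 0 := by
    have := hb.2
    rwa [Polynomial.aeval_map_algebraMap] at this
  refine ⟨g, b, gmon, hgb, ?_⟩
  have masp : ((minpoly ℚ_[q] a).map (algebraMap ℚ_[q] (PadicAlgCl q))).Splits :=
    IsAlgClosed.splits _
  exact IsKrasner.krasner (minpoly.irreducible hint).separable
      masp ⟨(g.map _), gmon.map _, hb.2⟩ fun a' h1 h2 ↦ lt_of_lt_of_le hab (norm_sub_le a' h1 h2)

/-- A root in `ℚ̄_q` of a nonzero rational polynomial comes from `ℚ̄`. -/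
theorem kras_root_mem_range (g : ℚ[X]) (hg : g ≠ 0) (b : PadicAlgCl q) (hb : aeval b g = 0) :
    ∃ b₀ : AlgebraicClosure ℚ, aeval b₀ g = 0 ∧ padicEmbedding q b₀ = b := by
  have hsplit : (g.map (algebraMap ℚ (AlgebraicClosure ℚ))).Splits := IsAlgClosed.splits _
  have hmap : (g.map (algebraMap ℚ (AlgebraicClosure ℚ))).map (padicEmbedding q).toRingHom =
      g.map (algebraMap ℚ (PadicAlgCl q)) := by
    rw [Polynomial.map_map]
    congr 1
    exact (padicEmbedding q).comp_algebraMap
  have hroots := hsplit.roots_map (padicEmbedding q).toRingHom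
  rw [hmap] at hroots
  have hbmem : b ∈ (g.map (algebraMap ℚ (PadicAlgCl q))).roots := by
    rw [Polynomial.mem_roots']
    refine ⟨?_, ?_⟩
    · rw [Ne, Polynomial.map_eq_zero]
      exact hg
    · rw [Polynomial.IsRoot.def, Polynomial.eval_map_algebraMap]
      exact hb
  rw [hroots, Multiset.mem_map] at hbmem
  obtain ⟨b₀, hb₀, hb₀b⟩ := hbmem
  refine ⟨b₀, ?_, hb₀b⟩
  rw [Polynomial.mem_roots', Polynomial.IsRoot.def, Polynomial.eval_map_algebraMap] at hb₀
  exact hb₀.2

end

/-- **B-kras** -/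
theorem stmtKrasner : StmtKrasner := by
  intro q _ K' hfin
  obtain ⟨α, hα⟩ := Field.exists_primitive_element ℚ_[q] K'
  set a : PadicAlgCl q := (α : PadicAlgCl q) with ha
  have hK' : K' = ℚ_[q]⟮a⟯ := by
    have h1 : (ℚ_[q]⟮α⟯).map K'.val = ℚ_[q]⟮a⟯ := by
      rw [IntermediateField.adjoin_map]
      simp [ha]
    rw [hα] at h1
    rw [← h1, ← AlgHom.fieldRange_eq_map, IntermediateField.fieldRange_val]
  obtain ⟨g, b, gmon, hgb, hab⟩ := kras_exists_rat_root q a
  obtain ⟨b₀, hb₀, hb₀b⟩ := kras_root_mem_range q g gmon.ne_zero b hgb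
  have hsplit : (g.map (algebraMap ℚ (AlgebraicClosure ℚ))).Splits := IsAlgClosed.splits _
  let F : QbarField := IntermediateField.adjoin ℚ (g.rootSet (AlgebraicClosure ℚ))
  have hsf : g.IsSplittingField ℚ F := IntermediateField.adjoin_rootSet_isSplittingField hsplit
  have hfd : FiniteDimensional ℚ F := Polynomial.IsSplittingField.finiteDimensional F g
  have hnormal : Normal ℚ F := Normal.of_isSplittingField g
  refine ⟨F, hfd, ⟨⟩, ?_⟩
  have hb₀F : b₀ ∈ F := by
    apply IntermediateField.subset_adjoin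
    rw [Polynomial.mem_rootSet]
    exact ⟨gmon.ne_zero, hb₀⟩
  have hbloc : b ∈ localField q F := by
    apply IntermediateField.subset_adjoin
    exact ⟨b₀, hb₀F, hb₀b⟩
  have h2 : ℚ_[q]⟮b⟯ ≤ localField q F := by
    rw [IntermediateField.adjoin_simple_le_iff]
    exact hbloc
  rw [hK', IntermediateField.adjoin_simple_le_iff]
  exact h2 hab

end Fermat.Agent.PT.B
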