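/-
PT-B, piece B-jdisc (helper61): `stmtJlocDiscrete : StmtJlocDiscrete` — every element of
`ℚ̄_qˣ` is fixed by a level of the local tower (Krasner + the local-level dictionary).
-/
import Fermat.Agent.PT.B.Plan3
import Fermat.Agent.PT.B.Krasner
import Fermat.Agent.PT.B.LocalLevel

set_option autoImplicit false

namespace Fermat.Agent.PT.B

/-- Every element of `ℚ̄_q` lies in `F_q` for some finite Galois `F/ℚ`. -/
theorem jdisc_exists_field (q : ℕ) [Fact q.Prime] (x : PadicAlgCl q) :
    ∃ F : QbarField, FiniteDimensional ℚ F ∧ IsGalois ℚ F ∧ x ∈ localField q F := by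
  have hx : IsIntegral ℚ_[q] x := (Algebra.IsAlgebraic.isAlgebraic (R := ℚ_[q]) x).isIntegral
  have : FiniteDimensional ℚ_[q] (IntermediateField.adjoin ℚ_[q] {x}) :=
    IntermediateField.adjoin.finiteDimensional hx
  obtain ⟨F, hF, hG, hle⟩ := stmtKrasner q (IntermediateField.adjoin ℚ_[q] {x}) inferInstance
  exact ⟨F, hF, hG, hle (IntermediateField.mem_adjoin_simple_self ℚ_[q] x)⟩

/-- **B-jdisc** -/
theorem stmtJlocDiscrete : StmtJlocDiscrete := by
  intro q _ x
  let u : (PadicAlgCl q)ˣ := Additive.toMul (show Additive (PadicAlgCl q)ˣ from x)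
  obtain ⟨F, hF, -, hxF⟩ := jdisc_exists_field q (u : PadicAlgCl q)
  refine ⟨F.fixingSubgroup.comap (localGaloisToGlobal q), ⟨F, hF, rfl⟩, fun s hs => ?_⟩
  have hs' : s ∈ (localField q F).fixingSubgroup := (stmtLocalLevel q F s).1 hs
  have hfix : s (u : PadicAlgCl q) = (u : PadicAlgCl q) :=
    (IntermediateField.mem_fixingSubgroup_iff _ _).1 hs' _ hxF
  have hu : s • u = u := Units.ext hfix
  show Additive.ofMul (s • u) = Additive.ofMul u
  rw [hu]

end Fermat.Agent.PT.B
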