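/-
PT-B, piece B-zeta: the primitive `p`-th root of unity `ζ ∈ E_S` (`p ∈ S`) and the datum axioms
`ζ_ne`, `ζ_tors`, `ζ_gen`, `ζ_char`, `J_tors` for the concrete datum of `Concrete.lean`.
-/
import Fermat.Agent.PT.B.Concrete
import Fermat.Agent.PT.B.CycloField

set_option autoImplicit false
set_option linter.style.haveILetI false

noncomputable section

namespace Fermat.Agent.PT.B

open Fermat.Agent.PT CategoryTheory groupCohomology ExtCitation
open scoped Pointwise

variable (p : ℕ) [Fact p.Prime]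

/-- a primitive `p`-th root of unity in `ℚ̄` -/
def zetaQbar : AlgebraicClosure ℚ :=
  haveI : NeZero p := ⟨(Fact.out : p.Prime).ne_zero⟩
  Classical.choose (cycloField_exists_primitiveRoot p)

theorem zetaQbar_spec : IsPrimitiveRoot (zetaQbar p) p :=
  haveI : NeZero p := ⟨(Fact.out : p.Prime).ne_zero⟩
  Classical.choose_spec (cycloField_exists_primitiveRoot p)

/-- `ζ` as a unit of `ℚ̄` -/
def zetaUnit : (AlgebraicClosure ℚ)ˣ :=
  ((zetaQbar_spec p).isUnit (Fact.out : p.Prime).ne_zero).unit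

@[simp] theorem coe_zetaUnit : ((zetaUnit p : (AlgebraicClosure ℚ)ˣ) : AlgebraicClosure ℚ) =
    zetaQbar p := rfl

theorem zetaUnit_pow : zetaUnit p ^ p = 1 :=
  Units.ext (by simpa using (zetaQbar_spec p).pow_eq_one)

theorem zetaUnit_ne_one : zetaUnit p ≠ 1 := fun h =>
  (zetaQbar_spec p).ne_one (Fact.out : p.Prime).one_lt (by simpa using congrArg Units.val h)

/-- an element of finite order is a unit of every valuation subring -/
theorem mem_unitGroup_of_pow_eq_one {K : Type*} [Field K] (A : ValuationSubring K) (x : Kˣ)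
    (n : ℕ) (hn : n ≠ 0) (h : x ^ n = 1) : x ∈ A.unitGroup := by
  rw [ValuationSubring.mem_unitGroup_iff]
  have h1 : (A.valuation (x : K)) ^ n = 1 := by
    rw [← map_pow, ← Units.val_pow_eq_pow_val, h, Units.val_one, map_one]
  exact (pow_eq_one_iff.1 h1).resolve_right hn

theorem zetaUnit_mem (S : Finset Nat.Primes) (hpS : pPrime p ∈ S) : zetaUnit p ∈ unitsS S :=
  ⟨⟨cycloField p, cycloField_isUnramifiedOutside p S hpS,
      IntermediateField.subset_adjoin ℚ _ (zetaQbar_spec p).pow_eq_one⟩,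
    fun _ _ A _ => mem_unitGroup_of_pow_eq_one A _ p (Fact.out : p.Prime).ne_zero (zetaUnit_pow p)⟩

/-- **`ζ ∈ E_S`** (written additively). -/
def zetaE (S : Finset Nat.Primes) (hpS : pPrime p ∈ S) : (ERep S).V :=
  Additive.ofMul (⟨zetaUnit p, zetaUnit_mem p S hpS⟩ : ↥(unitsS S))

variable (S : Finset Nat.Primes) (hpS : pPrime p ∈ S)

theorem zetaE_ne : zetaE p S hpS ≠ 0 := fun h =>
  zetaUnit_ne_one p (congrArg (fun e : Additive ↥(unitsS S) =>
    ((Additive.toMul e : ↥(unitsS S)) : (AlgebraicClosure ℚ)ˣ)) h)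

theorem zetaE_tors : p • zetaE p S hpS = 0 :=
  congrArg Additive.ofMul (Subtype.ext (zetaUnit_pow p) :
    (⟨zetaUnit p, zetaUnit_mem p S hpS⟩ : ↥(unitsS S)) ^ p = 1)

theorem zetaE_gen (e : (ERep S).V) (he : p • e = 0) : ∃ n : ℕ, e = n • zetaE p S hpS := by
  have h1 : ((Additive.toMul (e : Additive ↥(unitsS S)) : ↥(unitsS S)) :
      (AlgebraicClosure ℚ)ˣ) ^ p = 1 :=
    congrArg (fun e : Additive ↥(unitsS S) =>
      ((Additive.toMul e : ↥(unitsS S)) : (AlgebraicClosure ℚ)ˣ)) he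
  have h2 : (((Additive.toMul (e : Additive ↥(unitsS S)) : ↥(unitsS S)) :
      (AlgebraicClosure ℚ)ˣ) : AlgebraicClosure ℚ) ^ p = 1 := by
    rw [← Units.val_pow_eq_pow_val, h1, Units.val_one]
  obtain ⟨n, -, hn⟩ := (zetaQbar_spec p).eq_pow_of_pow_eq_one h2
  refine ⟨n, ?_⟩
  have h3 : (Additive.toMul (e : Additive ↥(unitsS S)) : ↥(unitsS S)) =
      (⟨zetaUnit p, zetaUnit_mem p S hpS⟩ : ↥(unitsS S)) ^ n :=
    Subtype.ext (Units.ext (by simpa using hn.symm))
  exact congrArg Additive.ofMul h3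

theorem zetaE_char (g : GQ) :
    (ERep S).ρ g (zetaE p S hpS) = ((cycloChar p g : ZMod p).val) • zetaE p S hpS := by
  haveI : NeZero p := ⟨(Fact.out : p.Prime).ne_zero⟩
  have hmem : zetaUnit p ∈ rootsOfUnity p (AlgebraicClosure ℚ) :=
    (mem_rootsOfUnity p _).2 (zetaUnit_pow p)
  have key := modularCyclotomicCharacter.spec (AlgebraicClosure ℚ) (card_rootsOfUnity_eq_self p)
    (g : AlgebraicClosure ℚ ≃+* AlgebraicClosure ℚ) hmem
  have h3 : g • (⟨zetaUnit p, zetaUnit_mem p S hpS⟩ : ↥(unitsS S)) =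
      (⟨zetaUnit p, zetaUnit_mem p S hpS⟩ : ↥(unitsS S)) ^ ((cycloChar p g : ZMod p).val) :=
    Subtype.ext (Units.ext (by
      have key' : g (zetaQbar p) = zetaQbar p ^ ((cycloChar p g : ZMod p).val) := key
      simpa using key'))
  exact congrArg Additive.ofMul h3

/-- `J_tors` for `JlocQ`: the `p`-torsion of `ℚ̄_qˣ` is generated by the image of `ζ`. -/
theorem jlocQ_tors (q : ℕ) [Fact q.Prime] (x : (JlocQ q).V) (hx : p • x = 0) :
    ∃ n : ℕ, x = n • (jLocQ S q).hom (zetaE p S hpS) := by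
  have hprim : IsPrimitiveRoot (padicEmbedding q (zetaQbar p)) p :=
    (zetaQbar_spec p).map_of_injective (padicEmbedding q).injective
  have h1 : (Additive.toMul (x : Additive (PadicAlgCl q)ˣ) : (PadicAlgCl q)ˣ) ^ p = 1 :=
    congrArg (fun e : Additive (PadicAlgCl q)ˣ => Additive.toMul e) hx
  have h2 : ((Additive.toMul (x : Additive (PadicAlgCl q)ˣ) : (PadicAlgCl q)ˣ) :
      PadicAlgCl q) ^ p = 1 := by
    rw [← Units.val_pow_eq_pow_val, h1, Units.val_one]
  obtain ⟨n, -, hn⟩ := hprim.eq_pow_of_pow_eq_one h2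
  refine ⟨n, ?_⟩
  have h3 : (Additive.toMul (x : Additive (PadicAlgCl q)ˣ) : (PadicAlgCl q)ˣ) =
      (jUnits q (zetaUnit p)) ^ n :=
    Units.ext (by simpa using hn.symm)
  exact congrArg Additive.ofMul h3

end Fermat.Agent.PT.B

end
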