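/-
PT-B, piece **B-inst**: the concrete Poitou–Tate datum for `(p, S)` (NOTES/PT-instance.md) and
S55 from the five hard axioms `StmtCmGlob`, `StmtCmLoc`, `StmtH90Loc`, `StmtExistC`, `StmtSurvC`
(PT/B/Plan3.lean, Plan4.lean), the abstract theorem `StmtPTF` and the mirror `stmtMirror`.
-/
import Fermat.Agent.PT.B.Plan4
import Fermat.Agent.PT.B.Zeta
import Fermat.Agent.PT.B.EDiv
import Fermat.Agent.PT.B.JDiv
import Fermat.Agent.PT.B.JDisc
import Fermat.Agent.PT.B.Mirror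
import Fermat.Agent.PT.B.Compare1

set_option autoImplicit false
set_option linter.style.haveILetI false

noncomputable section

namespace Fermat.Agent.PT.B

open Fermat.Agent.PT CategoryTheory groupCohomology ExtCitation
open scoped Pointwise

/-- **The concrete datum** for `(p, S)`, `p ∈ S` odd, given the five hard axioms. -/
def concreteDatum (p : ℕ) [Fact p.Prime] (hp2 : p ≠ 2) (S : Finset Nat.Primes)
    (hpS : pPrime p ∈ S) (hcg : StmtCmGlob) (hcl : StmtCmLoc) (hh : StmtH90Loc)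
    (hex : StmtExistC) (hsv : StmtSurvC) : PTDatum p GQ ↥S (GlocS S) where
  𝒯 := towerS S
  r := rS S
  𝒯loc := towerLocS S
  comap_mem := fun v U hU =>
    letI : Fact ((v : Nat.Primes) : ℕ).Prime := ⟨(v : Nat.Primes).2⟩
    comap_mem_towerLoc S ((v : Nat.Primes) : ℕ) U hU
  χ := cycloChar p
  χ_level := by
    obtain ⟨L, hL, h⟩ := stmtCycloField p S hpS
    exact ⟨L.fixingSubgroup, ⟨L, hL.1, rfl⟩, h⟩
  E := ERep S
  C := CRep S
  Jloc := JlocS S
  E_discrete := ERep_discrete S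
  C_discrete := CRep_discrete S
  Jloc_discrete := fun v x =>
    letI : Fact ((v : Nat.Primes) : ℕ).Prime := ⟨(v : Nat.Primes).2⟩
    stmtJlocDiscrete ((v : Nat.Primes) : ℕ) x
  j := jS S
  j_injective := fun v => jLocP_injective S v.1
  i := iDiag S
  i_apply := iDiag_apply S
  i_injective := iDiag_injective S ⟨_, hpS⟩
  π := piC S
  exact := piC_eq_zero_iff S
  π_surj := piC_surjective S
  ζ := zetaE p S hpS
  ζ_ne := zetaE_ne p S hpS
  ζ_tors := zetaE_tors p S hpS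
  ζ_gen := zetaE_gen p S hpS
  ζ_char := zetaE_char p S hpS
  E_div := stmtEDiv p S hpS
  J_div := fun v x =>
    letI : Fact ((v : Nat.Primes) : ℕ).Prime := ⟨(v : Nat.Primes).2⟩
    stmtJDiv p ((v : Nat.Primes) : ℕ) x
  J_tors := fun v x hx =>
    letI : Fact ((v : Nat.Primes) : ℕ).Prime := ⟨(v : Nat.Primes).2⟩
    jlocQ_tors p S hpS ((v : Nat.Primes) : ℕ) x hx
  cm_glob := fun U _ hU => hcg p hp2 S hpS U hU
  cm_loc := fun v V hn hV =>
    @hcl p _ ((v : Nat.Primes) : ℕ) ⟨(v : Nat.Primes).2⟩ V hn hV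
  h90_loc := fun v V hn hV =>
    @hh ((v : Nat.Primes) : ℕ) ⟨(v : Nat.Primes).2⟩ V hn hV
  exist := hex p hp2 S hpS
  surv := hsv p hp2 S hpS

theorem concreteDatum_isConcrete (p : ℕ) [Fact p.Prime] (hp2 : p ≠ 2) (S : Finset Nat.Primes)
    (hpS : pPrime p ∈ S) (hcg : StmtCmGlob) (hcl : StmtCmLoc) (hh : StmtH90Loc)
    (hex : StmtExistC) (hsv : StmtSurvC) :
    IsConcreteDatum p S (concreteDatum p hp2 S hpS hcg hcl hh hex hsv) :=
  ⟨rfl, fun _ => rfl, fun _ => rfl, rfl⟩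

/-- **S55 from the five hard axioms** (and the abstract Poitou–Tate theorem). -/
theorem s55_of (hF : StmtPTF) (hcg : StmtCmGlob) (hcl : StmtCmLoc) (hh : StmtH90Loc)
    (hex : StmtExistC) (hsv : StmtSurvC)
    {p : ℕ} [Fact p.Prime] (hp2 : p ≠ 2) (S : Finset Nat.Primes) (hpS : pPrime p ∈ S)
    (M : Rep (ZMod p) (AlgebraicClosure ℚ ≃ₐ[ℚ] AlgebraicClosure ℚ))
    [FiniteDimensional (ZMod p) M]
    (hsm : ∀ m : M, ∃ F : IntermediateField ℚ (AlgebraicClosure ℚ), FiniteDimensional ℚ F ∧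
      ∀ s ∈ F.fixingSubgroup, M.ρ s m = m)
    (hMur : ∀ q : Nat.Primes, q ∉ S → ∀ A : ValuationSubring (AlgebraicClosure ℚ),
      A.LiesOverPrime (q : ℕ) → ∀ g ∈ A.inertiaSubgroupIn ℚ, M.ρ g = 1) :
    ∃ B : sha₁ S (M.dualTwist (cycloChar p)) →ₗ[ZMod p] sha₂ S M →ₗ[ZMod p] ZMod p,
      (∀ y, (∀ x, B y x = 0) → y = 0) ∧ (∀ x, (∀ y, B y x = 0) → x = 0) :=
  stmtMirror hF p hp2 S hpS (concreteDatum p hp2 S hpS hcg hcl hh hex hsv)
    (concreteDatum_isConcrete p hp2 S hpS hcg hcl hh hex hsv) M hsm hMur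

end Fermat.Agent.PT.B

end
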