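/-
PT-B, FINAL WIRING: S55 (Poitou–Tate) from the three remaining campaign statements
`StmtGA`, `StmtGB` (PT-G3; shapes in PT/B/Plan4.lean) and `X.StmtExistTL` (PT-X).
Everything else (abstract theorem PT-F, local class field theory PT-L, the bridge PT-B,
capitulation PT-X) is landed and proved.
-/
import Fermat.Agent.PT.B.Instance
import Fermat.Agent.PT.B.CompareFinal
import Fermat.Agent.PT.B.CmGlob
import Fermat.Agent.PT.B.CmLoc
import Fermat.Agent.PT.B.H90Loc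
import Fermat.Agent.PT.B.TransportFund
import Fermat.Agent.PT.F.Final

set_option autoImplicit false

namespace Fermat.Agent.PT.B

open Fermat.Agent.PT CategoryTheory groupCohomology ExtCitation

/-- the datum axiom `cm_glob` from (GA) -/
theorem stmtCmGlob_of_GA (hGA : StmtGA) : StmtCmGlob :=
  stmtCmGlob_of hGA stmtRamRel stmtCompare stmtFundPIso

/-- **S55 from (GA), (GB) and `ExistTL`.** -/
theorem s55_of_GA_GB (hGA : StmtGA) (hGB : StmtGB) (hTL : Fermat.Agent.PT.X.StmtExistTL)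
    {p : ℕ} [Fact p.Prime] (hp2 : p ≠ 2) (S : Finset Nat.Primes) (hpS : pPrime p ∈ S)
    (M : Rep (ZMod p) (AlgebraicClosure ℚ ≃ₐ[ℚ] AlgebraicClosure ℚ))
    [FiniteDimensional (ZMod p) M]
    (hsm : ∀ m : M, ∃ F : IntermediateField ℚ (AlgebraicClosure ℚ), FiniteDimensional ℚ F ∧
      ∀ s ∈ F.fixingSubgroup, M.ρ s m = m)
    (hMur : ∀ q : Nat.Primes, q ∉ S → ∀ A : ValuationSubring (AlgebraicClosure ℚ),
      A.LiesOverPrime (q : ℕ) → ∀ g ∈ A.inertiaSubgroupIn ℚ, M.ρ g = 1) :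
    ∃ B : sha₁ S (M.dualTwist (cycloChar p)) →ₗ[ZMod p] sha₂ S M →ₗ[ZMod p] ZMod p,
      (∀ y, (∀ x, B y x = 0) → y = 0) ∧ (∀ x, (∀ y, B y x = 0) → x = 0) :=
  s55_of Fermat.Agent.PT.F.stmtPTF (stmtCmGlob_of_GA hGA) stmtCmLoc stmtH90Loc
    (stmtExistC_of_GA hGA hTL) (stmtSurvC_of_GB hGB) hp2 S hpS M hsm hMur

end Fermat.Agent.PT.B
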