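/-
PT-B, FINAL WIRING (2): S55 (Poitou–Tate) from the single remaining PT-GB statement
`G3.StmtSDShapiro`.  (GA) is `G3.stmtGA_B` (PT/G3/GAFinal.lean); (GB) is assembled here from
the landed PT-GB pieces (`G3.stmtGB_of`, PT/G3/GBFinal.lean).
-/
import Fermat.Agent.PT.B.Final
import Fermat.Agent.PT.X.ExistTLFinal
import Fermat.Agent.PT.G3.GAFinal
import Fermat.Agent.PT.G3.GBFinal
import Fermat.Agent.PT.G3.GBAsm
import Fermat.Agent.PT.G3.GBCycDec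
import Fermat.Agent.PT.G3.GBPsiPGen
import Fermat.Agent.PT.G3.GBCarryH
import Fermat.Agent.PT.G3.GBCarryKill
import Fermat.Agent.PT.G3.GBH90Semi
import Fermat.Agent.PT.G3.GBInfJ
import Fermat.Agent.PT.G3.GBSemiCyc
import Fermat.Agent.PT.G3.GBCarryNZ
import Fermat.Agent.PT.G3.GBPsi
import Fermat.Agent.PT.G3.GBSDProj
import Fermat.Agent.PT.G3.GBSDFund
import Fermat.Agent.PT.G3.GBSDGal
import Fermat.Agent.PT.G3.GBCycAbs

set_option autoImplicit false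

namespace Fermat.Agent.PT.B

open Fermat.Agent.PT CategoryTheory groupCohomology ExtCitation

/-- (GB) from the Shapiro step of the semilocal computation; every other PT-GB piece is
landed. -/
theorem stmtGB_of_sdShapiro (hsh : Fermat.Agent.PT.G3.StmtSDShapiro) : StmtGB :=
  Fermat.Agent.PT.G3.stmtGB_of Fermat.Agent.PT.G3.stmtGBAsm' Fermat.Agent.PT.G3.stmtCycDec
    Fermat.Agent.PT.G3.stmtPsiPGen Fermat.Agent.PT.G3.stmtPsiQNontriv
    Fermat.Agent.PT.G3.stmtCarryH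
    (Fermat.Agent.PT.G3.stmtSemiCarryKill_of Fermat.Agent.PT.G3.stmtSDProj hsh)
    Fermat.Agent.PT.G3.stmtH90Semi Fermat.Agent.PT.G3.stmtGBInfJ
    (Fermat.Agent.PT.G3.stmtSemiCycOneOf
      (Fermat.Agent.PT.G3.stmtSemiCyc_of Fermat.Agent.PT.G3.stmtSDProj hsh
        (Fermat.Agent.PT.G3.stmtSDFund_of Fermat.Agent.PT.G3.stmtSDGalois)
        Fermat.Agent.PT.G3.stmtPCyclicOfFund))
    (Fermat.Agent.PT.G3.stmtCarryNZ_of Fermat.Agent.PT.G3.stmtGBPsi)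
    Fermat.Agent.PT.G3.stmtGBPsi

/-- **S55 from `StmtSDShapiro`.** -/
theorem s55_of_sdShapiro (hsh : Fermat.Agent.PT.G3.StmtSDShapiro)
    {p : ℕ} [Fact p.Prime] (hp2 : p ≠ 2) (S : Finset Nat.Primes) (hpS : pPrime p ∈ S)
    (M : Rep (ZMod p) (AlgebraicClosure ℚ ≃ₐ[ℚ] AlgebraicClosure ℚ))
    [FiniteDimensional (ZMod p) M]
    (hsm : ∀ m : M, ∃ F : IntermediateField ℚ (AlgebraicClosure ℚ), FiniteDimensional ℚ F ∧
      ∀ s ∈ F.fixingSubgroup, M.ρ s m = m)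
    (hMur : ∀ q : Nat.Primes, q ∉ S → ∀ A : ValuationSubring (AlgebraicClosure ℚ),
      A.LiesOverPrime (q : ℕ) → ∀ g ∈ A.inertiaSubgroupIn ℚ, M.ρ g = 1) :
    ∃ B : sha₁ S (M.dualTwist (cycloChar p)) →ₗ[ZMod p] sha₂ S M →ₗ[ZMod p] ZMod p,
      (∀ y, (∀ x, B y x = 0) → y = 0) ∧ (∀ x, (∀ y, B y x = 0) → x = 0) :=
  s55_of_GA_GB Fermat.Agent.PT.G3.stmtGA_B (stmtGB_of_sdShapiro hsh)
    Fermat.Agent.PT.X.stmtExistTL hp2 S hpS M hsm hMur

end Fermat.Agent.PT.B
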