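/-
PT-B, piece I4 (helper48): Hilbert 90 for every subgroup of `Gal(F/K)`.
Immediate from `Fermat.Agent.PT.L.FC.h1_subsingleton` (PT/L/FundClass.lean): transport
`H¹(H, Res F^×) ≅ H¹(Gal(F/F^H), F^×)` and Mathlib's Hilbert 90.
-/
import Fermat.Agent.PT.B.Plan3
import Fermat.Agent.PT.L.FundClass

set_option autoImplicit false

namespace Fermat.Agent.PT.B

/-- **I4**: `H¹(H, Fˣ) = 0` for every subgroup `H` of `Gal(F/K)`. -/
theorem stmtH90Sub : StmtH90Sub := by
  intro K F _ _ _ _ _ H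
  exact Fermat.Agent.PT.L.FC.h1_subsingleton K F H

end Fermat.Agent.PT.B
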