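/-
PT-B, piece B-h90loc (helper11): the datum axiom `h90_loc` for `JlocQ q = ℚ̄_qˣ`.
`(G_{ℚ_q}/V, (ℚ̄_qˣ)^V) ≅ (Gal(K'/ℚ_q), K'ˣ)` (LocLevelField.lean), which satisfies Hilbert 90 for
all subgroups (`stmtH90Sub`); transport by `stmtH1Iso`.
-/
import Fermat.Agent.PT.B.LocLevelField
import Fermat.Agent.PT.B.H90Sub
import Fermat.Agent.PT.B.TransportH1

set_option autoImplicit false
set_option linter.style.haveILetI false

noncomputable section

namespace Fermat.Agent.PT.B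

open Fermat.Agent.PT CategoryTheory groupCohomology ExtCitation

/-- **B-h90loc**. -/
theorem stmtH90Loc : StmtH90Loc := by
  intro q _ V _ hV
  obtain ⟨K', hfin, hgal, hVK⟩ := cmLoc_exists_field q V hV
  subst hVK
  haveI := hfin
  haveI := hgal
  obtain ⟨e⟩ := cmLoc_pairIso q K'
  exact stmtH1Iso _ _ _ _ ⟨e⟩ (stmtH90Sub ℚ_[q] ↥K')

end Fermat.Agent.PT.B

end
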