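/-
PT-B piece B-ker: a finite-dimensional smooth representation of `G_ℚ`, unramified outside `S`,
is trivial on `Gal(ℚ̄/L)` for a finite Galois `L/ℚ` unramified outside `S`.

* `exists_finite_field_acting_trivially` : smooth + finite-dimensional ⇒ trivial on some `G_F`;
* `isTowerField_fixedField_of_normal`    : the fixed field of a normal subgroup `N ⊇ G_F`
  (`F` finite) containing all inertia groups outside `S` is a tower field with `G_L = N`;
* `stmtKernelField : StmtKernelField`.
-/
import Fermat.Agent.PT.B.Plan

set_option autoImplicit false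
set_option linter.style.haveILetI false

namespace Fermat.Agent.PT.B

open CategoryTheory

/-- The fixed field of a normal subgroup `N` of `G_ℚ` which contains `G_F` for a finite `F/ℚ`
and all inertia groups outside `S` is a tower field, and `Gal(ℚ̄/L) = N`. -/
theorem isTowerField_fixedField_of_normal (S : Finset Nat.Primes) (N : Subgroup GQ) [N.Normal]
    (F : QbarField) (hF : FiniteDimensional ℚ F) (hFN : F.fixingSubgroup ≤ N)
    (hI : ∀ q : Nat.Primes, q ∉ S → ∀ A : ValuationSubring (AlgebraicClosure ℚ),
      A.LiesOverPrime (q : ℕ) → A.inertiaSubgroupIn ℚ ≤ N) :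
    IsTowerField S (IntermediateField.fixedField N) ∧
      (IntermediateField.fixedField N).fixingSubgroup = N := by
  haveI : IsAlgClosure ℚ (AlgebraicClosure ℚ) :=
    ⟨inferInstance, AlgebraicClosure.isAlgebraic ℚ⟩
  haveI : IsGalois ℚ (AlgebraicClosure ℚ) := inferInstance
  have hopenF : IsOpen (F.fixingSubgroup : Set GQ) := F.fixingSubgroup_isOpen
  have hopen : IsOpen (N : Set GQ) := Subgroup.isOpen_mono hFN hopenF
  have hclosed : IsClosed (N : Set GQ) := Subgroup.isClosed_of_isOpen N hopen
  have hfix : (IntermediateField.fixedField N).fixingSubgroup = N :=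
    InfiniteGalois.fixingSubgroup_fixedField ⟨N, hclosed⟩
  refine ⟨⟨⟨?_, fun q hq A hA => ?_⟩, ?_⟩, hfix⟩
  · -- finite: `L ≤ F`
    have hle : IntermediateField.fixedField N ≤ F := by
      rw [← InfiniteGalois.fixedField_fixingSubgroup F]
      exact IntermediateField.fixedField_antitone hFN
    exact FiniteDimensional.of_injective (IntermediateField.inclusion hle).toLinearMap
      (IntermediateField.inclusion_injective hle)
  · rw [hfix]
    exact hI q hq A hA
  · have hn : (IntermediateField.fixedField N).fixingSubgroup.Normal := by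
      rw [hfix]; infer_instance
    exact (InfiniteGalois.normal_iff_isGalois _).1 hn

/-- A finite-dimensional smooth representation is trivial on `Gal(ℚ̄/F)` for a finite `F/ℚ`. -/
theorem exists_finite_field_acting_trivially (k : Type) [Field k] (M : Rep.{0, 0, 0} k GQ)
    [FiniteDimensional k M]
    (hsm : ∀ m : M, ∃ F : QbarField, FiniteDimensional ℚ F ∧
      ∀ s ∈ F.fixingSubgroup, M.ρ s m = m) :
    ∃ F : QbarField, FiniteDimensional ℚ F ∧ ∀ s ∈ F.fixingSubgroup, M.ρ s = 1 := by
  classical
  let b := Module.finBasis k M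
  choose Fi hFi using fun i => hsm (b i)
  refine ⟨⨆ i, Fi i, ?_, fun s hs => ?_⟩
  · haveI : ∀ i, FiniteDimensional ℚ (Fi i) := fun i => (hFi i).1
    exact IntermediateField.finiteDimensional_iSup_of_finite
  · apply b.ext
    intro i
    have : s ∈ (Fi i).fixingSubgroup :=
      IntermediateField.fixingSubgroup_antitone (le_iSup Fi i) hs
    rw [(hFi i).2 s this]
    rfl

/-- **B-ker**. -/
theorem stmtKernelField : StmtKernelField := by
  intro k _ S M _ hsm hMur
  obtain ⟨F, hF, hFtriv⟩ := exists_finite_field_acting_trivially k M hsm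
  -- the kernel of `ρ`
  let N : Subgroup GQ :=
    { carrier := {g | M.ρ g = 1}
      one_mem' := map_one _
      mul_mem' := fun {a b} ha hb => by
        show M.ρ (a * b) = 1
        rw [map_mul, (ha : M.ρ a = 1), (hb : M.ρ b = 1), one_mul]
      inv_mem' := fun {a} ha => by
        show M.ρ a⁻¹ = 1
        have h1 : M.ρ a⁻¹ * M.ρ a = 1 := by rw [← map_mul, inv_mul_cancel, map_one]
        rw [(ha : M.ρ a = 1), mul_one] at h1
        exact h1 }
  haveI : N.Normal := ⟨fun n hn g => by
    show M.ρ (g * n * g⁻¹) = 1
    rw [map_mul, map_mul, (hn : M.ρ n = 1), mul_one, ← map_mul, mul_inv_cancel, map_one]⟩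
  obtain ⟨hT, hfix⟩ := isTowerField_fixedField_of_normal S N F hF (fun s hs => hFtriv s hs)
    (fun q hq A hA g hg => hMur q hq A hA g hg)
  refine ⟨IntermediateField.fixedField N, hT, fun s hs => ?_⟩
  rw [hfix] at hs
  exact hs

end Fermat.Agent.PT.B
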