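/-
PT-B piece B-mirror (helper72): S55 follows from the abstract Poitou–Tate theorem `StmtPTF`
and ANY concrete datum.

* `mirror_levH1`    : `levH1 (towerS S) A = continuousH1S S A`;
* `mirror_shaOne`   : `D.shaOne A = sha₁ S A` for a concrete datum (`p` odd);
* `mirror_shaTwo`   : a linear bijection `continuousH2S S M → levH2 𝒯 M` matching `sha₂` with
                      the abstract `Ш²`;
* `stmtMirror : StmtMirror`.
-/
import Fermat.Agent.PT.B.Plan2
import Fermat.Agent.PT.B.Arch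
import Fermat.Agent.PT.B.KernelField

set_option autoImplicit false

namespace Fermat.Agent.PT.B

open Fermat.Agent.PT CategoryTheory groupCohomology ExtCitation

section ShaOne

variable {p : ℕ} [Fact p.Prime] (S : Finset Nat.Primes)

theorem mirror_levH1 {k : Type} [CommRing k] (A : Rep.{0} k GQ) :
    levH1 (towerS S) A = continuousH1S S A := by
  ext x
  rw [mem_levH1_iff, mem_continuousH1S_iff]
  constructor
  · rintro ⟨c, hc, rfl⟩
    exact ⟨c, (isLevel₁_towerS_iff S _).1 hc, rfl⟩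
  · rintro ⟨c, hc, rfl⟩
    exact ⟨c, (isLevel₁_towerS_iff S _).2 hc, rfl⟩

theorem mirror_ker_locTotal_congr {k : Type} [Field k] {G : Type} [Group G] {ι : Type}
    {Gloc : ι → Type} [∀ v, Group (Gloc v)] (r r' : ∀ v, Gloc v →* G) (h : ∀ v, r v = r' v)
    (A : Rep.{0} k G) :
    LinearMap.ker (locTotal r A) = LinearMap.ker (locTotal r' A) := by
  obtain rfl : r = r' := funext h
  rfl

theorem mirror_shaOne (hp2 : p ≠ 2) (D : PTDatum p GQ ↥S (GlocS S)) (hD : IsConcreteDatum p S D)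
    (A : Rep.{0} (ZMod p) GQ) : D.shaOne A = sha₁ S A := by
  ext x
  rw [mem_sha₁_iff S hp2, PTDatum.shaOne, Submodule.mem_inf, hD.tower, mirror_levH1,
    mirror_ker_locTotal_congr D.r (fun q : ↥S => primeLocalToGlobal q.1) hD.r, LinearMap.mem_ker]
  refine and_congr_right fun _ => ?_
  constructor
  · intro h q
    exact congrFun h q
  · intro h
    funext q
    exact h q

end ShaOne

section ShaTwo

variable (S : Finset Nat.Primes) {k : Type} [Field k] (M : Rep.{0} k GQ)

theorem mirror_levCocycles₂ : levCocycles₂ (towerS S) M = levelCocyclesS₂ S M := by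
  ext f
  rw [mem_levCocycles₂_iff, mem_levelCocyclesS₂_iff, isLevel₂_towerS_iff]

theorem mirror_levCoboundaries₂ : levCoboundaries₂ (towerS S) M = levelCoboundariesS₂ S M := by
  ext f
  rw [mem_levCoboundaries₂_iff, mem_levelCoboundariesS₂_iff]
  simp only [isLevel₁_towerS_iff]

/-- The identity on cocycles, from the prelude's level cocycles to the abstract ones. -/
noncomputable def mirrorCocycles : ↥(levelCocyclesS₂ S M) →ₗ[k] ↥(levCocycles₂ (towerS S) M) :=
  Submodule.inclusion (le_of_eq (mirror_levCocycles₂ S M).symm)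

/-- The identity on cohomology, from the prelude's `continuousH2S` to the abstract `levH2`. -/
noncomputable def mirrorH2 : continuousH2S S M →ₗ[k] levH2 (towerS S) M :=
  Submodule.mapQ _ _ (mirrorCocycles S M) (fun c hc => by
    simp only [Submodule.mem_comap, Submodule.subtype_apply] at hc ⊢
    rw [mirror_levCoboundaries₂]
    exact hc)

theorem mirrorH2_mk (c : ↥(levelCocyclesS₂ S M)) :
    mirrorH2 S M (Submodule.Quotient.mk c) = Submodule.Quotient.mk (mirrorCocycles S M c) :=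
  rfl

theorem mirrorH2_bijective : Function.Bijective (mirrorH2 S M) := by
  constructor
  · rw [← LinearMap.ker_eq_bot, LinearMap.ker_eq_bot']
    intro x hx
    obtain ⟨c, rfl⟩ := Submodule.Quotient.mk_surjective _ x
    rw [mirrorH2_mk, Submodule.Quotient.mk_eq_zero, Submodule.mem_comap] at hx
    rw [Submodule.Quotient.mk_eq_zero, Submodule.mem_comap]
    rw [mirror_levCoboundaries₂] at hx
    exact hx
  · intro y
    obtain ⟨c, rfl⟩ := Submodule.Quotient.mk_surjective _ y
    exact ⟨Submodule.Quotient.mk ⟨c.1, by rw [← mirror_levCocycles₂]; exact c.2⟩, rfl⟩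

theorem mirror_comap_mem (q : Nat.Primes) (U : Subgroup GQ) (hU : U ∈ (towerS S).lev) :
    U.comap (primeLocalToGlobal q) ∈ (towerLocP q).lev :=
  letI : Fact (q : ℕ).Prime := ⟨q.2⟩
  comap_mem_towerLoc S (q : ℕ) U hU

theorem mirror_isLevel₁_towerLocP (q : Nat.Primes) {X : Type*}
    (f : primeLocalGaloisGroup q → X) :
    IsLevel₁ (towerLocP q) f ↔ IsLevelConstant₁ (primeLocalToGlobal q) f :=
  letI : Fact (q : ℕ).Prime := ⟨q.2⟩
  isLevel₁_towerLoc_iff (q : ℕ) f

theorem mirror_levCoboundaries₂_loc (q : Nat.Primes) (N : Rep.{0} k (primeLocalGaloisGroup q)) :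
    levCoboundaries₂ (towerLocP q) N = levelCoboundaries₂ (primeLocalToGlobal q) N := by
  ext f
  rw [mem_levCoboundaries₂_iff, mem_levelCoboundaries₂_iff]
  simp only [mirror_isLevel₁_towerLocP]

/-- The local restriction maps agree. -/
theorem mirror_loc_iff (q : ↥S)
    (hc : ∀ U ∈ (towerS S).lev, U.comap (primeLocalToGlobal q.1) ∈ (towerLocP q.1).lev)
    (x : continuousH2S S M) :
    locTotal₂S S M x (Sum.inr q) = 0 ↔
      levH2Res (towerS S) (towerLocP q.1) (primeLocalToGlobal q.1) hc M (mirrorH2 S M x) = 0 := by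
  obtain ⟨c, rfl⟩ := Submodule.Quotient.mk_surjective _ x
  rw [mirrorH2_mk]
  refine Iff.trans (b := cochainsPullPush₂ (primeLocalToGlobal q.1)
      (LinearMap.id : M →ₗ[k] Rep.res (primeLocalToGlobal q.1) M) c.1 ∈
      levelCoboundaries₂ (primeLocalToGlobal q.1) (Rep.res (primeLocalToGlobal q.1) M)) ?_ ?_
  · exact continuousH2π_eq_zero_iff (primeLocalToGlobal q.1) (Rep.res (primeLocalToGlobal q.1) M)
      ⟨cochainsPullPush₂ (primeLocalToGlobal q.1)
          (LinearMap.id : M →ₗ[k] Rep.res (primeLocalToGlobal q.1) M) c.1,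
        cochainsPullPush₂_mem_levelCocycles₂ (rH := MonoidHom.id _) (primeLocalToGlobal q.1)
          (fun _ => rfl) _ (fun _ _ => rfl) (levelCocyclesS₂_le_levelCocycles₂ S M c.2)⟩
  · rw [← mirror_levCoboundaries₂_loc]
    exact (levH2π_eq_zero_iff (towerLocP q.1) (Rep.res (primeLocalToGlobal q.1) M)
      (levCocycles₂Res (towerS S) (towerLocP q.1) (primeLocalToGlobal q.1) hc M
        (mirrorCocycles S M c))).symm

end ShaTwo

section Main

variable {p : ℕ} [Fact p.Prime] (S : Finset Nat.Primes)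

theorem mirror_transport {G : Type} [Group G] {k : Type} [Field k] (M : Rep.{0} k G)
    {χ χ' : G →* kˣ} (h : χ = χ') (P : Rep.{0} k G → Prop) (hP : P (M.dualTwist χ)) :
    P (M.dualTwist χ') := h ▸ hP

theorem mirror_shaTwo_gen (hp2 : p ≠ 2) (M : Rep.{0} (ZMod p) GQ) (𝒯 : Tower GQ)
    (r : ∀ q : ↥S, GlocS S q →* GQ) (𝒯loc : ∀ q : ↥S, Tower (GlocS S q))
    (hc : ∀ v, ∀ U ∈ 𝒯.lev, U.comap (r v) ∈ (𝒯loc v).lev)
    (h𝒯 : 𝒯 = towerS S) (hr : ∀ q, r q = primeLocalToGlobal q.1)
    (hloc : ∀ q, 𝒯loc q = towerLocP q.1) :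
    ∃ e : continuousH2S S M →ₗ[ZMod p] levH2 𝒯 M, Function.Bijective e ∧
      ∀ x, x ∈ sha₂ S M ↔
        e x ∈ LinearMap.ker
          (LinearMap.pi fun v => levH2Res 𝒯 (𝒯loc v) (r v) (hc v) M) := by
  subst h𝒯
  obtain rfl : r = fun q : ↥S => primeLocalToGlobal q.1 := funext hr
  obtain rfl : 𝒯loc = fun q : ↥S => towerLocP q.1 := funext hloc
  refine ⟨mirrorH2 S M, mirrorH2_bijective S M, fun x => ?_⟩
  rw [mem_sha₂_iff S hp2, LinearMap.mem_ker]
  constructor
  · intro h
    funext q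
    exact (mirror_loc_iff S M q _ x).1 (h q)
  · intro h q
    exact (mirror_loc_iff S M q _ x).2 (congrFun h q)

end Main

/-- **B-mirror**: S55 from the abstract Poitou–Tate theorem and a concrete datum. -/
theorem stmtMirror : StmtMirror := by
  intro hPTF p _ hp2 S hpS D hD M _ hsm hMur
  obtain ⟨L, hL, hLM⟩ := stmtKernelField (ZMod p) S M hsm hMur
  have hlev : ∃ U ∈ D.𝒯.lev, ∀ s ∈ U, M.ρ s = 1 := by
    rw [hD.tower]
    exact ⟨L.fixingSubgroup, ⟨L, hL.1, rfl⟩, hLM⟩
  obtain ⟨B₀, hB1, hB2⟩ := mirror_transport M hD.χ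
    (fun A => ∃ B : D.shaOne A →ₗ[ZMod p] D.shaTwo M →ₗ[ZMod p] ZMod p,
      (∀ y, (∀ x, B y x = 0) → y = 0) ∧ (∀ x, (∀ y, B y x = 0) → x = 0))
    (hPTF p GQ ↥S (GlocS S) D M hlev)
  obtain ⟨e, he, hsha⟩ :=
    mirror_shaTwo_gen S hp2 M D.𝒯 D.r D.𝒯loc D.comap_mem hD.tower hD.r hD.towerLoc
  have h1 := mirror_shaOne S hp2 D hD (M.dualTwist (cycloChar p))
  refine ⟨B₀.compl₁₂ (Submodule.inclusion (le_of_eq h1.symm))
    (e.restrict (p := sha₂ S M) (q := D.shaTwo M) (fun x hx => (hsha x).1 hx)), ?_, ?_⟩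
  · intro y hy
    have hy0 : Submodule.inclusion (le_of_eq h1.symm) y = 0 := by
      refine hB1 _ fun x' => ?_
      obtain ⟨x, hx⟩ := he.2 x'.1
      have hxs : x ∈ sha₂ S M := (hsha x).2 (by rw [hx]; exact x'.2)
      have := hy ⟨x, hxs⟩
      rw [LinearMap.compl₁₂_apply] at this
      have hx' : e.restrict (p := sha₂ S M) (q := D.shaTwo M) (fun x hx => (hsha x).1 hx)
          ⟨x, hxs⟩ = x' := Subtype.ext hx
      rwa [hx'] at this
    exact Submodule.inclusion_injective _ (by rw [hy0, map_zero])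
  · intro x hx
    have hx0 : e.restrict (p := sha₂ S M) (q := D.shaTwo M) (fun x hx => (hsha x).1 hx) x = 0 := by
      refine hB2 _ fun y' => ?_
      have hy's : (y' : H1 (M.dualTwist (cycloChar p))) ∈ sha₁ S (M.dualTwist (cycloChar p)) := by
        rw [← h1]; exact y'.2
      have := hx ⟨y'.1, hy's⟩
      rw [LinearMap.compl₁₂_apply] at this
      exact this
    have : e x.1 = 0 := congrArg Subtype.val hx0
    exact Subtype.ext (he.1 (this.trans (map_zero e).symm))

end Fermat.Agent.PT.B
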