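/-
PT-B, piece I1 (helper81): in a tower field all inertia groups at primes outside `S` are trivial.
`stmtRam : StmtRam`.

Proof: if `σ x - x ∈ P` for all `x ∈ 𝓞 L`, choose a valuation subring `A` of `ℚ̄` whose maximal
ideal contains `P` (Cheb/Glue.lean), lift `σ` to `G_ℚ`, and apply the inertia lifting theorem
(Common/InertiaLift.lean): some `σ'` in the inertia group of `A` restricts to `σ`; but the inertia
group of `A` fixes `L` (`IsUnramifiedOutside`), so `σ = 1`.
-/
import Fermat.Agent.PT.B.Plan3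
import Fermat.Agent.Common.InertiaLift
import Fermat.Agent.Cheb.Glue

set_option autoImplicit false
set_option linter.style.haveILetI false

noncomputable section

namespace Fermat.Agent.PT.B

open NumberField IsDedekindDomain Fermat.Agent.PT.G

/-- A nonzero prime of the ring of integers of a number field contains a rational prime. -/
theorem ram_exists_prime_mem {L : Type} [Field L] [NumberField L]
    (P : HeightOneSpectrum (𝓞 L)) : ∃ q : ℕ, q.Prime ∧ (q : 𝓞 L) ∈ P.asIdeal := by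
  haveI : P.asIdeal.IsMaximal := P.isMaximal
  letI := Ideal.Quotient.field P.asIdeal
  obtain ⟨q, hq⟩ := CharP.exists (𝓞 L ⧸ P.asIdeal)
  have hn0 : Ideal.absNorm P.asIdeal ≠ 0 := by
    rw [Ne, Ideal.absNorm_eq_zero_iff]
    exact P.ne_bot
  have hnP : ((Ideal.absNorm P.asIdeal : ℕ) : 𝓞 L ⧸ P.asIdeal) = 0 := by
    have h := Ideal.absNorm_mem P.asIdeal
    have h2 := (Ideal.Quotient.eq_zero_iff_mem).2 h
    rwa [map_natCast] at h2
  have hq0 : q ≠ 0 := by
    rintro rfl
    have := (CharP.cast_eq_zero_iff (𝓞 L ⧸ P.asIdeal) 0 _).1 hnP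
    exact hn0 (Nat.eq_zero_of_zero_dvd this)
  have hqp : q.Prime := (CharP.char_is_prime_or_zero (𝓞 L ⧸ P.asIdeal) q).resolve_right hq0
  refine ⟨q, hqp, ?_⟩
  have h1 : ((q : ℕ) : 𝓞 L ⧸ P.asIdeal) = 0 := CharP.cast_eq_zero _ q
  rw [← map_natCast (Ideal.Quotient.mk P.asIdeal)] at h1
  exact (Ideal.Quotient.eq_zero_iff_mem).1 h1

/-- **I1** (RAM): in a tower field all inertia groups at primes outside `S` are trivial. -/
theorem stmtRam : StmtRam := by
  intro S L hL _ σ hσ P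
  obtain ⟨P, hP⟩ := P
  show ∃ x : 𝓞 L, RingOfIntegers.mapRingEquiv (σ : L ≃+* L) x - x ∉ P.asIdeal
  by_contra hcon
  have hcon : ∀ x : 𝓞 L, RingOfIntegers.mapRingEquiv (σ : L ≃+* L) x - x ∈ P.asIdeal := by
    intro x
    by_contra hx
    exact hcon ⟨x, hx⟩
  haveI : IsGalois ℚ L := hL.2
  haveI := Fermat.Agent.Common.isAlgClosure_rat_qbar
  haveI : Normal ℚ (AlgebraicClosure ℚ) := IsAlgClosure.normal ℚ (AlgebraicClosure ℚ)
  have hPne : P.asIdeal ≠ ⊤ := P.isPrime.ne_top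
  obtain ⟨A, hA⟩ := Fermat.Agent.Cheb.exists_valuationSubring_of_ideal L P.asIdeal hPne
  obtain ⟨q, hq, hqP⟩ := ram_exists_prime_mem P
  have hqS : (⟨q, hq⟩ : Nat.Primes) ∉ S := by
    intro hmem
    apply hP
    have hdvd : q ∣ sProd S :=
      Finset.dvd_prod_of_mem (fun q : Nat.Primes => (q : ℕ)) hmem
    obtain ⟨c, hc⟩ := hdvd
    rw [hc, Nat.cast_mul]
    exact Ideal.mul_mem_right _ _ hqP
  have hAq : A.LiesOverPrime q := by
    have h := hA _ hqP
    have h2 : Fermat.Agent.Cheb.intEmb L (q : 𝓞 L) = (q : AlgebraicClosure ℚ) :=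
      map_natCast (Fermat.Agent.Cheb.intEmb L) q
    rw [h2] at h
    exact h
  -- lift `σ` to `G_ℚ`
  let σt : AlgebraicClosure ℚ ≃ₐ[ℚ] AlgebraicClosure ℚ := σ.liftNormal (AlgebraicClosure ℚ)
  have hσt : ∀ x : L, σt (x : AlgebraicClosure ℚ) = ((σ x : L) : AlgebraicClosure ℚ) :=
    fun x => σ.liftNormal_commutes (AlgebraicClosure ℚ) x
  obtain ⟨σ', hσ'I, hσ'⟩ := Fermat.Agent.Common.exists_mem_inertiaSubgroupIn_of_congr L q hq A
    hAq σt (by
      intro x hx hxint
      have hint : IsIntegral ℤ (⟨x, hx⟩ : L) :=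
        (isIntegral_algebraMap_iff (algebraMap L (AlgebraicClosure ℚ)).injective).1 hxint
      let y : 𝓞 L := ⟨⟨x, hx⟩, hint⟩
      have h := hA _ (hcon y)
      have h2 : Fermat.Agent.Cheb.intEmb L
          (RingOfIntegers.mapRingEquiv (σ : L ≃+* L) y - y) = σt x - x := by
        rw [map_sub]
        have h3 := hσt ⟨x, hx⟩
        rw [h3]
        rfl
      rw [h2] at h
      exact h)
  have hfix : σ' ∈ L.fixingSubgroup := hL.1.2 ⟨q, hq⟩ hqS A hAq hσ'I
  apply hσ
  ext x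
  have h1 : σ' (x : AlgebraicClosure ℚ) = σt (x : AlgebraicClosure ℚ) := hσ' x x.2
  have h2 : σ' (x : AlgebraicClosure ℚ) = (x : AlgebraicClosure ℚ) :=
    (IntermediateField.mem_fixingSubgroup_iff L σ').1 hfix x x.2
  rw [hσt] at h1
  show ((σ x : L) : AlgebraicClosure ℚ) = _
  rw [← h1, h2]
  rfl

end Fermat.Agent.PT.B

end
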